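import Fermat.Agent.KL.Interface2

/-!
# S36 : abstract interface (commutative algebra side), architect helper84

`PosAt P z`  : `z ∈ P B_P`          (`z` has positive valuation at the prime `P`)
`UnitAt P z` : `z ∈ (B_P)ˣ`
`IntAt P z`  : `z ∈ B_P`
`GoodAt ϖ m u 𝔫` : locally at the closed point `𝔫`, `u = w ^ m * unit`, where the restriction of `w`
to every component of the special fibre through `𝔫` takes the value `1` at `𝔫`.
-/

set_option autoImplicit false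

namespace Fermat.Agent.S36

open Fermat.Agent.KL

section Defs

variable {B F : Type*} [CommRing B] [Field F] [Algebra B F]

/-- `z ∈ P B_P`. -/
def PosAt (P : Ideal B) (z : F) : Prop :=
  ∃ s : B, s ∉ P ∧ ∃ p ∈ P, algebraMap B F s * z = algebraMap B F p

/-- `z ∈ B_P`. -/
def IntAt (P : Ideal B) (z : F) : Prop :=
  ∃ s : B, s ∉ P ∧ ∃ p : B, algebraMap B F s * z = algebraMap B F p

/-- `z ∈ (B_P)ˣ`. -/
def UnitAt (P : Ideal B) (z : F) : Prop :=
  ∃ s : B, s ∉ P ∧ ∃ p : B, p ∉ P ∧ algebraMap B F s * z = algebraMap B F p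

/-- `w` restricted to the component `P` takes at the point `𝔫 ⊇ P` the same value as `a`
(`a` a function regular at `𝔫`):  `w ∈ a + 𝔫 B_𝔫 + P B_P`. -/
def ValAt (𝔫 P : Ideal B) (w a : F) : Prop :=
  ∃ c : F, PosAt 𝔫 c ∧ PosAt P (w - a - c)

/-- The local condition of the covering theorem. -/
def GoodAt (ϖ : B) (m : ℕ) (u : F) (𝔫 : Ideal B) : Prop :=
  ∃ w : F, w ≠ 0 ∧ UnitAt 𝔫 (u / w ^ m) ∧
    ∀ P ∈ (Ideal.span {ϖ}).minimalPrimes, P ≤ 𝔫 → ValAt 𝔫 P w 1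

/-- The condition of the covering theorem on one chart. -/
def GoodChart (ϖ : B) (m : ℕ) (u : F) : Prop :=
  (∀ P ∈ (Ideal.span {ϖ}).minimalPrimes, PosAt P (u - 1)) ∧
    ∀ 𝔫 : Ideal B, 𝔫.IsMaximal → ϖ ∈ 𝔫 → GoodAt ϖ m u 𝔫

end Defs

/-- **COV** (the covering theorem; non-reduced, reducible special fibres allowed).
`L` is an auxiliary field (in the application `E((q))`) in which `u` has an `m`-th root and whose
elements integral over `A₀` are in `A₀`. -/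
def Stmt_COV : Prop :=
  ∀ (A₀ F L : Type) [CommRing A₀] [IsDomain A₀] [IsDiscreteValuationRing A₀] [Field F] [CharZero F]
    [Algebra A₀ F] [FaithfulSMul A₀ F] [Field L] [Algebra F L] [Algebra A₀ L]
    [IsScalarTower A₀ F L] (ϖ : A₀) (t : F) (m : ℕ) (ζ : A₀) (u : F) (y : L),
    Irreducible ϖ → Transcendental A₀ t → FinOverR (PolyR A₀ t) F →
    (∀ c : L, IsIntegral A₀ c → c ∈ (algebraMap A₀ L).range) →
    IsUnit (m : A₀) → IsPrimitiveRoot ζ m → u ≠ 0 → y ^ m = algebraMap F L u →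
    GoodChart (cst A₀ t ϖ) m u → GoodChart (cst A₀ t⁻¹ ϖ) m u →
    ∃ g : F, g ^ m = u

/-- **APPROX** (weak approximation at finitely many primes none of which contains another). -/
def Stmt_Approx : Prop :=
  ∀ (B F : Type) [CommRing B] [IsDomain B] [Field F] [Algebra B F] [IsFractionRing B F]
    (ι : Type) [Finite ι] (P : ι → Ideal B), (∀ i, (P i).IsPrime) →
    (∀ i j, P i ≤ P j → i = j) → ∀ x : ι → F, (∀ i, UnitAt (P i) (x i)) →
    ∃ z : F, z ≠ 0 ∧ ∀ i, PosAt (P i) (z - x i)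

/-- **LPB** (Lemma LP at a closed point of a chart, elementwise form).  `a` is a prime element
locally at `𝔫`, and `𝔫 B_𝔫 = (a, b)`. -/
def Stmt_LPB : Prop :=
  ∀ (B F : Type) [CommRing B] [IsDomain B] [IsNoetherianRing B] [IsIntegrallyClosed B]
    [Field F] [Algebra B F] [IsFractionRing B F] (𝔫 : Ideal B) (a b : B) (m : ℕ) (u : F),
    𝔫.IsMaximal → a ∈ 𝔫 → a ≠ 0 → LocPrime a 𝔫 →
    (∀ x ∈ 𝔫, ∃ s : B, s ∉ 𝔫 ∧ s * x ∈ Ideal.span {a, b}) → 0 < m → u ≠ 0 →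
    (∀ 𝔭 : Ideal B, IsHtOne 𝔭 → 𝔭 ≤ 𝔫 → ∃ g : F, g ≠ 0 ∧ UnitAt 𝔭 (u / g ^ m)) →
    ∃ w : F, w ≠ 0 ∧ UnitAt 𝔫 (u / w ^ m)

/-- **ONE** (closed points lying on a single component `P` which is normal at `𝔫`):
`GoodAt` is automatic.  Normality of `(B/P)_𝔫` is stated elementwise: an element `x` of `B_P`
whose `m`-th power is congruent mod `P B_P` to a unit at `𝔫` is congruent to an element of `B_𝔫`. -/
def Stmt_One : Prop :=
  ∀ (B F : Type) [CommRing B] [IsDomain B] [IsIntegrallyClosed B] [Field F] [Algebra B F]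
    [IsFractionRing B F] (ϖ : B) (𝔫 P : Ideal B) (m : ℕ) (u w : F), 𝔫.IsMaximal → P.IsPrime → P ≤ 𝔫 →
    (∀ Q ∈ (Ideal.span {ϖ}).minimalPrimes, Q ≤ 𝔫 → Q = P) → 0 < m →
    (∀ x e : F, UnitAt P x → UnitAt 𝔫 e → PosAt P (x ^ m - e) → ∃ x' : F, IntAt 𝔫 x' ∧
      PosAt P (x - x')) →
    PosAt P (u - 1) → w ≠ 0 → UnitAt 𝔫 (u / w ^ m) → GoodAt ϖ m u 𝔫

end Fermat.Agent.S36
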