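import Fermat.Agent.S36.AbsInterface

/-!
# S36 : basic API of `IntAt`, `PosAt`, `UnitAt`, `ValAt` (helper25)

`B` a domain with fraction field `F`, `P` a prime ideal (instance argument: use `haveI`).
-/

set_option autoImplicit false

namespace Fermat.Agent.S36

section API

variable {B F : Type*} [CommRing B] [Field F] [Algebra B F]

/-! ### no hypothesis on `B` -/

lemma PosAt.intAt {P : Ideal B} {z : F} (h : PosAt P z) : IntAt P z := by
  obtain ⟨s, hs, p, -, e⟩ := h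
  exact ⟨s, hs, p, e⟩

lemma UnitAt.intAt {P : Ideal B} {z : F} (h : UnitAt P z) : IntAt P z := by
  obtain ⟨s, hs, p, -, e⟩ := h
  exact ⟨s, hs, p, e⟩

lemma IntAt.mono {P 𝔫 : Ideal B} (hP : P ≤ 𝔫) {z : F} (h : IntAt 𝔫 z) : IntAt P z := by
  obtain ⟨s, hs, p, e⟩ := h
  exact ⟨s, fun h => hs (hP h), p, e⟩

lemma UnitAt.mono {P 𝔫 : Ideal B} (hP : P ≤ 𝔫) {z : F} (h : UnitAt 𝔫 z) : UnitAt P z := by
  obtain ⟨s, hs, p, hp, e⟩ := h
  exact ⟨s, fun h => hs (hP h), p, fun h => hp (hP h), e⟩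

lemma IntAt.unitAt_of_not_posAt {P : Ideal B} {z : F} (h : IntAt P z) (h' : ¬ PosAt P z) :
    UnitAt P z := by
  obtain ⟨s, hs, p, e⟩ := h
  exact ⟨s, hs, p, fun hp => h' ⟨s, hs, p, hp, e⟩, e⟩

lemma IntAt.neg {P : Ideal B} {z : F} (h : IntAt P z) : IntAt P (-z) := by
  obtain ⟨s, hs, p, e⟩ := h
  exact ⟨s, hs, -p, by rw [mul_neg, e, map_neg]⟩

lemma PosAt.neg {P : Ideal B} {z : F} (h : PosAt P z) : PosAt P (-z) := by
  obtain ⟨s, hs, p, hp, e⟩ := h
  exact ⟨s, hs, -p, P.neg_mem hp, by rw [mul_neg, e, map_neg]⟩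

lemma UnitAt.neg {P : Ideal B} {z : F} (h : UnitAt P z) : UnitAt P (-z) := by
  obtain ⟨s, hs, p, hp, e⟩ := h
  exact ⟨s, hs, -p, fun h => hp (by simpa using P.neg_mem h), by rw [mul_neg, e, map_neg]⟩

/-! ### `P` prime -/

variable {P : Ideal B} [P.IsPrime]

lemma one_not_mem_of_isPrime : (1 : B) ∉ P := fun h =>
  (inferInstance : P.IsPrime).ne_top ((Ideal.eq_top_iff_one P).2 h)

lemma intAt_algebraMap (b : B) : IntAt P (algebraMap B F b) :=
  ⟨1, one_not_mem_of_isPrime, b, by rw [map_one, one_mul]⟩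

lemma posAt_algebraMap {b : B} (hb : b ∈ P) : PosAt P (algebraMap B F b) :=
  ⟨1, one_not_mem_of_isPrime, b, hb, by rw [map_one, one_mul]⟩

lemma unitAt_algebraMap {b : B} (hb : b ∉ P) : UnitAt P (algebraMap B F b) :=
  ⟨1, one_not_mem_of_isPrime, b, hb, by rw [map_one, one_mul]⟩

lemma intAt_zero : IntAt P (0 : F) := by simpa using intAt_algebraMap (F := F) (P := P) 0

lemma intAt_one : IntAt P (1 : F) := by simpa using intAt_algebraMap (F := F) (P := P) 1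

lemma posAt_zero : PosAt P (0 : F) := by
  simpa using posAt_algebraMap (F := F) (P := P) P.zero_mem

lemma unitAt_one : UnitAt P (1 : F) := by
  simpa using unitAt_algebraMap (F := F) (P := P) one_not_mem_of_isPrime

lemma mul_not_mem_of_isPrime {s s' : B} (hs : s ∉ P) (hs' : s' ∉ P) : s * s' ∉ P := fun h =>
  ((inferInstance : P.IsPrime).mem_or_mem h).elim hs hs'

lemma IntAt.add {z z' : F} (h : IntAt P z) (h' : IntAt P z') : IntAt P (z + z') := by
  obtain ⟨s, hs, p, e⟩ := h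
  obtain ⟨s', hs', p', e'⟩ := h'
  refine ⟨s * s', mul_not_mem_of_isPrime hs hs', s' * p + s * p', ?_⟩
  rw [map_add, map_mul, map_mul, map_mul, ← e, ← e']
  ring

lemma IntAt.mul {z z' : F} (h : IntAt P z) (h' : IntAt P z') : IntAt P (z * z') := by
  obtain ⟨s, hs, p, e⟩ := h
  obtain ⟨s', hs', p', e'⟩ := h'
  refine ⟨s * s', mul_not_mem_of_isPrime hs hs', p * p', ?_⟩
  rw [map_mul, map_mul, ← e, ← e']
  ring

lemma IntAt.sub {z z' : F} (h : IntAt P z) (h' : IntAt P z') : IntAt P (z - z') := by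
  rw [sub_eq_add_neg]
  exact h.add h'.neg

lemma IntAt.pow {z : F} (h : IntAt P z) (n : ℕ) : IntAt P (z ^ n) := by
  induction n with
  | zero => rw [pow_zero]; exact intAt_one
  | succ n ih => rw [pow_succ]; exact ih.mul h

lemma PosAt.add {z z' : F} (h : PosAt P z) (h' : PosAt P z') : PosAt P (z + z') := by
  obtain ⟨s, hs, p, hp, e⟩ := h
  obtain ⟨s', hs', p', hp', e'⟩ := h'
  refine ⟨s * s', mul_not_mem_of_isPrime hs hs', s' * p + s * p',
    P.add_mem (P.mul_mem_left _ hp) (P.mul_mem_left _ hp'), ?_⟩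
  rw [map_add, map_mul, map_mul, map_mul, ← e, ← e']
  ring

lemma PosAt.sub {z z' : F} (h : PosAt P z) (h' : PosAt P z') : PosAt P (z - z') := by
  rw [sub_eq_add_neg]
  exact h.add h'.neg

lemma PosAt.mul_intAt {z z' : F} (h : PosAt P z) (h' : IntAt P z') : PosAt P (z * z') := by
  obtain ⟨s, hs, p, hp, e⟩ := h
  obtain ⟨s', hs', p', e'⟩ := h'
  refine ⟨s * s', mul_not_mem_of_isPrime hs hs', p * p', P.mul_mem_right _ hp, ?_⟩
  rw [map_mul, map_mul, ← e, ← e']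
  ring

lemma IntAt.mul_posAt {z z' : F} (h : IntAt P z) (h' : PosAt P z') : PosAt P (z * z') := by
  rw [mul_comm]
  exact h'.mul_intAt h

lemma PosAt.mul {z z' : F} (h : PosAt P z) (h' : PosAt P z') : PosAt P (z * z') :=
  h.mul_intAt h'.intAt

lemma PosAt.pow {z : F} (h : PosAt P z) {n : ℕ} (hn : 0 < n) : PosAt P (z ^ n) := by
  obtain ⟨k, rfl⟩ : ∃ k, n = k + 1 := ⟨n - 1, by omega⟩
  rw [pow_succ]
  exact (h.intAt.pow k).mul_posAt h

lemma UnitAt.mul {z z' : F} (h : UnitAt P z) (h' : UnitAt P z') : UnitAt P (z * z') := by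
  obtain ⟨s, hs, p, hp, e⟩ := h
  obtain ⟨s', hs', p', hp', e'⟩ := h'
  refine ⟨s * s', mul_not_mem_of_isPrime hs hs', p * p', mul_not_mem_of_isPrime hp hp', ?_⟩
  rw [map_mul, map_mul, ← e, ← e']
  ring

lemma UnitAt.pow {z : F} (h : UnitAt P z) (n : ℕ) : UnitAt P (z ^ n) := by
  induction n with
  | zero => rw [pow_zero]; exact unitAt_one
  | succ n ih => rw [pow_succ]; exact ih.mul h

/-- `a ≡ b` implies `a ^ n ≡ b ^ n`. -/
lemma PosAt.pow_sub_pow {a b : F} (ha : IntAt P a) (hb : IntAt P b) (h : PosAt P (a - b)) (n : ℕ) :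
    PosAt P (a ^ n - b ^ n) := by
  induction n with
  | zero => rw [pow_zero, pow_zero, sub_self]; exact posAt_zero
  | succ n ih =>
    have e : a ^ (n + 1) - b ^ (n + 1) = a ^ n * (a - b) + (a ^ n - b ^ n) * b := by ring
    rw [e]
    exact ((ha.pow n).mul_posAt h).add (ih.mul_intAt hb)

/-! ### `B` a domain with fraction field `F` -/

section Frac

variable [IsDomain B] [IsFractionRing B F]

omit [P.IsPrime] in
lemma algebraMap_ne_zero_of_not_mem {s : B} (hs : s ∉ P) : algebraMap B F s ≠ 0 := by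
  intro h
  have : s = 0 := (IsFractionRing.injective B F) (by rw [h, map_zero])
  exact hs (this ▸ P.zero_mem)

omit [P.IsPrime] in
lemma UnitAt.ne_zero {z : F} (h : UnitAt P z) : z ≠ 0 := by
  obtain ⟨s, hs, p, hp, e⟩ := h
  rintro rfl
  rw [mul_zero] at e
  exact algebraMap_ne_zero_of_not_mem hp e.symm

omit [P.IsPrime] in
lemma UnitAt.inv {z : F} (h : UnitAt P z) : UnitAt P z⁻¹ := by
  have hz := h.ne_zero
  obtain ⟨s, hs, p, hp, e⟩ := h
  refine ⟨p, hp, s, hs, ?_⟩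
  rw [← e, mul_assoc, mul_inv_cancel₀ hz, mul_one]

lemma UnitAt.div {z z' : F} (h : UnitAt P z) (h' : UnitAt P z') : UnitAt P (z / z') := by
  rw [div_eq_mul_inv]
  exact h.mul h'.inv

lemma UnitAt.not_posAt {z : F} (h : UnitAt P z) : ¬ PosAt P z := by
  obtain ⟨s, hs, p, hp, e⟩ := h
  rintro ⟨s', hs', p', hp', e'⟩
  have h1 : s' * p = s * p' := by
    apply IsFractionRing.injective B F
    rw [map_mul, map_mul, ← e, ← e']
    ring
  have h2 : s' * p ∈ P := h1 ▸ P.mul_mem_left _ hp'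
  exact mul_not_mem_of_isPrime hs' hp h2

lemma not_posAt_one : ¬ PosAt P (1 : F) := unitAt_one.not_posAt

lemma unitAt_iff {z : F} : UnitAt P z ↔ IntAt P z ∧ IntAt P z⁻¹ ∧ z ≠ 0 := by
  constructor
  · intro h
    exact ⟨h.intAt, h.inv.intAt, h.ne_zero⟩
  · rintro ⟨⟨s, hs, p, e⟩, ⟨s', hs', p', e'⟩, hz⟩
    refine ⟨s, hs, p, fun hp => ?_, e⟩
    have h1 : s * s' = p * p' := by
      apply IsFractionRing.injective B F
      rw [map_mul, map_mul, ← e, ← e']
      field_simp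
    exact mul_not_mem_of_isPrime hs hs' (h1 ▸ P.mul_mem_right _ hp)

lemma unitAt_iff_intAt_not_posAt {z : F} : UnitAt P z ↔ IntAt P z ∧ ¬ PosAt P z :=
  ⟨fun h => ⟨h.intAt, h.not_posAt⟩, fun h => h.1.unitAt_of_not_posAt h.2⟩

lemma UnitAt.add_posAt {z c : F} (h : UnitAt P z) (hc : PosAt P c) : UnitAt P (z + c) := by
  refine (h.intAt.add hc.intAt).unitAt_of_not_posAt fun h' => h.not_posAt ?_
  have := h'.sub hc
  rwa [add_sub_cancel_right] at this

lemma PosAt.one_add_unitAt {z : F} (h : PosAt P z) : UnitAt P (1 + z) := unitAt_one.add_posAt h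

/-- if `z ≡ z'` and `z'` is a unit then `z` is a unit. -/
lemma UnitAt.of_sub_posAt {z z' : F} (h : UnitAt P z') (hc : PosAt P (z - z')) : UnitAt P z := by
  have := h.add_posAt hc
  rwa [add_sub_cancel] at this

lemma UnitAt.of_pow {z : F} {n : ℕ} (hn : 0 < n) (hz : IntAt P z) (h : UnitAt P (z ^ n)) :
    UnitAt P z :=
  hz.unitAt_of_not_posAt fun h' => h.not_posAt (h'.pow hn)

/-- an element regular at `𝔫` which vanishes on the component `P ≤ 𝔫` vanishes at `𝔫`. -/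
lemma IntAt.posAt_of_posAt {𝔫 : Ideal B} (hP : P ≤ 𝔫) {z : F} (h : IntAt 𝔫 z) (h' : PosAt P z) :
    PosAt 𝔫 z := by
  obtain ⟨s, hs, p, e⟩ := h
  obtain ⟨s', hs', p', hp', e'⟩ := h'
  have h1 : s' * p = s * p' := by
    apply IsFractionRing.injective B F
    rw [map_mul, map_mul, ← e, ← e']
    ring
  have h2 : s' * p ∈ P := h1 ▸ P.mul_mem_left _ hp'
  have h3 : p ∈ P := ((inferInstance : P.IsPrime).mem_or_mem h2).resolve_left hs'
  exact ⟨s, hs, p, hP h3, e⟩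

omit [P.IsPrime] in
/-- normality: `z ^ m ∈ B_P` implies `z ∈ B_P`. -/
lemma IntAt.of_pow [IsIntegrallyClosed B] {z : F} {m : ℕ} (hm : 0 < m) (h : IntAt P (z ^ m)) :
    IntAt P z := by
  obtain ⟨s, hs, p, e⟩ := h
  obtain ⟨k, rfl⟩ : ∃ k, m = k + 1 := ⟨m - 1, by omega⟩
  have h1 : (algebraMap B F s * z) ^ (k + 1) = algebraMap B F (s ^ k * p) := by
    rw [map_mul, map_pow, ← e]
    ring
  have h2 : IsIntegral B (algebraMap B F s * z) :=
    IsIntegral.of_pow (Nat.succ_pos k) (h1 ▸ isIntegral_algebraMap)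
  obtain ⟨b, hb⟩ := IsIntegrallyClosed.isIntegral_iff.1 h2
  exact ⟨s, hs, b, hb.symm⟩

/-- normality: `z ^ m ∈ (B_P)ˣ` implies `z ∈ (B_P)ˣ`. -/
lemma UnitAt.of_pow' [IsIntegrallyClosed B] {z : F} {m : ℕ} (hm : 0 < m) (h : UnitAt P (z ^ m)) :
    UnitAt P z :=
  UnitAt.of_pow hm (IntAt.of_pow hm h.intAt) h

/-! ### `ValAt` -/

variable {𝔫 : Ideal B} [𝔫.IsPrime]

omit [IsDomain B] [IsFractionRing B F] in
lemma ValAt.of_posAt {w a : F} (h : PosAt P (w - a)) : ValAt 𝔫 P w a :=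
  ⟨0, posAt_zero, by rwa [sub_zero]⟩

omit [IsDomain B] [IsFractionRing B F] in
lemma valAt_self (a : F) : ValAt 𝔫 P a a :=
  ValAt.of_posAt (by rw [sub_self]; exact posAt_zero)

omit [IsDomain B] [IsFractionRing B F] in
/-- `w` is regular at `P` if it has a value at `𝔫`. -/
lemma ValAt.intAt (hP : P ≤ 𝔫) {w a : F} (h : ValAt 𝔫 P w a) (ha : IntAt 𝔫 a) : IntAt P w := by
  obtain ⟨c, hc, hπ⟩ := h
  have e : w = (w - a - c) + (a + c) := by ring
  rw [e]
  exact hπ.intAt.add ((ha.mono hP).add (hc.intAt.mono hP))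

omit [IsDomain B] [IsFractionRing B F] in
lemma ValAt.mul (hP : P ≤ 𝔫) {w a w' a' : F} (h : ValAt 𝔫 P w a) (h' : ValAt 𝔫 P w' a')
    (ha : IntAt 𝔫 a) (ha' : IntAt 𝔫 a') : ValAt 𝔫 P (w * w') (a * a') := by
  have hw' := h'.intAt hP ha'
  obtain ⟨c, hc, hπ⟩ := h
  obtain ⟨c', hc', hπ'⟩ := h'
  refine ⟨a * c' + c * a' + c * c', ((ha.mul_posAt hc').add (hc.mul_intAt ha')).add (hc.mul hc'), ?_⟩
  have e : w * w' - a * a' - (a * c' + c * a' + c * c')
      = (w - a - c) * w' + (a + c) * (w' - a' - c') := by ring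
  rw [e]
  exact (hπ.mul_intAt hw').add (((ha.mono hP).add (hc.intAt.mono hP)).mul_posAt hπ')

omit [IsDomain B] [IsFractionRing B F] in
lemma ValAt.pow (hP : P ≤ 𝔫) {w a : F} (h : ValAt 𝔫 P w a) (ha : IntAt 𝔫 a) (n : ℕ) :
    ValAt 𝔫 P (w ^ n) (a ^ n) := by
  induction n with
  | zero => rw [pow_zero, pow_zero]; exact valAt_self 1
  | succ n ih => rw [pow_succ, pow_succ]; exact ih.mul hP h (ha.pow n) ha

lemma ValAt.unique (hP : P ≤ 𝔫) {w a a' : F} (h : ValAt 𝔫 P w a) (h' : ValAt 𝔫 P w a')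
    (ha : IntAt 𝔫 a) (ha' : IntAt 𝔫 a') : PosAt 𝔫 (a - a') := by
  obtain ⟨c, hc, hπ⟩ := h
  obtain ⟨c', hc', hπ'⟩ := h'
  have h1 : PosAt P (a - a' - (c' - c)) := by
    have e : a - a' - (c' - c) = (w - a' - c') - (w - a - c) := by ring
    rw [e]
    exact hπ'.sub hπ
  have h2 : IntAt 𝔫 (a - a' - (c' - c)) := (ha.sub ha').sub (hc'.intAt.sub hc.intAt)
  have h3 := (h2.posAt_of_posAt hP h1).add (hc'.sub hc)
  rwa [sub_add_cancel] at h3

omit [IsDomain B] [IsFractionRing B F] in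
/-- change of the value by something vanishing at `𝔫`. -/
lemma ValAt.congr {w a a' : F} (h : ValAt 𝔫 P w a) (h' : PosAt 𝔫 (a - a')) : ValAt 𝔫 P w a' := by
  obtain ⟨c, hc, hπ⟩ := h
  refine ⟨c + (a - a'), hc.add h', ?_⟩
  have e : w - a' - (c + (a - a')) = w - a - c := by ring
  rwa [e]

omit [IsDomain B] [IsFractionRing B F] in
/-- change of the function by something vanishing on `P`. -/
lemma ValAt.congr_left {w w' a : F} (h : ValAt 𝔫 P w a) (h' : PosAt P (w' - w)) :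
    ValAt 𝔫 P w' a := by
  obtain ⟨c, hc, hπ⟩ := h
  refine ⟨c, hc, ?_⟩
  have e : w' - a - c = (w - a - c) + (w' - w) := by ring
  rw [e]
  exact hπ.add h'

end Frac

end API

end Fermat.Agent.S36
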