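import Mathlib

/-!
# S36 : Lemma LP (local principality)

`R` a noetherian normal local domain with a prime element `a` such that `R / a` is a valuation ring
(e.g. a DVR).  If `u ∈ Frac R` has all its height one valuations divisible by `m`, then
`u = w ^ m * ε` with `ε` a unit of `R`.
-/

set_option autoImplicit false
set_option linter.unusedSectionVars false

namespace Fermat.Agent.S36

namespace LP

variable {R K : Type*} [CommRing R] [IsDomain R] [Field K] [Algebra R K] [IsFractionRing R K]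

local notation "ι" => algebraMap R K

/-- the module `{g : g ^ m ∈ u R}` -/
def carrier (m : ℕ) (u : K) : Set K := {g | ∃ c : R, g ^ m = u * ι c}

theorem mixed_mem [IsIntegrallyClosed R] {m : ℕ} (hm : 0 < m) {u : K} (hu : u ≠ 0) {g h : K}
    (hg : g ∈ carrier (R := R) m u) (hh : h ∈ carrier (R := R) m u) (i : ℕ) (hi : i ≤ m) :
    ∃ c : R, g ^ i * h ^ (m - i) = u * ι c := by
  obtain ⟨c₁, h₁⟩ := hg
  obtain ⟨c₂, h₂⟩ := hh
  have hint : IsIntegral R (g ^ i * h ^ (m - i) / u) := by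
    refine IsIntegral.of_pow hm ?_
    have : (g ^ i * h ^ (m - i) / u) ^ m = ι (c₁ ^ i * c₂ ^ (m - i)) := by
      rw [div_pow, mul_pow, ← pow_mul, ← pow_mul, mul_comm i m, mul_comm (m - i) m, pow_mul,
        pow_mul, h₁, h₂, mul_pow, mul_pow, map_mul, map_pow, map_pow]
      have h3 : u ^ i * u ^ (m - i) = u ^ m := by rw [← pow_add, Nat.add_sub_cancel' hi]
      field_simp
      rw [← h3]
      ring
    rw [this]
    exact isIntegral_algebraMap
  obtain ⟨c, hc⟩ := IsIntegrallyClosed.isIntegral_iff.mp hint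
  exact ⟨c, by rw [hc]; field_simp⟩

/-- the module `{g : g ^ m ∈ u R}` -/
def mod [IsIntegrallyClosed R] (m : ℕ) (hm : 0 < m) (u : K) (hu : u ≠ 0) : Submodule R K where
  carrier := carrier (R := R) m u
  zero_mem' := ⟨0, by simp [hm.ne']⟩
  add_mem' := by
    intro g h hg hh
    have key : ∀ i ∈ Finset.range (m + 1), ∃ c : R, g ^ i * h ^ (m - i) = u * ι c := fun i hi =>
      mixed_mem hm hu hg hh i (Nat.lt_succ_iff.mp (Finset.mem_range.mp hi))
    choose! c hc using key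
    refine ⟨∑ i ∈ Finset.range (m + 1), c i * (m.choose i : R), ?_⟩
    rw [add_pow, map_sum, Finset.mul_sum]
    refine Finset.sum_congr rfl fun i hi => ?_
    rw [hc i hi, map_mul, map_natCast, mul_assoc]
  smul_mem' := by
    rintro r g ⟨c, hc⟩
    exact ⟨r ^ m * c, by rw [Algebra.smul_def, mul_pow, hc, map_mul, map_pow]; ring⟩

theorem mem_mod [IsIntegrallyClosed R] {m : ℕ} {hm : 0 < m} {u : K} {hu : u ≠ 0} {g : K} :
    g ∈ mod (R := R) m hm u hu ↔ ∃ c : R, g ^ m = u * ι c := Iff.rfl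

theorem mod_fg [IsIntegrallyClosed R] [IsNoetherianRing R] {m : ℕ} (hm : 0 < m) {u : K}
    (hu : u ≠ 0) : (mod (R := R) m hm u hu).FG := by
  obtain ⟨s, t, ht, rfl⟩ := IsFractionRing.div_surjective (A := R) u
  have ht0 : ι t ≠ 0 := by
    simpa using nonZeroDivisors.ne_zero ht
  refine Submodule.FG.of_le (Submodule.fg_span_singleton ((ι t)⁻¹)) ?_
  intro g hg
  obtain ⟨c, hc⟩ := hg
  have hint : IsIntegral R (ι t * g) := by
    refine IsIntegral.of_pow hm ?_
    have : (ι t * g) ^ m = ι (t ^ (m - 1) * s * c) := by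
      rw [mul_pow, hc, map_mul, map_mul, map_pow]
      obtain ⟨k, rfl⟩ : ∃ k, m = k + 1 := ⟨m - 1, by omega⟩
      rw [Nat.add_sub_cancel, pow_succ]
      field_simp
    rw [this]
    exact isIntegral_algebraMap
  obtain ⟨d, hd⟩ := IsIntegrallyClosed.isIntegral_iff.mp hint
  rw [Submodule.mem_span_singleton]
  exact ⟨d, by rw [Algebra.smul_def, hd]; field_simp⟩

theorem exists_ne_zero_mem [IsIntegrallyClosed R] {m : ℕ} (hm : 0 < m) {u : K} (hu : u ≠ 0) :
    ∃ g ∈ mod (R := R) m hm u hu, g ≠ 0 := by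
  obtain ⟨s, t, ht, rfl⟩ := IsFractionRing.div_surjective (A := R) u
  have ht0 : ι t ≠ 0 := by
    simpa using nonZeroDivisors.ne_zero ht
  have hs0 : ι s ≠ 0 := fun h => hu (by rw [h, zero_div])
  refine ⟨ι s, ⟨s ^ (m - 1) * t, ?_⟩, hs0⟩
  obtain ⟨k, rfl⟩ : ∃ k, m = k + 1 := ⟨m - 1, by omega⟩
  rw [Nat.add_sub_cancel, pow_succ, map_mul, map_pow]
  field_simp

/-- `I / a I` is torsion free over `R / a` -/
theorem torsion_free [IsIntegrallyClosed R] {a : R} (ha : Prime a) {m : ℕ} (hm : 0 < m) {u : K}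
    (hu : u ≠ 0) {x : R} (hx : ¬ a ∣ x) {g j : K} (hg : g ∈ mod (R := R) m hm u hu)
    (hj : j ∈ mod (R := R) m hm u hu) (h : ι x * g = ι a * j) :
    ∃ g' ∈ mod (R := R) m hm u hu, g = ι a * g' := by
  have ha0 : ι a ≠ 0 := by
    simpa using ha.ne_zero
  obtain ⟨c₁, h₁⟩ := hg
  obtain ⟨c₂, h₂⟩ := hj
  have h3 : x ^ m * c₁ = a ^ m * c₂ := by
    apply IsFractionRing.injective R K
    apply mul_left_cancel₀ hu
    rw [map_mul, map_mul, map_pow, map_pow, mul_left_comm, ← h₁, mul_left_comm, ← h₂, ← mul_pow,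
      ← mul_pow, h]
  have h4 : a ^ m ∣ c₁ := ha.pow_dvd_of_dvd_mul_left m (fun hd => hx (ha.dvd_of_dvd_pow hd))
    (Dvd.intro _ h3.symm)
  obtain ⟨c₃, rfl⟩ := h4
  refine ⟨g / ι a, ⟨c₃, ?_⟩, by field_simp⟩
  rw [div_pow, h₁, map_mul, map_pow]
  field_simp

/-- any two elements of `K` are dependent over `R` with coefficients not both divisible by `a` -/
theorem exists_dep [IsNoetherianRing R] {a : R} (ha : Prime a) (g h : K) :
    ∃ x y : R, (¬ a ∣ x ∨ ¬ a ∣ y) ∧ ι x * g = ι y * h := by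
  rcases eq_or_ne h 0 with rfl | hh
  · exact ⟨0, 1, Or.inr ha.not_dvd_one, by simp⟩
  rcases eq_or_ne g 0 with rfl | hg
  · exact ⟨1, 0, Or.inl ha.not_dvd_one, by simp⟩
  obtain ⟨n₁, d₁, hd₁, rfl⟩ := IsFractionRing.div_surjective (A := R) g
  obtain ⟨n₂, d₂, hd₂, rfl⟩ := IsFractionRing.div_surjective (A := R) h
  have hd₁0 : d₁ ≠ 0 := nonZeroDivisors.ne_zero hd₁
  have hd₂0 : d₂ ≠ 0 := nonZeroDivisors.ne_zero hd₂
  have hn₁0 : n₁ ≠ 0 := fun h0 => hg (by rw [h0, map_zero, zero_div])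
  have hn₂0 : n₂ ≠ 0 := fun h0 => hh (by rw [h0, map_zero, zero_div])
  have hd₁' : ι d₁ ≠ 0 := by simpa using hd₁0
  have hd₂' : ι d₂ ≠ 0 := by simpa using hd₂0
  have ha0 : ι a ≠ 0 := by
    simpa using ha.ne_zero
  obtain ⟨i, x, hx, hxe⟩ := WfDvdMonoid.max_power_factor (mul_ne_zero hn₂0 hd₁0) ha.irreducible
  obtain ⟨j, y, hy, hye⟩ := WfDvdMonoid.max_power_factor (mul_ne_zero hn₁0 hd₂0) ha.irreducible
  have hxe' : ι n₂ * ι d₁ = ι a ^ i * ι x := by rw [← map_mul, hxe, map_mul, map_pow]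
  have hye' : ι n₁ * ι d₂ = ι a ^ j * ι y := by rw [← map_mul, hye, map_mul, map_pow]
  have key : ι a ^ i * ι x * (ι n₁ / ι d₁) = ι a ^ j * ι y * (ι n₂ / ι d₂) := by
    rw [← hxe', ← hye']
    field_simp
  rcases le_total i j with hij | hij
  · obtain ⟨k, rfl⟩ := Nat.exists_eq_add_of_le hij
    refine ⟨x, a ^ k * y, Or.inl hx, ?_⟩
    apply mul_left_cancel₀ (pow_ne_zero i ha0)
    rw [← mul_assoc, key, map_mul, map_pow, pow_add]
    ring
  · obtain ⟨k, rfl⟩ := Nat.exists_eq_add_of_le hij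
    refine ⟨a ^ k * x, y, Or.inr hy, ?_⟩
    apply mul_left_cancel₀ (pow_ne_zero j ha0)
    rw [← mul_assoc (ι a ^ j) (ι y), ← key, map_mul, map_pow, pow_add]
    ring

/-- of two elements of `I`, one is a multiple of the other modulo `a I` -/
theorem pair [IsIntegrallyClosed R] [IsNoetherianRing R] {a : R} (ha : Prime a)
    (hV : ∀ x y : R, (∃ z, a ∣ y - x * z) ∨ (∃ z, a ∣ x - y * z))
    {m : ℕ} (hm : 0 < m) {u : K} (hu : u ≠ 0) {g h : K} (hg : g ∈ mod (R := R) m hm u hu)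
    (hh : h ∈ mod (R := R) m hm u hu) :
    (∃ (z : R), ∃ g' ∈ mod (R := R) m hm u hu, g = ι z * h + ι a * g') ∨
    (∃ (z : R), ∃ g' ∈ mod (R := R) m hm u hu, h = ι z * g + ι a * g') := by
  -- auxiliary: `x g = y h`, `a ∤ x`, `y = x z + a s`
  have aux : ∀ {g h : K}, g ∈ mod (R := R) m hm u hu → h ∈ mod (R := R) m hm u hu →
      ∀ x y z : R, ¬ a ∣ x → ι x * g = ι y * h → a ∣ y - x * z →
      ∃ (z : R), ∃ g' ∈ mod (R := R) m hm u hu, g = ι z * h + ι a * g' := by
    intro g h hg hh x y z hx hxy ⟨s, hs⟩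
    have hy : y = x * z + a * s := by rw [← hs]; ring
    have h1 : g - z • h ∈ mod (R := R) m hm u hu := sub_mem hg (Submodule.smul_mem _ _ hh)
    have h2 : s • h ∈ mod (R := R) m hm u hu := Submodule.smul_mem _ _ hh
    have h3 : ι x * (g - z • h) = ι a * (s • h) := by
      rw [mul_sub, hxy, hy, Algebra.smul_def, Algebra.smul_def, map_add, map_mul, map_mul]
      ring
    obtain ⟨g', hg', he⟩ := torsion_free ha hm hu hx h1 h2 h3
    exact ⟨z, g', hg', by rw [← he, Algebra.smul_def]; ring⟩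
  obtain ⟨x, y, hxy, he⟩ := exists_dep ha g h
  rcases hV x y with ⟨z, hz⟩ | ⟨z, hz⟩
  · -- `y ≡ x z`; then `a ∤ x`
    have hx : ¬ a ∣ x := by
      intro hx
      rcases hxy with h1 | h1
      · exact h1 hx
      · apply h1
        have := dvd_add hz (Dvd.dvd.mul_right hx z)
        rwa [sub_add_cancel] at this
    exact Or.inl (aux hg hh x y z hx he hz)
  · have hy : ¬ a ∣ y := by
      intro hy
      rcases hxy with h1 | h1
      · apply h1
        have := dvd_add hz (Dvd.dvd.mul_right hy z)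
        rwa [sub_add_cancel] at this
      · exact h1 hy
    exact Or.inr (aux hh hg y x z hy he.symm hz)

/-- `I` is cyclic modulo `a I` -/
theorem exists_gen_mod [IsIntegrallyClosed R] [IsNoetherianRing R] {a : R} (ha : Prime a)
    (hV : ∀ x y : R, (∃ z, a ∣ y - x * z) ∨ (∃ z, a ∣ x - y * z))
    {m : ℕ} (hm : 0 < m) {u : K} (hu : u ≠ 0) (S : Finset K)
    (hS : ∀ g ∈ S, g ∈ mod (R := R) m hm u hu) :
    ∃ w ∈ mod (R := R) m hm u hu, ∀ g ∈ S,
      ∃ (z : R), ∃ g' ∈ mod (R := R) m hm u hu, g = ι z * w + ι a * g' := by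
  classical
  induction S using Finset.induction_on with
  | empty => exact ⟨0, zero_mem _, by simp⟩
  | insert h S _ ih =>
    obtain ⟨w, hw, hwS⟩ := ih fun g hg => hS g (Finset.mem_insert_of_mem hg)
    have hh := hS h (Finset.mem_insert_self _ _)
    rcases pair ha hV hm hu hw hh with ⟨z, w', hw', he⟩ | ⟨z, h', hh', he⟩
    · -- `w = z h + a w'`
      refine ⟨h, hh, fun g hg => ?_⟩
      rcases Finset.mem_insert.mp hg with rfl | hgS
      · exact ⟨1, 0, zero_mem _, by simp⟩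
      · obtain ⟨y, g', hg', hge⟩ := hwS g hgS
        refine ⟨y * z, y • w' + g', add_mem (Submodule.smul_mem _ _ hw') hg', ?_⟩
        rw [hge, he, Algebra.smul_def, map_mul]
        ring
    · refine ⟨w, hw, fun g hg => ?_⟩
      rcases Finset.mem_insert.mp hg with rfl | hgS
      · exact ⟨z, h', hh', he⟩
      · exact hwS g hgS

/-- `I` is principal -/
theorem exists_gen [IsIntegrallyClosed R] [IsNoetherianRing R] [IsLocalRing R] {a : R}
    (ha : Prime a) (hV : ∀ x y : R, (∃ z, a ∣ y - x * z) ∨ (∃ z, a ∣ x - y * z))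
    {m : ℕ} (hm : 0 < m) {u : K} (hu : u ≠ 0) :
    ∃ w ∈ mod (R := R) m hm u hu, mod (R := R) m hm u hu ≤ Submodule.span R {w} := by
  obtain ⟨S, hS⟩ := mod_fg (R := R) hm hu
  have hSm : ∀ g ∈ S, g ∈ mod (R := R) m hm u hu := fun g hg => by
    rw [← hS]; exact Submodule.subset_span hg
  obtain ⟨w, hw, hwS⟩ := exists_gen_mod ha hV hm hu S hSm
  refine ⟨w, hw, ?_⟩
  refine Submodule.le_of_le_smul_of_le_jacobson_bot (I := Ideal.span {a}) (mod_fg hm hu) ?_ ?_
  · refine le_trans ?_ (IsLocalRing.maximalIdeal_le_jacobson _)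
    rw [Ideal.span_singleton_le_iff_mem, IsLocalRing.mem_maximalIdeal, mem_nonunits_iff]
    exact ha.not_isUnit
  · conv_lhs => rw [← hS]
    rw [Submodule.span_le]
    intro g hg
    obtain ⟨z, g', hg', he⟩ := hwS g hg
    rw [SetLike.mem_coe, he]
    refine Submodule.add_mem_sup ?_ ?_
    · rw [← Algebra.smul_def]
      exact Submodule.smul_mem _ _ (Submodule.mem_span_singleton_self w)
    · rw [← Algebra.smul_def]
      exact Submodule.smul_mem_smul (Ideal.mem_span_singleton_self a) hg'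

end LP

open LP in
/-- **Lemma LP.** -/
theorem lp {R K : Type*} [CommRing R] [IsDomain R] [IsNoetherianRing R] [IsLocalRing R]
    [IsIntegrallyClosed R] [Field K] [Algebra R K] [IsFractionRing R K]
    (a : R) (ha : Prime a) (hV : ∀ x y : R, (∃ z, a ∣ y - x * z) ∨ (∃ z, a ∣ x - y * z))
    (m : ℕ) (hm : 0 < m) (u : K) (hu : u ≠ 0)
    (H : ∀ p : Ideal R, p.IsPrime → p.height = 1 → ∃ (g : K) (x s : R), x ∉ p ∧ s ∉ p ∧
      u * algebraMap R K s = g ^ m * algebraMap R K x) :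
    ∃ (w : K) (eps : Rˣ), u = w ^ m * algebraMap R K eps := by
  obtain ⟨w, ⟨c, hc⟩, hle⟩ := exists_gen ha hV hm hu
  have hw0 : w ≠ 0 := by
    rintro rfl
    obtain ⟨g, hg, hg0⟩ := exists_ne_zero_mem (R := R) hm hu
    have := hle hg
    rw [Submodule.mem_span_singleton] at this
    obtain ⟨d, hd⟩ := this
    exact hg0 (by rw [← hd, smul_zero])
  have hc0 : c ≠ 0 := by
    rintro rfl
    rw [map_zero, mul_zero] at hc
    exact hw0 (pow_eq_zero_iff hm.ne' |>.mp hc)
  have hcu : IsUnit c := by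
    by_contra hnu
    -- a height one prime containing `c`
    obtain ⟨P, hP, hcP⟩ := Ideal.exists_le_maximal (Ideal.span {c})
      (by rwa [Ne, Ideal.span_singleton_eq_top])
    have := hP.isPrime
    obtain ⟨p, hp, -⟩ := Ideal.exists_minimalPrimes_le hcP
    have hpp : p.IsPrime := hp.isPrime
    have hcp : c ∈ p := hp.1.2 (Ideal.mem_span_singleton_self c)
    have hht : p.height = 1 := by
      apply le_antisymm (Ideal.height_le_one_of_isPrincipal_of_mem_minimalPrimes _ p hp)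
      rw [Order.one_le_iff_pos, pos_iff_ne_zero, Ne, Ideal.height_eq_zero_iff_eq_bot]
      rintro rfl
      exact hc0 (by simpa using hcp)
    obtain ⟨g, x, s, hx, hs, he⟩ := H p hpp hht
    have hx0 : algebraMap R K x ≠ 0 := by
      have : x ≠ 0 := fun h => hx (h ▸ p.zero_mem)
      simpa using this
    have hs0 : algebraMap R K s ≠ 0 := by
      have : s ≠ 0 := fun h => hs (h ▸ p.zero_mem)
      simpa using this
    -- `g x ∈ I`
    have hgx : g * algebraMap R K x ∈ mod (R := R) m hm u hu := by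
      refine ⟨x ^ (m - 1) * s, ?_⟩
      obtain ⟨k, rfl⟩ : ∃ k, m = k + 1 := ⟨m - 1, by omega⟩
      rw [Nat.add_sub_cancel, mul_pow, map_mul, map_pow, pow_succ (algebraMap R K x) k,
        mul_comm (algebraMap R K x ^ k), ← mul_assoc, ← he]
      ring
    have := hle hgx
    rw [Submodule.mem_span_singleton] at this
    obtain ⟨d, hd⟩ := this
    -- `c d ^ m = x ^ (m - 1) s`
    have hfin : c * d ^ m = x ^ (m - 1) * s := by
      apply IsFractionRing.injective R K
      apply mul_left_cancel₀ hu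
      rw [map_mul, ← mul_assoc, ← hc, map_pow, ← mul_pow, mul_comm w, ← Algebra.smul_def, hd]
      obtain ⟨k, rfl⟩ : ∃ k, m = k + 1 := ⟨m - 1, by omega⟩
      rw [Nat.add_sub_cancel, mul_pow, map_mul, map_pow, pow_succ (algebraMap R K x) k,
        mul_comm (algebraMap R K x ^ k), ← mul_assoc, ← he]
      ring
    have hmem : x ^ (m - 1) * s ∈ p := hfin ▸ p.mul_mem_right _ hcp
    rcases hpp.mem_or_mem hmem with h1 | h1
    · exact hx (hpp.mem_of_pow_mem _ h1)
    · exact hs h1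
  obtain ⟨e, rfl⟩ := hcu
  refine ⟨w, e⁻¹, ?_⟩
  rw [hc, mul_assoc, ← map_mul, ← Units.val_mul, mul_inv_cancel, Units.val_one, map_one, mul_one]

/-- version with `R / a` a valuation ring -/
theorem lp' {R K : Type*} [CommRing R] [IsDomain R] [IsNoetherianRing R] [IsLocalRing R]
    [IsIntegrallyClosed R] [Field K] [Algebra R K] [IsFractionRing R K]
    (a : R) (ha : Prime a) [IsDomain (R ⧸ Ideal.span {a})] [ValuationRing (R ⧸ Ideal.span {a})]
    (m : ℕ) (hm : 0 < m) (u : K) (hu : u ≠ 0)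
    (H : ∀ p : Ideal R, p.IsPrime → p.height = 1 → ∃ (g : K) (x s : R), x ∉ p ∧ s ∉ p ∧
      u * algebraMap R K s = g ^ m * algebraMap R K x) :
    ∃ (w : K) (eps : Rˣ), u = w ^ m * algebraMap R K eps := by
  refine lp a ha (fun x y => ?_) m hm u hu H
  obtain ⟨c, hc⟩ := ValuationRing.cond (Ideal.Quotient.mk (Ideal.span {a}) x)
    (Ideal.Quotient.mk (Ideal.span {a}) y)
  obtain ⟨z, rfl⟩ := Ideal.Quotient.mk_surjective c
  rcases hc with hc | hc
  · left
    refine ⟨z, ?_⟩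
    rw [← Ideal.mem_span_singleton, ← Ideal.Quotient.eq, map_mul, hc]
  · right
    refine ⟨z, ?_⟩
    rw [← Ideal.mem_span_singleton, ← Ideal.Quotient.eq, map_mul, hc]

end Fermat.Agent.S36
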