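import Fermat.Agent.S36.AbsInterface
import Fermat.Agent.S36.LP
import Fermat.Agent.KL.LocBasic
import Fermat.Agent.KL.ReducedDomain

/-!
# S36 : ABS-LPB (Lemma LP at a closed point of a chart, elementwise form)

`Stmt_LPB` of `AbsInterface` does not assume `b ∈ 𝔫`; for `b ∉ 𝔫` the hypothesis
`𝔫 B_𝔫 = (a, b)` becomes vacuous and the statement is false
(`B = ℚ[x,y,z,t]/(xy - z²)`, `a = t`, `b = 1`, `m = 2`, `u = x`).
We prove the corrected statement `Stmt_LPB'`, with the extra hypothesis `b ∈ 𝔫`.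
-/

set_option autoImplicit false
set_option linter.unusedSectionVars false
set_option linter.style.haveILetI false

namespace Fermat.Agent.S36

open Fermat.Agent.KL

/-- **LPB**, corrected: `a` is a prime element locally at `𝔫`, `b ∈ 𝔫` and `𝔫 B_𝔫 = (a, b)`. -/
def Stmt_LPB' : Prop :=
  ∀ (B F : Type) [CommRing B] [IsDomain B] [IsNoetherianRing B] [IsIntegrallyClosed B]
    [Field F] [Algebra B F] [IsFractionRing B F] (𝔫 : Ideal B) (a b : B) (m : ℕ) (u : F),
    𝔫.IsMaximal → a ∈ 𝔫 → b ∈ 𝔫 → a ≠ 0 → LocPrime a 𝔫 →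
    (∀ x ∈ 𝔫, ∃ s : B, s ∉ 𝔫 ∧ s * x ∈ Ideal.span {a, b}) → 0 < m → u ≠ 0 →
    (∀ 𝔭 : Ideal B, IsHtOne 𝔭 → 𝔭 ≤ 𝔫 → ∃ g : F, g ≠ 0 ∧ UnitAt 𝔭 (u / g ^ m)) →
    ∃ w : F, w ≠ 0 ∧ UnitAt 𝔫 (u / w ^ m)

namespace LPB

section Loc

variable {B : Type} (R : Type) [CommRing B] [IsDomain B] [CommRing R] [Algebra B R]
  (𝔫 : Ideal B) [𝔫.IsPrime] [IsLocalization.AtPrime R 𝔫]

include 𝔫 in
theorem inj : Function.Injective (algebraMap B R) :=
  IsLocalization.injective R 𝔫.primeCompl_le_nonZeroDivisors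

theorem isUnit_map {s : B} (hs : s ∉ 𝔫) : IsUnit (algebraMap B R s) :=
  (IsLocalization.AtPrime.isUnit_to_map_iff R 𝔫 s).2 hs

theorem exists_rep (r : R) : ∃ x s : B, s ∉ 𝔫 ∧ algebraMap B R s * r = algebraMap B R x := by
  obtain ⟨x, s, rfl⟩ := IsLocalization.exists_mk'_eq 𝔫.primeCompl r
  exact ⟨x, s, s.2, by rw [mul_comm]; exact IsLocalization.mk'_spec _ _ _⟩

theorem map_dvd_map_iff (a x : B) :
    algebraMap B R a ∣ algebraMap B R x ↔ ∃ s : B, s ∉ 𝔫 ∧ a ∣ s * x := by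
  constructor
  · rintro ⟨z, hz⟩
    obtain ⟨y, s, hs, hy⟩ := exists_rep R 𝔫 z
    refine ⟨s, hs, y, ?_⟩
    apply inj R 𝔫
    rw [map_mul, map_mul, hz, ← hy]
    ring
  · rintro ⟨s, hs, hd⟩
    have h1 : algebraMap B R a ∣ algebraMap B R s * algebraMap B R x := by
      rw [← map_mul]
      exact map_dvd _ hd
    exact ((isUnit_map R 𝔫 hs).dvd_mul_left).1 h1

theorem prime_map {a : B} (ha : a ∈ 𝔫) (ha0 : a ≠ 0) (hp : LocPrime a 𝔫) :
    Prime (algebraMap B R a) := by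
  refine ⟨fun h => ha0 (inj R 𝔫 (by rw [h, map_zero])), fun h =>
    ((IsLocalization.AtPrime.isUnit_to_map_iff R 𝔫 a).1 h) ha, ?_⟩
  intro r₁ r₂ hd
  obtain ⟨x₁, s₁, hs₁, h₁⟩ := exists_rep R 𝔫 r₁
  obtain ⟨x₂, s₂, hs₂, h₂⟩ := exists_rep R 𝔫 r₂
  have h3 : algebraMap B R a ∣ algebraMap B R (x₁ * x₂) := by
    rw [map_mul, ← h₁, ← h₂]
    have : algebraMap B R s₁ * r₁ * (algebraMap B R s₂ * r₂)
        = (algebraMap B R s₁ * algebraMap B R s₂) * (r₁ * r₂) := by ring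
    rw [this]
    exact Dvd.dvd.mul_left hd _
  obtain ⟨t, ht, h4⟩ := (map_dvd_map_iff R 𝔫 a (x₁ * x₂)).1 h3
  rw [← mul_assoc] at h4
  obtain ⟨s, hs, h5 | h5⟩ := hp _ _ h4
  · left
    have h6 : algebraMap B R a ∣ algebraMap B R x₁ := by
      refine (map_dvd_map_iff R 𝔫 a x₁).2 ⟨s * t, fun h => ?_, by rwa [mul_assoc]⟩
      exact (Ideal.IsPrime.mem_or_mem inferInstance h).elim hs ht
    rw [← h₁] at h6
    exact ((isUnit_map R 𝔫 hs₁).dvd_mul_left).1 h6
  · right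
    have h6 : algebraMap B R a ∣ algebraMap B R x₂ := (map_dvd_map_iff R 𝔫 a x₂).2 ⟨s, hs, h5⟩
    rw [← h₂] at h6
    exact ((isUnit_map R 𝔫 hs₂).dvd_mul_left).1 h6

theorem maximalIdeal_eq [IsLocalRing R] {a b : B} (ha : a ∈ 𝔫) (hb : b ∈ 𝔫)
    (hgen : ∀ x ∈ 𝔫, ∃ s : B, s ∉ 𝔫 ∧ s * x ∈ Ideal.span {a, b}) :
    IsLocalRing.maximalIdeal R = Ideal.span {algebraMap B R a, algebraMap B R b} := by
  apply le_antisymm
  · intro r hr
    obtain ⟨x, s, hs, h⟩ := exists_rep R 𝔫 r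
    have hx : x ∈ 𝔫 := by
      by_contra hx
      have h1 : IsUnit (algebraMap B R s * r) := h ▸ isUnit_map R 𝔫 hx
      exact (IsLocalRing.mem_maximalIdeal r).1 hr (isUnit_of_mul_isUnit_right h1)
    obtain ⟨t, ht, h2⟩ := hgen x hx
    obtain ⟨α, β, h3⟩ := Ideal.mem_span_pair.1 h2
    have hu : IsUnit (algebraMap B R t * algebraMap B R s) :=
      (isUnit_map R 𝔫 ht).mul (isUnit_map R 𝔫 hs)
    have h4 : (algebraMap B R t * algebraMap B R s) * r ∈
        Ideal.span {algebraMap B R a, algebraMap B R b} := by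
      rw [mul_assoc, h, ← map_mul, ← h3, map_add, map_mul, map_mul]
      exact Ideal.mem_span_pair.2 ⟨_, _, rfl⟩
    exact (Ideal.unit_mul_mem_iff_mem _ hu).1 h4
  · rw [Ideal.span_le]
    rintro r (rfl | rfl)
    · exact (IsLocalRing.mem_maximalIdeal _).2 fun h =>
        ((IsLocalization.AtPrime.isUnit_to_map_iff R 𝔫 _).1 h) ha
    · exact (IsLocalRing.mem_maximalIdeal _).2 fun h =>
        ((IsLocalization.AtPrime.isUnit_to_map_iff R 𝔫 _).1 h) hb

end Loc

/-- a noetherian local ring whose maximal ideal is `(a, b)`: `R / a` is a "valuation ring". -/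
theorem valuation_cond {R : Type} [CommRing R] [IsLocalRing R] [IsNoetherianRing R] (a b : R)
    (hmax : IsLocalRing.maximalIdeal R = Ideal.span {a, b}) (x y : R) :
    (∃ z, a ∣ y - x * z) ∨ (∃ z, a ∣ x - y * z) := by
  have ha : a ∈ IsLocalRing.maximalIdeal R := hmax ▸ Ideal.subset_span (by simp)
  have hb : b ∈ IsLocalRing.maximalIdeal R := hmax ▸ Ideal.subset_span (by simp)
  have hle : Ideal.span {a} ≤ IsLocalRing.maximalIdeal R := by
    rw [Ideal.span_singleton_le_iff_mem]; exact ha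
  have hne : Ideal.span {a} ≠ ⊤ := fun h =>
    (Ideal.IsPrime.ne_top (inferInstance : (IsLocalRing.maximalIdeal R).IsPrime))
      (top_le_iff.1 (h ▸ hle))
  haveI : Nontrivial (R ⧸ Ideal.span {a}) := Ideal.Quotient.nontrivial_iff.2 hne
  haveI : IsLocalRing (R ⧸ Ideal.span {a}) :=
    IsLocalRing.of_surjective' (Ideal.Quotient.mk (Ideal.span {a})) Ideal.Quotient.mk_surjective
  have hmaxC : IsLocalRing.maximalIdeal (R ⧸ Ideal.span {a})
      = Ideal.span {Ideal.Quotient.mk (Ideal.span {a}) b} := by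
    apply le_antisymm
    · intro c hc
      obtain ⟨r, rfl⟩ := Ideal.Quotient.mk_surjective c
      have hr : r ∈ IsLocalRing.maximalIdeal R := by
        rw [IsLocalRing.mem_maximalIdeal]
        intro h
        exact (IsLocalRing.mem_maximalIdeal _).1 hc (h.map _)
      rw [hmax] at hr
      obtain ⟨α, β, rfl⟩ := Ideal.mem_span_pair.1 hr
      rw [Ideal.mem_span_singleton]
      refine ⟨Ideal.Quotient.mk _ β, ?_⟩
      have h0 : Ideal.Quotient.mk (Ideal.span {a}) a = 0 :=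
        Ideal.Quotient.eq_zero_iff_mem.2 (Ideal.mem_span_singleton_self a)
      rw [map_add, map_mul, map_mul, h0, mul_zero, zero_add, mul_comm]
    · rw [Ideal.span_singleton_le_iff_mem, IsLocalRing.mem_maximalIdeal]
      intro h
      obtain ⟨c, hc⟩ := h.exists_right_inv
      obtain ⟨t, rfl⟩ := Ideal.Quotient.mk_surjective c
      rw [← map_mul, ← map_one (Ideal.Quotient.mk (Ideal.span {a})), Ideal.Quotient.eq] at hc
      have h1 : b * t - 1 ∈ IsLocalRing.maximalIdeal R := hle hc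
      have h2 : b * t ∈ IsLocalRing.maximalIdeal R := Ideal.mul_mem_right _ _ hb
      have h3 : (1 : R) ∈ IsLocalRing.maximalIdeal R := by
        have h4 := Ideal.sub_mem _ h2 h1
        rwa [sub_sub_cancel] at h4
      exact (IsLocalRing.mem_maximalIdeal _).1 h3 isUnit_one
  -- reformulation in the quotient
  have key : ∀ p q : R, (∃ c, Ideal.Quotient.mk (Ideal.span {a}) q
      = Ideal.Quotient.mk (Ideal.span {a}) p * c) → ∃ z, a ∣ q - p * z := by
    rintro p q ⟨c, hc⟩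
    obtain ⟨z, rfl⟩ := Ideal.Quotient.mk_surjective c
    refine ⟨z, ?_⟩
    rw [← Ideal.mem_span_singleton, ← Ideal.Quotient.eq, map_mul, hc]
  by_cases hx : Ideal.Quotient.mk (Ideal.span {a}) x = 0
  · right
    exact key y x ⟨0, by rw [hx, mul_zero]⟩
  by_cases hy : Ideal.Quotient.mk (Ideal.span {a}) y = 0
  · left
    exact key x y ⟨0, by rw [hy, mul_zero]⟩
  obtain ⟨n, e, he, hxe⟩ := A23.exists_unit_mul_pow hmaxC hx
  obtain ⟨k, f, hf, hyf⟩ := A23.exists_unit_mul_pow hmaxC hy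
  obtain ⟨e, rfl⟩ := he
  obtain ⟨f, rfl⟩ := hf
  rcases le_total n k with h | h
  · left
    obtain ⟨d, rfl⟩ := Nat.exists_eq_add_of_le h
    refine key x y ⟨Ideal.Quotient.mk (Ideal.span {a}) b ^ d * (↑e⁻¹ * f), ?_⟩
    rw [hxe, hyf, pow_add]
    have : (e : R ⧸ Ideal.span {a}) * ↑e⁻¹ = 1 := by simp
    linear_combination (-(Ideal.Quotient.mk (Ideal.span {a}) b ^ n *
      Ideal.Quotient.mk (Ideal.span {a}) b ^ d * f)) * this
  · right
    obtain ⟨d, rfl⟩ := Nat.exists_eq_add_of_le h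
    refine key y x ⟨Ideal.Quotient.mk (Ideal.span {a}) b ^ d * (↑f⁻¹ * e), ?_⟩
    rw [hxe, hyf, pow_add]
    have : (f : R ⧸ Ideal.span {a}) * ↑f⁻¹ = 1 := by simp
    linear_combination (-(Ideal.Quotient.mk (Ideal.span {a}) b ^ k *
      Ideal.Quotient.mk (Ideal.span {a}) b ^ d * e)) * this

theorem isHtOne_of_height {R : Type} [CommRing R] [IsDomain R] (p : Ideal R) (hp : p.IsPrime)
    (h : p.height = 1) : IsHtOne p := by
  refine ⟨hp, ?_, ?_⟩
  · rintro rfl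
    rw [Ideal.height_bot] at h
    exact zero_ne_one h
  · intro q hq hle
    rcases eq_or_lt_of_le hle with h1 | h1
    · exact Or.inr h1
    · left
      haveI : p.FiniteHeight := p.finiteHeight_iff.mpr (Or.inr (by rw [h]; exact ENat.one_ne_top))
      have h2 := Ideal.height_strict_mono_of_isPrime_of_isPrime h1
      rw [h, Order.lt_one_iff] at h2
      exact Ideal.height_eq_zero_iff_eq_bot.1 h2

/-- the statement, for an arbitrary model `R` of the localisation inside `F`. -/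
theorem main {B F : Type} (R : Type) [CommRing B] [IsDomain B] [IsNoetherianRing B]
    [IsIntegrallyClosed B] [Field F] [Algebra B F] [IsFractionRing B F] [CommRing R] [IsDomain R]
    [Algebra B R] [Algebra R F] [IsScalarTower B R F] [IsFractionRing R F]
    (𝔫 : Ideal B) [𝔫.IsPrime] [IsLocalization.AtPrime R 𝔫] (a b : B) (m : ℕ) (u : F)
    (ha : a ∈ 𝔫) (hb : b ∈ 𝔫) (ha0 : a ≠ 0) (hp : LocPrime a 𝔫)
    (hgen : ∀ x ∈ 𝔫, ∃ s : B, s ∉ 𝔫 ∧ s * x ∈ Ideal.span {a, b}) (hm : 0 < m) (hu : u ≠ 0)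
    (H : ∀ 𝔭 : Ideal B, IsHtOne 𝔭 → 𝔭 ≤ 𝔫 → ∃ g : F, g ≠ 0 ∧ UnitAt 𝔭 (u / g ^ m)) :
    ∃ w : F, w ≠ 0 ∧ UnitAt 𝔫 (u / w ^ m) := by
  haveI : IsLocalRing R := IsLocalization.AtPrime.isLocalRing R 𝔫
  haveI : IsNoetherianRing R := IsLocalization.isNoetherianRing 𝔫.primeCompl R inferInstance
  haveI : IsIntegrallyClosed R :=
    isIntegrallyClosed_of_isLocalization R 𝔫.primeCompl 𝔫.primeCompl_le_nonZeroDivisors
  have hmax := maximalIdeal_eq R 𝔫 ha hb hgen
  obtain ⟨w, eps, hw⟩ := lp (R := R) (K := F) (algebraMap B R a) (prime_map R 𝔫 ha ha0 hp)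
    (valuation_cond _ _ hmax) m hm u hu (by
      intro p hpp hht
      have h1 : IsHtOne (p.under B) :=
        (stmt_htOneLocalization B R 𝔫.primeCompl 𝔫.primeCompl_le_nonZeroDivisors).1 p
          (isHtOne_of_height p hpp hht)
      have h2 : p.under B ≤ 𝔫 := by
        intro x hx
        by_contra hxn
        exact hpp.ne_top (Ideal.eq_top_of_isUnit_mem _ (Ideal.mem_comap.1 hx)
          (isUnit_map R 𝔫 hxn))
      obtain ⟨g, hg, s, hs, t, ht, he⟩ := H _ h1 h2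
      refine ⟨g, algebraMap B R t, algebraMap B R s, ht, hs, ?_⟩
      rw [← IsScalarTower.algebraMap_apply, ← IsScalarTower.algebraMap_apply, ← he]
      field_simp)
  have hw0 : w ≠ 0 := by
    rintro rfl
    rw [zero_pow hm.ne', zero_mul] at hw
    exact hu hw
  refine ⟨w, hw0, ?_⟩
  obtain ⟨x, s, hs, h⟩ := exists_rep R 𝔫 (eps : R)
  refine ⟨s, hs, x, ?_, ?_⟩
  · intro hx
    have h1 : IsUnit (algebraMap B R x) := h ▸ (isUnit_map R 𝔫 hs).mul eps.isUnit
    exact ((IsLocalization.AtPrime.isUnit_to_map_iff R 𝔫 x).1 h1) hx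
  · rw [IsScalarTower.algebraMap_apply B R F x, ← h, map_mul, ← IsScalarTower.algebraMap_apply, hw]
    field_simp

end LPB

/-- **LPB** (corrected form). -/
theorem stmt_LPB' : Stmt_LPB' := by
  intro B F _ _ _ _ _ _ _ 𝔫 a b m u h𝔫 ha hb ha0 hp hgen hm hu H
  haveI : 𝔫.IsPrime := h𝔫.isPrime
  exact LPB.main (Localization.subalgebra.ofField F 𝔫.primeCompl 𝔫.primeCompl_le_nonZeroDivisors)
    𝔫 a b m u ha hb ha0 hp hgen hm hu H

end Fermat.Agent.S36
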