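import Fermat.Agent.S36.AbsInterface

/-!
# S36 : the contract `ZData` between the instantiation and the abstract side (architect helper84)

`F` = function field of level `N = r² M''` over `E = ℚ̄^I`, `F₁` = level `N / r`, `A₀ = A ∩ E`,
`L = E((q))`.  Three vertical valuations `ord 0, ord 1, ord 2` (`A`, `mid`, `C`).
`Stmt_ZAbs` : VERT + RED + DEG + GoodAt + COV, all abstract.
-/

set_option autoImplicit false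

namespace Fermat.Agent.S36

open Fermat.Agent.KL

section Defs

variable {F : Type*} [Field F]

/-- positive valuation. -/
def VPos (o : F → ℤ) (z : F) : Prop := z = 0 ∨ 0 < o z

/-- valuation zero. -/
def VUnit (o : F → ℤ) (z : F) : Prop := z ≠ 0 ∧ o z = 0

variable {B : Type*} [CommRing B] [Algebra B F]

/-- `P` is the centre of the valuation `o` on `B`, and `B_P` is its valuation ring. -/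
def IsCen (P : Ideal B) (o : F → ℤ) : Prop :=
  ∀ z : F, (PosAt P z ↔ VPos o z) ∧ (UnitAt P z ↔ VUnit o z)

/-- (REG) `𝔫 B_𝔫 = (a, b)` with `a` a prime element locally at `𝔫`. -/
def RegAt (𝔫 : Ideal B) : Prop :=
  ∃ a b : B, a ∈ 𝔫 ∧ b ∈ 𝔫 ∧ a ≠ 0 ∧ (∀ x y : B, a ∣ x * y → ∃ s : B, s ∉ 𝔫 ∧ (a ∣ s * x ∨ a ∣ s * y)) ∧
    ∀ x ∈ 𝔫, ∃ s : B, s ∉ 𝔫 ∧ s * x ∈ Ideal.span {a, b}

/-- (NOR) the component `P` is normal at `𝔫` (the part we need). -/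
def NorAt (m : ℕ) (𝔫 P : Ideal B) : Prop :=
  ∀ x e : F, UnitAt P x → UnitAt 𝔫 e → PosAt P (x ^ m - e) → ∃ x' : F, IntAt 𝔫 x' ∧ PosAt P (x - x')

/-- (HDIV) the horizontal part of the divisor of `u` is divisible by `m`. -/
def HDiv (ϖ : B) (m : ℕ) (u : F) : Prop :=
  ∀ 𝔭 : Ideal B, 𝔭.IsPrime → 𝔭 ≠ ⊥ → (∀ 𝔮 : Ideal B, 𝔮.IsPrime → 𝔮 ≤ 𝔭 → 𝔮 = ⊥ ∨ 𝔮 = 𝔭) → ϖ ∉ 𝔭 →
    ∃ g : F, g ≠ 0 ∧ UnitAt 𝔭 (u / g ^ m)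

end Defs

/-- A degeneracy datum `F₁ → F` of degree `r` with "norm" `N`; over the first valuation of `F₁` lie
`o₁` (`e = f = 1`) and `o₂` (`e = r - 1`, `f = 1`), over the second one `o₃` (`e = 1`, residue
extension purely inseparable of degree `r`). -/
structure Degen (A₀ F F₁ : Type) [CommRing A₀] [Field F] [Field F₁] [Algebra A₀ F] [Algebra A₀ F₁]
    (o₁ o₂ o₃ : F → ℤ) (r : ℕ) where
  π : F₁ →+* F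
  N : F →*₀ F₁
  π_const : ∀ a : A₀, π (algebraMap A₀ F₁ a) = algebraMap A₀ F a
  N_const : ∀ a : A₀, N (algebraMap A₀ F a) = algebraMap A₀ F₁ a ^ r
  na : ∀ (y : F) (y₂ : F₁), VUnit o₁ y → VUnit o₂ y → VPos o₂ (y - π y₂) →
    VPos o₁ (π (N y) - y * π y₂ ^ (r - 1))
  nb : ∀ y : F, VUnit o₃ y → VPos o₃ (π (N y) - y ^ r)
  same : ∀ x : F₁, VPos o₁ (π x) ↔ VPos o₂ (π x)
  res₁ : ∀ y : F, VUnit o₁ y → ∃ y' : F₁, VPos o₁ (y - π y')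
  res₂ : ∀ y : F, VUnit o₂ y → ∃ y' : F₁, VPos o₂ (y - π y')
  v₁ : ∀ z : F, z ≠ 0 → o₁ (π (N z)) = o₁ z + o₂ z
  v₃ : ∀ z : F, z ≠ 0 → o₃ (π (N z)) = r * o₃ z

/-- The local hypotheses on a degeneracy datum at a triple point `ν`. -/
def Degen.LocAt {A₀ F F₁ : Type} [CommRing A₀] [Field F] [Field F₁] [Algebra A₀ F] [Algebra A₀ F₁]
    {o₁ o₂ o₃ : F → ℤ} {r : ℕ} (D : Degen A₀ F F₁ o₁ o₂ o₃ r) {B : Type} [CommRing B] [Algebra B F]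
    (ν : Ideal B) : Prop :=
  (∀ ε : F, UnitAt ν ε → UnitAt ν (D.π (D.N ε))) ∧
    ∀ a : F, IntAt ν a → ∃ a' : F₁, IntAt ν (D.π a') ∧ VPos o₂ (a - D.π a')

/-- **The contract.** -/
structure ZData (A₀ F F₁ L : Type) [CommRing A₀] [IsDomain A₀] [IsDiscreteValuationRing A₀]
    [Field F] [CharZero F] [Algebra A₀ F] [FaithfulSMul A₀ F] [Field F₁] [Algebra A₀ F₁]
    [Field L] [Algebra F L] [Algebra A₀ L] [IsScalarTower A₀ F L] where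
  ϖ : A₀
  t : F
  m : ℕ
  r : ℕ
  ζ : A₀
  -- (D0)
  hϖ : Irreducible ϖ
  ht : Transcendental A₀ t
  hfin : FinOverR (PolyR A₀ t) F
  hL : ∀ c : L, IsIntegral A₀ c → c ∈ (algebraMap A₀ L).range
  hm : IsUnit (m : A₀)
  hζ : IsPrimitiveRoot ζ m
  hroot : ∀ c : A₀, IsUnit c → ∃ d : A₀, d ^ m = c
  hr : 2 ≤ r
  hrm : Nat.Coprime r m
  -- (D1)
  ord : Fin 3 → F → ℤ
  ord_mul : ∀ (X : Fin 3) (x y : F), x ≠ 0 → y ≠ 0 → ord X (x * y) = ord X x + ord X y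
  ord_ϖ : ord 0 (algebraMap A₀ F ϖ) = 1 ∧ ord 1 (algebraMap A₀ F ϖ) = (r : ℤ) - 1 ∧
    ord 2 (algebraMap A₀ F ϖ) = 1
  pM : F
  pC : F
  pM_ne : pM ≠ 0
  pC_ne : pC ≠ 0
  ord_pM : ord 0 pM = 0 ∧ ord 1 pM = 1 ∧ ord 2 pM = 0
  ord_pC : ord 0 pC = 0 ∧ ord 1 pC = 0 ∧ ord 2 pC = 1
  cen₁ : ∀ P ∈ (Ideal.span {cst A₀ t ϖ}).minimalPrimes, ∃ X, IsCen P (ord X)
  cen₁' : ∀ X, ∃ P ∈ (Ideal.span {cst A₀ t ϖ}).minimalPrimes, IsCen P (ord X)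
  cen₂ : ∀ P ∈ (Ideal.span {cst A₀ t⁻¹ ϖ}).minimalPrimes, ∃ X, IsCen P (ord X)
  -- (D2)
  D₁ : Degen A₀ F F₁ (ord 0) (ord 1) (ord 2) r
  D₂ : Degen A₀ F F₁ (ord 2) (ord 1) (ord 0) r
  -- (D3), (D4) on the first chart
  reg₁ : ∀ 𝔫 : Ideal (Chart A₀ t), 𝔫.IsMaximal → cst A₀ t ϖ ∈ 𝔫 → RegAt 𝔫
  nor₁ : ∀ 𝔫 : Ideal (Chart A₀ t), 𝔫.IsMaximal → cst A₀ t ϖ ∈ 𝔫 →
    ∀ P ∈ (Ideal.span {cst A₀ t ϖ}).minimalPrimes, P ≤ 𝔫 → NorAt (F := F) m 𝔫 P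
  tri₁ : ∀ 𝔫 : Ideal (Chart A₀ t), 𝔫.IsMaximal → cst A₀ t ϖ ∈ 𝔫 →
    LocIrred (cst A₀ t ϖ) 𝔫 ∨
      ((∀ P ∈ (Ideal.span {cst A₀ t ϖ}).minimalPrimes, P ≤ 𝔫) ∧ D₁.LocAt 𝔫 ∧ D₂.LocAt 𝔫)
  -- (D3), (D4) at the points `t = ∞` of the second chart
  reg₂ : ∀ 𝔫 : Ideal (Chart A₀ t⁻¹), 𝔫.IsMaximal → cst A₀ t⁻¹ ϖ ∈ 𝔫 → crd A₀ t⁻¹ ∈ 𝔫 → RegAt 𝔫
  nor₂ : ∀ 𝔫 : Ideal (Chart A₀ t⁻¹), 𝔫.IsMaximal → cst A₀ t⁻¹ ϖ ∈ 𝔫 → crd A₀ t⁻¹ ∈ 𝔫 →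
    ∀ P ∈ (Ideal.span {cst A₀ t⁻¹ ϖ}).minimalPrimes, P ≤ 𝔫 → NorAt (F := F) m 𝔫 P
  tri₂ : ∀ 𝔫 : Ideal (Chart A₀ t⁻¹), 𝔫.IsMaximal → cst A₀ t⁻¹ ϖ ∈ 𝔫 → crd A₀ t⁻¹ ∈ 𝔫 →
    LocIrred (cst A₀ t⁻¹ ϖ) 𝔫
  -- (D5)
  root : ∃ 𝔫 : Ideal (Chart A₀ t⁻¹), 𝔫.IsMaximal ∧ cst A₀ t⁻¹ ϖ ∈ 𝔫 ∧ crd A₀ t⁻¹ ∈ 𝔫 ∧
    ∀ ε : F, UnitAt 𝔫 ε → ∃ y : L, y ^ m = algebraMap F L ε

/-- **COV'** : as `Stmt_COV`, but on the second chart `GoodAt` is only required at `t = ∞`. -/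
def Stmt_COV' : Prop :=
  ∀ (A₀ F L : Type) [CommRing A₀] [IsDomain A₀] [IsDiscreteValuationRing A₀] [Field F] [CharZero F]
    [Algebra A₀ F] [FaithfulSMul A₀ F] [Field L] [Algebra F L] [Algebra A₀ L]
    [IsScalarTower A₀ F L] (ϖ : A₀) (t : F) (m : ℕ) (ζ : A₀) (u : F) (y : L),
    Irreducible ϖ → Transcendental A₀ t → FinOverR (PolyR A₀ t) F →
    (∀ c : L, IsIntegral A₀ c → c ∈ (algebraMap A₀ L).range) →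
    IsUnit (m : A₀) → IsPrimitiveRoot ζ m → u ≠ 0 → y ^ m = algebraMap F L u →
    GoodChart (cst A₀ t ϖ) m u →
    (∀ P ∈ (Ideal.span {cst A₀ t⁻¹ ϖ}).minimalPrimes, PosAt P (u - 1)) →
    (∀ 𝔫 : Ideal (Chart A₀ t⁻¹), 𝔫.IsMaximal → cst A₀ t⁻¹ ϖ ∈ 𝔫 → crd A₀ t⁻¹ ∈ 𝔫 →
      GoodAt (cst A₀ t⁻¹ ϖ) m u 𝔫) →
    ∃ g : F, g ^ m = u

/-- **Theorem Z, abstract form.** -/
def Stmt_ZAbs : Prop :=
  ∀ (A₀ F F₁ L : Type) [CommRing A₀] [IsDomain A₀] [IsDiscreteValuationRing A₀]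
    [Field F] [CharZero F] [Algebra A₀ F] [FaithfulSMul A₀ F] [Field F₁] [Algebra A₀ F₁]
    [Field L] [Algebra F L] [Algebra A₀ L] [IsScalarTower A₀ F L] (Z : ZData A₀ F F₁ L) (u : F),
    u ≠ 0 → HDiv (cst A₀ Z.t Z.ϖ) Z.m u → HDiv (cst A₀ Z.t⁻¹ Z.ϖ) Z.m u →
    (∃ (j : ℤ) (g : F₁), Z.D₁.N u = algebraMap A₀ F₁ Z.ϖ ^ j * g ^ Z.m) →
    (∃ (j : ℤ) (g : F₁), Z.D₂.N u = algebraMap A₀ F₁ Z.ϖ ^ j * g ^ Z.m) →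
    ∃ (j : ℤ) (g : F), u ^ ((Z.r ^ 2 - 1) ^ 2) = algebraMap A₀ F Z.ϖ ^ j * g ^ Z.m

/-- **DEG** (the local computation at a triple point; no ring at the lower level is needed). -/
def Stmt_DEG : Prop :=
  ∀ (A₀ F F₁ B : Type) [CommRing A₀] [Field F] [Field F₁] [Algebra A₀ F] [Algebra A₀ F₁]
    [CommRing B] [IsDomain B] [IsIntegrallyClosed B] [Algebra B F] [IsFractionRing B F]
    (o₁ o₂ o₃ : F → ℤ) (r m : ℕ) (D : Degen A₀ F F₁ o₁ o₂ o₃ r) (ν P₁ P₂ P₃ : Ideal B),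
    ν.IsMaximal → P₁.IsPrime → P₂.IsPrime → P₃.IsPrime → P₁ ≤ ν → P₂ ≤ ν → P₃ ≤ ν →
    IsCen P₁ o₁ → IsCen P₂ o₂ → IsCen P₃ o₃ → D.LocAt ν → 0 < m → 1 ≤ r →
    ∀ (u w a₁ a₂ a₃ : F) (g za zb : F₁), u ≠ 0 → w ≠ 0 → D.N u = g ^ m → UnitAt ν (u / w ^ m) →
    UnitAt ν a₁ → UnitAt ν a₂ → UnitAt ν a₃ → PosAt P₁ (w - a₁) → PosAt P₂ (w - a₂) →
    PosAt P₃ (w - a₃) → IntAt ν (D.π za) → IntAt ν (D.π zb) → PosAt P₁ (D.π g - D.π za) →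
    PosAt P₃ (D.π g - D.π zb) →
    PosAt ν (D.π za * a₃ ^ r - D.π zb * (a₁ * a₂ ^ (r - 1)))

end Fermat.Agent.S36
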