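import Fermat.Agent.S36.ZAbs
import Fermat.Agent.S36.Base.Defs
import Fermat.Agent.S36.Dict.Interface

/-!
# S36 : the geometric part, top level interface (architect helper84)

`Stmt_Inst`  : what the whole instantiation has to deliver (a `ZData` with its links to the
               operators `formalU`, `frickeEquiv` and to `IsDiv`).
`Stmt_GeoFinal` : `Stmt_ZAbs` + `Stmt_Inst` + base facts ⟹ `Dict.Stmt_ZF`.
-/

set_option autoImplicit false

namespace Fermat.Agent.S36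

open Fermat.Agent.KL Fermat.Agent.S36.Base Fermat.Agent.S36.Dict
open Fermat.Agent.S24 (Qbar FF)
open Fermat.Agent.ES.Mid (GQ gal IsDiv)
open Fermat.Agent.INJ.Inst (frickeEquiv)

/-- (B1) `A_E` is a discrete valuation ring with uniformiser `r`. -/
def Stmt_BaseDVR : Prop :=
  ∀ (r : ℕ) (A : ValuationSubring Qbar), r.Prime → A.LiesOverPrime r →
    IsDiscreteValuationRing (AE A) ∧ Irreducible ((r : ℕ) : AE A)

/-- (B0) descent: an element of `F_N` fixed by inertia comes from `F_E`. -/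
def Stmt_BaseDescent : Prop :=
  ∀ (N : ℕ) [NeZero N] (A : ValuationSubring Qbar) (u : FF N),
    (∀ σ ∈ A.inertiaSubgroupIn ℚ, gal N σ u = u) → ∃ x : FE A N, emb A N x = u

/-- (B2') every unit of `A_E` is an `m`-th power, `r ∤ m`. -/
def Stmt_BaseRoot : Prop :=
  ∀ (r : ℕ) (A : ValuationSubring Qbar), r.Prime → A.LiesOverPrime r → ∀ m : ℕ, 0 < m → ¬ r ∣ m →
    ∀ c : AE A, IsUnit c → ∃ d : AE A, d ^ m = c

/-- (KD) Kummer descent of `m`-th powers: an element of `F_E` which is an `m`-th power in `F_N` is a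
constant of `E` times an `m`-th power of `F_E`. -/
def Stmt_KumDesc : Prop :=
  ∀ (N : ℕ) [NeZero N] (A : ValuationSubring Qbar) (m : ℕ), 0 < m → ∀ (x : FE A N) (g : FF N),
    x ≠ 0 → g ^ m = emb A N x →
    ∃ (c : IE A) (y : FE A N), c ≠ 0 ∧ x = algebraMap (IE A) (FE A N) c * y ^ m

/-- **What the instantiation has to deliver.** -/
def Stmt_Inst : Prop :=
  ∀ (N r : ℕ) [NeZero N] [NeZero r] [NeZero (N / r)], r.Prime → N.factorization r = 2 →
    auxLevel r ∣ N → ∀ A : ValuationSubring Qbar, A.LiesOverPrime r →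
    ∀ [IsDiscreteValuationRing (AE A)] (m : ℕ), 0 < m → ¬ r ∣ m →
    ∃ Z : ZData (AE A) (FE A N) (FE A (N / r)) (Base.LE A), Z.m = m ∧ Z.r = r ∧ Z.ϖ = ((r : ℕ) : AE A) ∧
      -- the link with `U_r`
      (∀ (ζ : Qbarˣ), IsPrimitiveRoot ζ r → ∀ u : FE A N,
        cmE A ((Z.D₂.N u : FE A (N / r)) : Base.LE A) = formalU r ζ (cmE A (u : Base.LE A))) ∧
      -- the link with `U_r ∘ W`
      (∃ w₁ : FE A (N / r) ≃+* FE A (N / r),
        (∀ c : IE A, w₁ (algebraMap (IE A) (FE A (N / r)) c) = algebraMap (IE A) (FE A (N / r)) c) ∧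
        ∀ (ζ : Qbarˣ), IsPrimitiveRoot ζ r → ∀ u : FE A N,
          cmE A ((w₁ (Z.D₁.N u) : FE A (N / r)) : Base.LE A)
            = formalU r ζ ((frickeEquiv N (emb A N u) : FF N) : LaurentSeries Qbar)) ∧
      -- the link with divisors
      (∀ u : FE A N, IsDiv N m (emb A N u) →
        HDiv (cst (AE A) Z.t Z.ϖ) m u ∧ HDiv (cst (AE A) Z.t⁻¹ Z.ϖ) m u)

/-- **GEO-FINAL.** -/
def Stmt_GeoFinal : Prop :=
  Stmt_ZAbs → Stmt_Inst → Stmt_BaseDVR → Stmt_BaseDescent → Stmt_BaseRoot → Stmt_KumDesc →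
    Stmt_FU_mul → Stmt_ULevel → Stmt_FrickeGal → Stmt_FU_gal → Stmt_ZF

end Fermat.Agent.S36
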