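import Fermat.Agent.ES.Mid.Finite
import Fermat.Agent.ES.Mid.Fix

/-!
# S36 / H90 : Hilbert 90 for Kummer classes of the function field `FF N`  (helper6)

If the class of `u ∈ FF N` modulo `m`-th powers is fixed by a subgroup `I` of `G_ℚ`, then the class
is represented by an element fixed by `I`.

Proof without cocycles: normalise the leading coefficient of `u` to `1`; for `v` in the finite
orbit `O = I u` let `G v` be the unique `m`-th root of `v / u` of the form `1 + O(q)`; then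
`w = ∑_{v ∈ O} G v` has constant term `|O| ≠ 0` and `τ w = w / G (τ u)`.
-/

set_option autoImplicit false

namespace Fermat.Agent.S36.H90

open Fermat.Agent.S24 (Qbar FF)
open Fermat.Agent.ES.Mid (GQ gal coe_gal IsDiv)
open ModularCurve (coeffMap coeffMap_coeff)

/-- Laurent series of the form `1 + O(q)`. -/
def OneU (x : LaurentSeries Qbar) : Prop := x.order = 0 ∧ x.leadingCoeff = 1

theorem OneU.ne_zero {x : LaurentSeries Qbar} (h : OneU x) : x ≠ 0 := by
  intro h0
  have h2 := h.2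
  rw [h0, HahnSeries.leadingCoeff_zero] at h2
  exact zero_ne_one h2

theorem OneU.coeff_zero {x : LaurentSeries Qbar} (h : OneU x) : x.coeff 0 = 1 := by
  have h2 := h.2
  rwa [HahnSeries.leadingCoeff_eq, h.1] at h2

theorem OneU.one : OneU 1 := ⟨HahnSeries.order_one, HahnSeries.leadingCoeff_one⟩

theorem OneU.mul {x y : LaurentSeries Qbar} (hx : OneU x) (hy : OneU y) : OneU (x * y) :=
  ⟨by rw [HahnSeries.order_mul hx.ne_zero hy.ne_zero, hx.1, hy.1, add_zero],
   by rw [HahnSeries.leadingCoeff_mul, hx.2, hy.2, mul_one]⟩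

theorem order_inv {x : LaurentSeries Qbar} (hx : x ≠ 0) : (x⁻¹).order = - x.order := by
  have h1 : x * x⁻¹ = 1 := mul_inv_cancel₀ hx
  have h2 := HahnSeries.order_mul hx (inv_ne_zero hx)
  rw [h1, HahnSeries.order_one] at h2
  omega

theorem leadingCoeff_inv {x : LaurentSeries Qbar} (hx : x ≠ 0) :
    (x⁻¹).leadingCoeff = (x.leadingCoeff)⁻¹ := by
  have h1 : x * x⁻¹ = 1 := mul_inv_cancel₀ hx
  have h2 := HahnSeries.leadingCoeff_mul x x⁻¹
  rw [h1, HahnSeries.leadingCoeff_one] at h2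
  exact eq_inv_of_mul_eq_one_right h2.symm

theorem OneU.inv {x : LaurentSeries Qbar} (hx : OneU x) : OneU x⁻¹ :=
  ⟨by rw [order_inv hx.ne_zero, hx.1, neg_zero],
   by rw [leadingCoeff_inv hx.ne_zero, hx.2, inv_one]⟩

theorem OneU.pow {x : LaurentSeries Qbar} (hx : OneU x) (n : ℕ) : OneU (x ^ n) := by
  induction n with
  | zero => simpa using OneU.one
  | succ n ih => rw [pow_succ]; exact ih.mul hx

theorem coeffMap_ne_zero (σ : GQ) {x : LaurentSeries Qbar} (hx : x ≠ 0) :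
    coeffMap (σ : Qbar →+* Qbar) x ≠ 0 := by
  intro h
  apply hx
  ext n
  have := congrArg (fun y : LaurentSeries Qbar => y.coeff n) h
  simp only [coeffMap_coeff, HahnSeries.coeff_zero] at this
  simpa using this

theorem order_coeffMap (σ : GQ) (x : LaurentSeries Qbar) :
    (coeffMap (σ : Qbar →+* Qbar) x).order = x.order := by
  by_cases hx : x = 0
  · rw [hx, map_zero]
  have hx' := coeffMap_ne_zero σ hx
  apply le_antisymm
  · apply HahnSeries.order_le_of_coeff_ne_zero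
    rw [coeffMap_coeff]
    intro h
    have h0 : x.coeff x.order = 0 := by simpa using h
    exact hx (HahnSeries.coeff_order_eq_zero.1 h0)
  · apply HahnSeries.order_le_of_coeff_ne_zero
    intro h
    have h1 : (coeffMap (σ : Qbar →+* Qbar) x).coeff (coeffMap (σ : Qbar →+* Qbar) x).order = 0 := by
      rw [coeffMap_coeff, h, map_zero]
    exact hx' (HahnSeries.coeff_order_eq_zero.1 h1)

theorem leadingCoeff_coeffMap (σ : GQ) (x : LaurentSeries Qbar) :
    (coeffMap (σ : Qbar →+* Qbar) x).leadingCoeff = σ x.leadingCoeff := by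
  rw [HahnSeries.leadingCoeff_eq, HahnSeries.leadingCoeff_eq, order_coeffMap, coeffMap_coeff]
  rfl

theorem OneU.coeffMap {x : LaurentSeries Qbar} (hx : OneU x) (σ : GQ) :
    OneU (ModularCurve.coeffMap (σ : Qbar →+* Qbar) x) :=
  ⟨by rw [order_coeffMap, hx.1], by rw [leadingCoeff_coeffMap, hx.2, map_one]⟩

/-- uniqueness of normalised `m`-th roots. -/
theorem OneU.eq_one_of_pow {z : LaurentSeries Qbar} (hz : OneU z) {m : ℕ} (hm : m ≠ 0)
    (h : z ^ m = 1) : z = 1 := by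
  have h1 : (∑ i ∈ Finset.range m, z ^ i) * (z - 1) = 0 := by
    rw [geom_sum_mul, h, sub_self]
  have h2 : (∑ i ∈ Finset.range m, z ^ i) ≠ 0 := by
    intro h0
    have h3 := congrArg (fun y : LaurentSeries Qbar => y.coeff 0) h0
    simp only [HahnSeries.coeff_sum, HahnSeries.coeff_zero] at h3
    rw [Finset.sum_congr rfl (fun i _ => (hz.pow i).coeff_zero)] at h3
    simp at h3
    exact hm h3
  rcases mul_eq_zero.1 h1 with h3 | h3
  · exact absurd h3 h2
  · exact sub_eq_zero.1 h3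

theorem OneU.eq_of_pow_eq {a b : LaurentSeries Qbar} (ha : OneU a) (hb : OneU b) {m : ℕ}
    (hm : m ≠ 0) (h : a ^ m = b ^ m) : a = b := by
  have h1 : (a * b⁻¹) ^ m = 1 := by
    rw [mul_pow, inv_pow, h, mul_inv_cancel₀ (pow_ne_zero _ hb.ne_zero)]
  have h2 := (ha.mul hb.inv).eq_one_of_pow hm h1
  have h3 : a = a * b⁻¹ * b := by
    rw [mul_assoc, inv_mul_cancel₀ hb.ne_zero, mul_one]
  rw [h3, h2, one_mul]


theorem leadingCoeff_pow' (x : LaurentSeries Qbar) (n : ℕ) :
    (x ^ n).leadingCoeff = x.leadingCoeff ^ n := by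
  induction n with
  | zero => simp [HahnSeries.leadingCoeff_one]
  | succ n ih => rw [pow_succ, HahnSeries.leadingCoeff_mul, ih, pow_succ]

theorem coe_const (N : ℕ) (c : Qbar) :
    ((algebraMap Qbar (FF N) c : FF N) : LaurentSeries Qbar) = HahnSeries.C c := by
  have h1 : ((algebraMap Qbar (FF N) c : FF N) : LaurentSeries Qbar)
      = algebraMap Qbar (LaurentSeries Qbar) c := rfl
  rw [h1, ModularCurve.algebraMap_laurentSeries_eq_single]
  rfl

theorem order_const (c : Qbar) : (HahnSeries.C c : LaurentSeries Qbar).order = 0 :=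
  HahnSeries.order_C

theorem leadingCoeff_const (c : Qbar) : (HahnSeries.C c : LaurentSeries Qbar).leadingCoeff = c :=
  HahnSeries.leadingCoeff_of_single

/-! ### the Galois action -/

theorem gal_mul (N : ℕ) (σ τ : GQ) (u : FF N) : gal N (σ * τ) u = gal N σ (gal N τ u) := by
  apply Subtype.ext
  rw [coe_gal, coe_gal, coe_gal, ModularCurve.coeffMap_coeffMap]
  rfl

theorem gal_one (N : ℕ) (u : FF N) : gal N 1 u = u := by
  apply Subtype.ext
  rw [coe_gal]
  exact ModularCurve.coeffMap_id _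

theorem gal_eq_of_agree (N : ℕ) (u : FF N) (L : IntermediateField ℚ Qbar)
    (hfix : ∀ σ : GQ, (∀ x ∈ L, σ x = x) → gal N σ u = u) (σ τ : GQ)
    (h : ∀ x ∈ L, σ x = τ x) : gal N σ u = gal N τ u := by
  have h1 : gal N (τ⁻¹ * σ) u = u := by
    apply hfix
    intro x hx
    rw [AlgEquiv.mul_apply, h x hx]
    exact τ.symm_apply_apply x
  have h2 := congrArg (gal N τ) h1
  rw [← gal_mul, mul_inv_cancel_left] at h2
  exact h2

theorem orbit_finite (N : ℕ) (I : Subgroup GQ) (u : FF N) :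
    {v : FF N | ∃ σ ∈ I, gal N σ u = v}.Finite := by
  classical
  obtain ⟨L, hL, hfix⟩ := Fermat.Agent.ES.Mid.LM.fixedOpen N u
  have := hL
  have hsel : ∀ v : {v : FF N | ∃ σ ∈ I, gal N σ u = v}, ∃ σ : GQ, gal N σ u = v.1 := by
    rintro ⟨v, σ, _, h⟩
    exact ⟨σ, h⟩
  choose s hs using hsel
  let r : {v : FF N | ∃ σ ∈ I, gal N σ u = v} → (L →ₐ[ℚ] Qbar) :=
    fun v => ((s v : Qbar ≃ₐ[ℚ] Qbar) : Qbar →ₐ[ℚ] Qbar).comp L.val
  have hr : Function.Injective r := by
    intro v v' hvv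
    apply Subtype.ext
    rw [← hs v, ← hs v']
    apply gal_eq_of_agree N u L hfix
    intro x hx
    have := congrArg (fun f : L →ₐ[ℚ] Qbar => f ⟨x, hx⟩) hvv
    exact this
  exact Set.finite_coe_iff.1 (Finite.of_injective r hr)


/-! ### normalised roots -/

theorem exists_root (N m : ℕ) (hm : m ≠ 0) (y g : FF N) (hy : OneU (y : LaurentSeries Qbar))
    (hg : g ^ m = y) : ∃ g' : FF N, OneU (g' : LaurentSeries Qbar) ∧ g' ^ m = y := by
  have hG : (g : LaurentSeries Qbar) ^ m = (y : LaurentSeries Qbar) := congrArg Subtype.val hg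
  have hord : (g : LaurentSeries Qbar).order = 0 := by
    have h1 := HahnSeries.order_pow (g : LaurentSeries Qbar) m
    rw [hG, hy.1] at h1
    have h2 : (m : ℤ) * (g : LaurentSeries Qbar).order = 0 := by
      rw [← nsmul_eq_mul]
      exact h1.symm
    rcases mul_eq_zero.1 h2 with h3 | h3
    · exact absurd (by exact_mod_cast h3) hm
    · exact h3
  have hlc : (g : LaurentSeries Qbar).leadingCoeff ^ m = 1 := by
    rw [← leadingCoeff_pow', hG, hy.2]
  have hc0 : (g : LaurentSeries Qbar).leadingCoeff ≠ 0 := by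
    intro h0
    rw [h0, zero_pow hm] at hlc
    exact zero_ne_one hlc
  have hg0 : (g : LaurentSeries Qbar) ≠ 0 := HahnSeries.leadingCoeff_ne_zero.1 hc0
  refine ⟨algebraMap Qbar (FF N) ((g : LaurentSeries Qbar).leadingCoeff)⁻¹ * g, ⟨?_, ?_⟩, ?_⟩
  · have hC : (HahnSeries.C ((g : LaurentSeries Qbar).leadingCoeff)⁻¹ : LaurentSeries Qbar) ≠ 0 := by
      rw [← HahnSeries.leadingCoeff_ne_zero, leadingCoeff_const]
      exact inv_ne_zero hc0
    show ((algebraMap Qbar (FF N) ((g : LaurentSeries Qbar).leadingCoeff)⁻¹ : FF N)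
      * (g : LaurentSeries Qbar)).order = 0
    rw [coe_const, HahnSeries.order_mul hC hg0, order_const, hord, add_zero]
  · show ((algebraMap Qbar (FF N) ((g : LaurentSeries Qbar).leadingCoeff)⁻¹ : FF N)
      * (g : LaurentSeries Qbar)).leadingCoeff = 1
    rw [coe_const, HahnSeries.leadingCoeff_mul, leadingCoeff_const, inv_mul_cancel₀ hc0]
  · rw [mul_pow, hg, ← map_pow, inv_pow, hlc, inv_one, map_one, one_mul]

theorem oneU_gal_div (N : ℕ) (σ : GQ) (u : FF N)
    (hu : (u : LaurentSeries Qbar).leadingCoeff = 1) :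
    OneU ((gal N σ u * u⁻¹ : FF N) : LaurentSeries Qbar) := by
  have hu0 : (u : LaurentSeries Qbar) ≠ 0 := by
    rw [← HahnSeries.leadingCoeff_ne_zero, hu]
    exact one_ne_zero
  have e : ((gal N σ u * u⁻¹ : FF N) : LaurentSeries Qbar)
      = coeffMap (σ : Qbar →+* Qbar) (u : LaurentSeries Qbar) * (u : LaurentSeries Qbar)⁻¹ := rfl
  rw [e]
  refine ⟨?_, ?_⟩
  · rw [HahnSeries.order_mul (coeffMap_ne_zero σ hu0) (inv_ne_zero hu0), order_coeffMap,
      order_inv hu0, add_neg_cancel]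
  · rw [HahnSeries.leadingCoeff_mul, leadingCoeff_coeffMap, leadingCoeff_inv hu0, hu, map_one,
      inv_one, mul_one]

/-- Hilbert 90, for `u` with leading coefficient `1`. -/
theorem h90_monic (N m : ℕ) (hm : m ≠ 0) (I : Subgroup GQ) (u : FF N)
    (hu : (u : LaurentSeries Qbar).leadingCoeff = 1)
    (h : ∀ σ ∈ I, ∃ g : FF N, g ^ m = gal N σ u * u⁻¹) :
    ∃ w : FF N, w ≠ 0 ∧ ∀ σ ∈ I, gal N σ (u * w ^ m) = u * w ^ m := by
  classical
  have hu0 : u ≠ 0 := by
    intro h0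
    rw [h0] at hu
    exact zero_ne_one (HahnSeries.leadingCoeff_zero.symm.trans hu)
  have hOfin := orbit_finite N I u
  set O : Set (FF N) := {v : FF N | ∃ σ ∈ I, gal N σ u = v} with hO
  have hroot : ∀ v ∈ O, ∃ g : FF N, OneU (g : LaurentSeries Qbar) ∧ g ^ m = v * u⁻¹ := by
    rintro v ⟨σ, hσ, rfl⟩
    obtain ⟨g, hg⟩ := h σ hσ
    exact exists_root N m hm _ g (oneU_gal_div N σ u hu) hg
  choose! G hG1 hG2 using hroot
  have huO : u ∈ O := ⟨1, I.one_mem, gal_one N u⟩
  have hperm : ∀ τ ∈ I, ∀ v ∈ O, gal N τ v ∈ O := by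
    rintro τ hτ v ⟨σ, hσ, rfl⟩
    exact ⟨τ * σ, I.mul_mem hτ hσ, gal_mul N τ σ u⟩
  have hG0 : ∀ v ∈ O, G v ≠ 0 := by
    intro v hv h0
    exact (hG1 v hv).ne_zero (by rw [h0]; rfl)
  have key : ∀ τ ∈ I, ∀ v ∈ O, gal N τ (G v) = G (gal N τ v) * (G (gal N τ u))⁻¹ := by
    intro τ hτ v hv
    apply Subtype.ext
    have hv' := hperm τ hτ v hv
    have hu' := hperm τ hτ u huO
    have hτu0 : gal N τ u ≠ 0 := (map_ne_zero_iff _ (gal N τ).injective).2 hu0
    refine OneU.eq_of_pow_eq (m := m) ?_ ?_ hm ?_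
    · rw [coe_gal]
      exact (hG1 v hv).coeffMap τ
    · exact (hG1 _ hv').mul (hG1 _ hu').inv
    · have e : (gal N τ (G v)) ^ m = (G (gal N τ v) * (G (gal N τ u))⁻¹) ^ m := by
        rw [← map_pow, hG2 v hv, mul_pow, inv_pow, hG2 _ hv', hG2 _ hu', map_mul, map_inv₀]
        field_simp
      exact congrArg Subtype.val e
  set w : FF N := ∑ v ∈ hOfin.toFinset, G v with hw
  have hw0 : w ≠ 0 := by
    intro h0
    have h1 : ((w : FF N) : LaurentSeries Qbar).coeff 0 = 0 := by rw [h0]; rfl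
    have h2 : ((w : FF N) : LaurentSeries Qbar)
        = ∑ v ∈ hOfin.toFinset, ((G v : FF N) : LaurentSeries Qbar) := by
      rw [hw]
      exact AddSubmonoidClass.coe_finsetSum _ _
    rw [h2, HahnSeries.coeff_sum,
      Finset.sum_congr rfl (fun v hv => (hG1 v (hOfin.mem_toFinset.1 hv)).coeff_zero)] at h1
    simp only [Finset.sum_const, nsmul_eq_mul, mul_one, Nat.cast_eq_zero,
      Finset.card_eq_zero] at h1
    have : u ∈ hOfin.toFinset := hOfin.mem_toFinset.2 huO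
    rw [h1] at this
    exact absurd this (Finset.notMem_empty u)
  have hsum : ∀ τ ∈ I, ∑ v ∈ hOfin.toFinset, G (gal N τ v) = w := by
    intro τ hτ
    rw [hw]
    refine Finset.sum_nbij' (fun v => gal N τ v) (fun v => gal N τ⁻¹ v) ?_ ?_ ?_ ?_ ?_
    · intro v hv
      exact hOfin.mem_toFinset.2 (hperm τ hτ v (hOfin.mem_toFinset.1 hv))
    · intro v hv
      exact hOfin.mem_toFinset.2 (hperm τ⁻¹ (I.inv_mem hτ) v (hOfin.mem_toFinset.1 hv))
    · intro v _
      show gal N τ⁻¹ (gal N τ v) = v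
      rw [← gal_mul, inv_mul_cancel, gal_one]
    · intro v _
      show gal N τ (gal N τ⁻¹ v) = v
      rw [← gal_mul, mul_inv_cancel, gal_one]
    · intro v _
      rfl
  have hτw : ∀ τ ∈ I, gal N τ w = w * (G (gal N τ u))⁻¹ := by
    intro τ hτ
    conv_lhs => rw [hw]
    rw [map_sum, Finset.sum_congr rfl (fun v hv => key τ hτ v (hOfin.mem_toFinset.1 hv)),
      ← Finset.sum_mul, hsum τ hτ]
  refine ⟨w, hw0, fun τ hτ => ?_⟩
  have hu' := hperm τ hτ u huO
  have hτu0 : gal N τ u ≠ 0 := (map_ne_zero_iff _ (gal N τ).injective).2 hu0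
  rw [map_mul, map_pow, hτw τ hτ, mul_pow, inv_pow, hG2 _ hu']
  field_simp


/-- **Hilbert 90 for Kummer classes of `FF N`.**  If the class of `u` modulo `m`-th powers is
fixed by the subgroup `I`, it is represented by an element fixed by `I`. -/
theorem h90 (N m : ℕ) (hm : m ≠ 0) (I : Subgroup GQ) (u : FF N) (hu : u ≠ 0)
    (h : ∀ σ ∈ I, ∃ g : FF N, g ^ m = gal N σ u * u⁻¹) :
    ∃ w : FF N, w ≠ 0 ∧ ∀ σ ∈ I, gal N σ (u * w ^ m) = u * w ^ m := by
  have hu0 : (u : LaurentSeries Qbar) ≠ 0 := fun h0 => hu (Subtype.ext h0)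
  have hc0 : (u : LaurentSeries Qbar).leadingCoeff ≠ 0 := HahnSeries.leadingCoeff_ne_zero.2 hu0
  obtain ⟨d, hd⟩ := IsAlgClosed.exists_pow_nat_eq ((u : LaurentSeries Qbar).leadingCoeff)⁻¹
    (Nat.pos_of_ne_zero hm)
  have hd0 : d ≠ 0 := by
    intro h0
    rw [h0, zero_pow hm] at hd
    exact inv_ne_zero hc0 hd.symm
  set D : FF N := algebraMap Qbar (FF N) d with hD
  have hD0 : D ≠ 0 := (map_ne_zero_iff _ (algebraMap Qbar (FF N)).injective).2 hd0
  have hmonic : ((u * D ^ m : FF N) : LaurentSeries Qbar).leadingCoeff = 1 := by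
    have e : ((u * D ^ m : FF N) : LaurentSeries Qbar)
        = (u : LaurentSeries Qbar) * ((algebraMap Qbar (FF N) (d ^ m) : FF N) : LaurentSeries Qbar) := by
      rw [map_pow]
      rfl
    rw [e, coe_const, HahnSeries.leadingCoeff_mul, leadingCoeff_const, hd, mul_inv_cancel₀ hc0]
  obtain ⟨w, hw0, hw⟩ := h90_monic N m hm I (u * D ^ m) hmonic (by
    intro σ hσ
    obtain ⟨g, hg⟩ := h σ hσ
    have hσD : gal N σ D ≠ 0 := (map_ne_zero_iff _ (gal N σ).injective).2 hD0
    refine ⟨g * (gal N σ D * D⁻¹), ?_⟩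
    rw [mul_pow, hg, map_mul, map_pow, mul_pow, inv_pow, mul_inv]
    ring)
  refine ⟨D * w, mul_ne_zero hD0 hw0, fun σ hσ => ?_⟩
  have e : u * (D * w) ^ m = u * D ^ m * w ^ m := by rw [mul_pow, mul_assoc]
  rw [e]
  exact hw σ hσ

theorem isDiv_mul_pow {N m : ℕ} {u w : FF N} (hu : IsDiv N m u) (hw : w ≠ 0) :
    IsDiv N m (u * w ^ m) :=
  ⟨mul_ne_zero hu.1 (pow_ne_zero _ hw), fun P => by
    rw [AlgebraicCurve.Place.ord_mul P hu.1 (pow_ne_zero _ hw), ← zpow_natCast,
      AlgebraicCurve.Place.ord_zpow]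
    exact dvd_add (hu.2 P) (Dvd.intro _ rfl)⟩

/-- the `q`-coefficients of an element fixed by `σ` are fixed by `σ`. -/
theorem coeff_fixed {N : ℕ} {σ : GQ} {u : FF N} (h : gal N σ u = u) (n : ℤ) :
    σ ((u : LaurentSeries Qbar).coeff n) = (u : LaurentSeries Qbar).coeff n := by
  have h1 := congrArg (fun y : FF N => (y : LaurentSeries Qbar).coeff n) h
  simp only [coe_gal, coeffMap_coeff] at h1
  exact h1

/-- packaged form. -/
theorem h90_isDiv (N m : ℕ) (hm : m ≠ 0) (I : Subgroup GQ) (u : FF N) (hu : IsDiv N m u)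
    (h : ∀ σ ∈ I, ∃ g : FF N, g ^ m = gal N σ u * u⁻¹) :
    ∃ u' w : FF N, w ≠ 0 ∧ u' = u * w ^ m ∧ IsDiv N m u' ∧ (∀ σ ∈ I, gal N σ u' = u') ∧
      ∀ σ ∈ I, ∀ n : ℤ, σ ((u' : LaurentSeries Qbar).coeff n) = (u' : LaurentSeries Qbar).coeff n := by
  obtain ⟨w, hw0, hw⟩ := h90 N m hm I u hu.1 h
  exact ⟨u * w ^ m, w, hw0, rfl, isDiv_mul_pow hu hw0, hw, fun σ hσ n => coeff_fixed (hw σ hσ) n⟩

end Fermat.Agent.S36.H90

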