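import Fermat.Agent.S36.CovInterface
import Fermat.Agent.KL.SmallG
import Fermat.Agent.KL.DiscrUnit

/-!
# S36 / ABS-COV / COV-CONTR : minimal primes over `π` contract to minimal primes over `π`
-/

set_option autoImplicit false

namespace Fermat.Agent.S36.Cov

open Fermat.Agent.KL Fermat.Agent.S36

theorem stmt_CovContr : Stmt_CovContr := by
  intro R R' B F' _ _ _ _ _ _ _ _ _ _ _ _ _ _ _ _ _ _ _ π hπ hbij P hP
  let e : R ≃+* R' := RingEquiv.ofBijective (algebraMap R R') hbij
  have he : ∀ x, e x = algebraMap R R' x := fun _ => rfl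
  have hπ' : Prime (algebraMap R R' π) := by
    rw [← he]
    exact (MulEquiv.prime_iff (e : R ≃* R')).2 hπ
  have hPp : P.IsPrime := hP.1.1
  have hπP : algebraMap R' (integralClosure R' F') (algebraMap R R' π) ∈ P :=
    hP.1.2 (Ideal.subset_span rfl)
  have hp : (P.under B).IsPrime := Ideal.IsPrime.under B P
  have hmem : ∀ x : R, algebraMap R B x ∈ P.under B ↔
      algebraMap R' (integralClosure R' F') (algebraMap R R' x) ∈ P := by
    intro x
    rw [Ideal.mem_comap, ← IsScalarTower.algebraMap_apply R B (integralClosure R' F'),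
      IsScalarTower.algebraMap_apply R R' (integralClosure R' F')]
  have hunder : (P.under B).under R = Ideal.span {π} := by
    ext x
    rw [Ideal.mem_comap, hmem, Ideal.mem_span_singleton]
    constructor
    · intro hx
      by_contra hdvd
      refine stmt_notMemMinimalPrimes R' F' (algebraMap R R' π) (algebraMap R R' x) hπ' ?_ P hP hx
      intro h
      rw [← he, ← he] at h
      exact hdvd ((map_dvd_iff e).1 h)
    · rintro ⟨c, rfl⟩
      rw [map_mul, map_mul]
      exact P.mul_mem_right _ hπP
  obtain ⟨-, -, hmin⟩ := stmt_htOneOfLiesOver R B π hπ (P.under B) hp hunder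
  have hπB : algebraMap R B π ∈ P.under B := (hmem π).2 hπP
  refine ⟨⟨hp, (Ideal.span_singleton_le_iff_mem _).2 hπB⟩, ?_⟩
  rintro q ⟨hq, hle⟩ hqp
  rcases hmin q hq hqp with rfl | rfl
  · exfalso
    have h0 : algebraMap R B π = 0 := by
      have := hle (Ideal.subset_span rfl)
      simpa using this
    exact hπ.ne_zero (FaithfulSMul.algebraMap_injective R B (by rw [h0, map_zero]))
  · exact le_rfl

end Fermat.Agent.S36.Cov
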