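import Fermat.Agent.S36.CovInterface
import Fermat.Agent.KL.PolyRing

/-!
# S36 / ABS-COV : COV-FIN (the coordinate in a finite extension) and COV-NE (non-empty special
fibre).   helper83
-/

set_option autoImplicit false

namespace Fermat.Agent.S36.Cov

open Fermat.Agent.KL Fermat.Agent.S36

namespace CovFin

/-! ### abstract form of (Fin) -/

theorem finOverR_trans (P P' F F' : Type) [CommRing P] [CommRing P'] [Field F] [Field F']
    [Algebra P F] [Algebra P' F'] [Algebra F F'] [FiniteDimensional F F']
    (hinj : Function.Injective (algebraMap P F))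
    (h : ∀ p : P, ∃ p' : P', algebraMap P' F' p' = algebraMap F F' (algebraMap P F p))
    (hfin : FinOverR P F) : FinOverR P' F' := by
  classical
  obtain ⟨s, hs⟩ := hfin
  choose φ hφ using h
  let b := Module.finBasis F F'
  refine ⟨(s ×ˢ (Finset.univ : Finset (Fin (Module.finrank F F')))).image
    (fun a => algebraMap F F' a.1 * b a.2), fun y' => ?_⟩
  set s' : Finset F' := (s ×ˢ (Finset.univ : Finset (Fin (Module.finrank F F')))).image
    (fun a => algebraMap F F' a.1 * b a.2) with hs'
  -- elements of `span_P s` times `b j`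
  have key : ∀ (j : Fin (Module.finrank F F')) (z : F), z ∈ Submodule.span P (s : Set F) →
      algebraMap F F' z * b j ∈ Submodule.span P' (s' : Set F') := by
    intro j z hz
    induction hz using Submodule.span_induction with
    | mem a ha =>
      refine Submodule.subset_span ?_
      rw [hs', Finset.coe_image]
      exact ⟨(a, j), by simpa using ha, rfl⟩
    | zero => rw [map_zero, zero_mul]; exact zero_mem _
    | add a c _ _ ha hc => rw [map_add, add_mul]; exact add_mem ha hc
    | smul p a _ ha =>
      have e : algebraMap F F' (p • a) * b j = φ p • (algebraMap F F' a * b j) := by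
        rw [Algebra.smul_def, Algebra.smul_def, map_mul, hφ, mul_assoc]
      rw [e]
      exact Submodule.smul_mem _ _ ha
  choose d hd0 hd using fun j : Fin (Module.finrank F F') => hs (b.repr y' j)
  have hprod0 : algebraMap P F (∏ j, d j) ≠ 0 := by
    rw [map_prod]
    exact Finset.prod_ne_zero_iff.2 fun j _ h0 => hd0 j (hinj (by rw [h0, map_zero]))
  refine ⟨φ (∏ j, d j), ?_, ?_⟩
  · intro h0
    have h1 := hφ (∏ j, d j)
    rw [h0, map_zero] at h1
    exact hprod0 ((algebraMap F F').injective (by rw [← h1, map_zero]))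
  · have hy : y' = ∑ j, algebraMap F F' (b.repr y' j) * b j := by
      conv_lhs => rw [← b.sum_repr y']
      exact Finset.sum_congr rfl fun j _ => Algebra.smul_def _ _
    have e : φ (∏ j, d j) • y' =
        ∑ j, algebraMap F F' ((∏ i, d i) • b.repr y' j) * b j := by
      rw [Algebra.smul_def, hφ]
      conv_lhs => rw [hy]
      rw [Finset.mul_sum]
      refine Finset.sum_congr rfl fun j _ => ?_
      rw [Algebra.smul_def, map_mul, mul_assoc]
    rw [e]
    refine Submodule.sum_mem _ fun j _ => key j _ ?_
    rw [← Finset.mul_prod_erase Finset.univ d (Finset.mem_univ j), mul_comm, mul_smul]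
    exact Submodule.smul_mem _ _ (hd j)

theorem map_mem_adjoin {A₀ F F' : Type} [CommRing A₀] [Field F] [Field F'] [Algebra A₀ F]
    [Algebra A₀ F'] [Algebra F F'] [IsScalarTower A₀ F F'] (x p : F)
    (hp : p ∈ Algebra.adjoin A₀ {x}) :
    algebraMap F F' p ∈ Algebra.adjoin A₀ {algebraMap F F' x} := by
  induction hp using Algebra.adjoin_induction with
  | mem y hy =>
    rw [Set.mem_singleton_iff] at hy
    rw [hy]
    exact Algebra.self_mem_adjoin_singleton A₀ _
  | algebraMap c =>
    rw [← IsScalarTower.algebraMap_apply]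
    exact Subalgebra.algebraMap_mem _ c
  | add y z _ _ hy hz => rw [map_add]; exact add_mem hy hz
  | mul y z _ _ hy hz => rw [map_mul]; exact mul_mem hy hz

/-- (Fin) for abstract subalgebras. -/
theorem finOverR_subalgebra {A₀ F F' : Type} [CommRing A₀] [Field F] [Field F'] [Algebra A₀ F]
    [Algebra A₀ F'] [Algebra F F'] [FiniteDimensional F F'] (S : Subalgebra A₀ F)
    (S' : Subalgebra A₀ F') (h : ∀ p ∈ S, algebraMap F F' p ∈ S') (hfin : FinOverR S F) :
    FinOverR S' F' :=
  finOverR_trans S S' F F' Subtype.val_injective (fun p => ⟨⟨algebraMap F F' p.1, h p.1 p.2⟩, rfl⟩)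
    hfin

/-! ### abstract form of (Nonempty) -/

theorem exists_minimalPrime (P B : Type) [CommRing P] [CommRing B] [Algebra P B]
    [Algebra.IsIntegral P B] (hinj : Function.Injective (algebraMap P B)) (π : P) (hπ : Prime π) :
    ∃ Q : Ideal B, Q ∈ (Ideal.span {algebraMap P B π}).minimalPrimes := by
  have hp : (Ideal.span {π}).IsPrime := (Ideal.span_singleton_prime hπ.ne_zero).2 hπ
  obtain ⟨Q, -, hQ, hQP⟩ := Ideal.exists_ideal_over_prime_of_isIntegral (Ideal.span {π})
    (⊥ : Ideal B) (by
      intro z hz
      rw [Ideal.mem_comap, Ideal.mem_bot] at hz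
      rw [hinj (hz.trans (map_zero _).symm)]
      exact zero_mem _)
  have hle : Ideal.span {algebraMap P B π} ≤ Q := by
    rw [Ideal.span_singleton_le_iff_mem, ← Ideal.mem_comap, hQP]
    exact Ideal.mem_span_singleton_self π
  obtain ⟨p, hp, -⟩ := Ideal.exists_minimalPrimes_le hle
  exact ⟨p, hp⟩

theorem exists_minimalPrime_subalgebra {A₀ F : Type} [CommRing A₀] [Field F] [Algebra A₀ F]
    (S : Subalgebra A₀ F) (π : S) (hπ : Prime π) :
    ∃ Q : Ideal (integralClosure S F),
      Q ∈ (Ideal.span {algebraMap S (integralClosure S F) π}).minimalPrimes := by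
  refine exists_minimalPrime S (integralClosure S F) ?_ π hπ
  intro a c hac
  exact Subtype.ext (congrArg (fun z : integralClosure S F => (z : F)) hac)

end CovFin

theorem stmt_CovFin : Stmt_CovFin := by
  intro A₀ F F' _ _ _ _ _ _ _ _ _ _ x x' hx htr hfin
  subst hx
  exact ⟨(transcendental_algebraMap_iff (algebraMap F F').injective).2 htr,
    CovFin.finOverR_subalgebra (PolyR A₀ x) (PolyR A₀ (algebraMap F F' x))
      (fun p hp => CovFin.map_mem_adjoin x p hp) hfin⟩

theorem stmt_CovNonempty : Stmt_CovNonempty := by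
  intro A₀ F _ _ _ _ _ _ ϖ x hϖ htr
  have hvar := (stmt_polyRConcrete A₀ F x htr).1
  have hprime := (stmt_polyRing A₀ (PolyR A₀ x) (polyX A₀ x) hvar).2.2.2.2.2 ϖ hϖ
  exact CovFin.exists_minimalPrime_subalgebra (PolyR A₀ x) _ hprime

end Fermat.Agent.S36.Cov
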