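import Fermat.Agent.S36.ZAbs
import Fermat.Agent.KL.TKCharts2

/-!
# S36 / ABS-COV : exact statements of the sub-packages (architect helper10)

`F'` is the Kummer extension `F(y)`, `y ^ m = u`.  The charts of `F'` are `Chart A₀ x'`,
`x' = algebraMap F F' x`, `x = t` or `x = t⁻¹`.
The `Chart A₀ x`-algebra structure of `F'` is the canonical one (found by `inferInstance`,
it is `Subalgebra.toAlgebra`), as is `IsScalarTower (Chart A₀ x) F F'`.
-/

set_option autoImplicit false

namespace Fermat.Agent.S36.Cov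

open Fermat.Agent.KL Fermat.Agent.S36 IntermediateField

/-- **COV-FIN**: the coordinate stays a coordinate in a finite extension. -/
def Stmt_CovFin : Prop :=
  ∀ (A₀ F F' : Type) [CommRing A₀] [IsDomain A₀] [Field F] [Field F']
    [Algebra A₀ F] [FaithfulSMul A₀ F] [Algebra A₀ F'] [Algebra F F'] [IsScalarTower A₀ F F']
    [FiniteDimensional F F'] (x : F) (x' : F'), algebraMap F F' x = x' →
    Transcendental A₀ x → FinOverR (PolyR A₀ x) F →
    Transcendental A₀ x' ∧ FinOverR (PolyR A₀ x') F'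

/-- **COV-NE**: the special fibre of a chart is not empty. -/
def Stmt_CovNonempty : Prop :=
  ∀ (A₀ F : Type) [CommRing A₀] [IsDomain A₀] [IsDiscreteValuationRing A₀] [Field F]
    [Algebra A₀ F] [FaithfulSMul A₀ F] (ϖ : A₀) (x : F), Irreducible ϖ → Transcendental A₀ x →
    ∃ P : Ideal (Chart A₀ x), P ∈ (Ideal.span {cst A₀ x ϖ}).minimalPrimes

/-- **COV-CONTR** (abstract): minimal primes over `π` contract to minimal primes over `π`.
`R ≃ R'` are two copies of the polynomial ring, `B` is integral over `R`,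
`integralClosure R' F'` is the upper chart. -/
def Stmt_CovContr : Prop :=
  ∀ (R R' B F' : Type) [CommRing R] [IsDomain R] [UniqueFactorizationMonoid R]
    [CommRing R'] [IsDomain R'] [IsIntegrallyClosed R']
    [CommRing B] [IsDomain B] [Algebra R B] [FaithfulSMul R B] [Algebra.IsIntegral R B]
    [Field F'] [Algebra R' F'] [FaithfulSMul R' F'] [Algebra R R']
    [Algebra B (integralClosure R' F')] [Algebra R (integralClosure R' F')]
    [IsScalarTower R R' (integralClosure R' F')] [IsScalarTower R B (integralClosure R' F')]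
    (π : R), Prime π → Function.Bijective (algebraMap R R') →
    ∀ P ∈ (Ideal.span {algebraMap R' (integralClosure R' F') (algebraMap R R' π)}).minimalPrimes,
      P.under B ∈ (Ideal.span {algebraMap R B π}).minimalPrimes

/-- **COV-LINK**: the chart of `F'` is the integral closure of the chart of `F`. -/
def Stmt_CovLink : Prop :=
  ∀ (A₀ F F' : Type) [CommRing A₀] [IsDomain A₀] [IsDiscreteValuationRing A₀] [Field F]
    [CharZero F] [Field F'] [Algebra A₀ F] [FaithfulSMul A₀ F] [Algebra A₀ F'] [Algebra F F']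
    [IsScalarTower A₀ F F'] [FiniteDimensional F F'] (ϖ : A₀) (x : F) (x' : F'),
    algebraMap F F' x = x' → Irreducible ϖ → Transcendental A₀ x → FinOverR (PolyR A₀ x) F →
    ∃ (_ : Algebra (Chart A₀ x) (Chart A₀ x')),
      IsScalarTower (Chart A₀ x) (Chart A₀ x') F' ∧
      IsIntegralClosure (Chart A₀ x') (Chart A₀ x) F' ∧
      (∀ a : A₀, algebraMap (Chart A₀ x) (Chart A₀ x') (cst A₀ x a) = cst A₀ x' a) ∧
      algebraMap (Chart A₀ x) (Chart A₀ x') (crd A₀ x) = crd A₀ x' ∧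
      (∀ P ∈ (Ideal.span {cst A₀ x' ϖ}).minimalPrimes,
        P.under (Chart A₀ x) ∈ (Ideal.span {cst A₀ x ϖ}).minimalPrimes)

/-- **COV-FIELD**: the covering theorem for an abstract finite extension `F'` of `F` containing an
`m`-th root `y` of `u`: every `F`-automorphism of `F'` fixes `y`. -/
def Stmt_CovField : Prop :=
  ∀ (A₀ F F' : Type) [CommRing A₀] [IsDomain A₀] [IsDiscreteValuationRing A₀] [Field F]
    [CharZero F] [Field F'] [Algebra A₀ F] [FaithfulSMul A₀ F] [Algebra A₀ F'] [Algebra F F']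
    [IsScalarTower A₀ F F'] [FiniteDimensional F F'] (ϖ : A₀) (t : F) (m : ℕ) (ζ : A₀) (u : F)
    (y : F'), Irreducible ϖ → Transcendental A₀ t → FinOverR (PolyR A₀ t) F →
    (∀ c : F', IsIntegral A₀ c → c ∈ (algebraMap A₀ F').range) →
    IsUnit (m : A₀) → IsPrimitiveRoot ζ m → u ≠ 0 → y ^ m = algebraMap F F' u →
    GoodChart (cst A₀ t ϖ) m u →
    (∀ P ∈ (Ideal.span {cst A₀ t⁻¹ ϖ}).minimalPrimes, PosAt P (u - 1)) →
    (∀ 𝔫 : Ideal (Chart A₀ t⁻¹), 𝔫.IsMaximal → cst A₀ t⁻¹ ϖ ∈ 𝔫 → crd A₀ t⁻¹ ∈ 𝔫 →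
      GoodAt (cst A₀ t⁻¹ ϖ) m u 𝔫) →
    ∀ τ : F' ≃ₐ[F] F', τ y = y

/-- **COV-GAL**: Kummer theory. -/
def Stmt_CovGal : Prop :=
  ∀ (F L : Type) [Field F] [CharZero F] [Field L] [Algebra F L] (m : ℕ) (ζ u : F) (y : L),
    0 < m → IsPrimitiveRoot ζ m → u ≠ 0 → y ^ m = algebraMap F L u →
    FiniteDimensional F F⟮y⟯ ∧
    ((∀ τ : F⟮y⟯ ≃ₐ[F] F⟮y⟯, τ (AdjoinSimple.gen F y) = AdjoinSimple.gen F y) →
      ∃ g : F, algebraMap F L g = y)

end Fermat.Agent.S36.Cov
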