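/-
TEAM S36, block ABS-COV, task COV-GAL (helper26): Kummer theory (`Stmt_CovGal`) and the reductions
`Stmt_CovField → Stmt_COV' → Stmt_COV`.
-/
import Fermat.Agent.S36.CovInterface

set_option autoImplicit false

namespace Fermat.Agent.S36.Cov

open Fermat.Agent.KL Fermat.Agent.S36 IntermediateField Polynomial

/-- A field generated by an `m`-th root of `u`, in the presence of the `m`-th roots of unity, is a
splitting field of `X ^ m - C u`. -/
theorem covGal_isSplittingField (F K : Type) [Field F] [Field K] [Algebra F K] (m : ℕ) (ζ u : F)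
    (z : K) (hm : 0 < m) (hζ : IsPrimitiveRoot ζ m) (hz : z ^ m = algebraMap F K u)
    (htop : Algebra.adjoin F {z} = ⊤) :
    IsSplittingField F K (X ^ m - C u) := by
  constructor
  · rw [Polynomial.map_sub, Polynomial.map_pow, Polynomial.map_C, Polynomial.map_X]
    exact X_pow_sub_C_splits_of_isPrimitiveRoot
      (hζ.map_of_injective (algebraMap F K).injective) hz
  · rw [eq_top_iff, ← htop]
    apply Algebra.adjoin_mono
    rw [Set.singleton_subset_iff, mem_rootSet_of_ne (X_pow_sub_C_ne_zero hm u),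
      aeval_def, eval₂_sub, eval₂_X_pow, eval₂_C, hz, sub_self]

theorem stmt_CovGal : Stmt_CovGal := by
  intro F L _ _ _ _ m ζ u y hm hζ hu hy
  have hint : IsIntegral F y := by
    refine ⟨X ^ m - C u, monic_X_pow_sub_C u hm.ne', ?_⟩
    rw [eval₂_sub, eval₂_X_pow, eval₂_C, hy, sub_self]
  have hfin : FiniteDimensional F F⟮y⟯ := IntermediateField.adjoin.finiteDimensional hint
  refine ⟨hfin, fun hfix => ?_⟩
  have hgen : (AdjoinSimple.gen F y) ^ m = algebraMap F F⟮y⟯ u := by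
    apply Subtype.ext
    change ((AdjoinSimple.gen F y : F⟮y⟯) : L) ^ m = algebraMap F L u
    rw [AdjoinSimple.coe_gen, hy]
  have htop : Algebra.adjoin F {AdjoinSimple.gen F y} = ⊤ :=
    (IntermediateField.adjoin.powerBasis hint).adjoin_gen_eq_top
  have hsf : IsSplittingField F F⟮y⟯ (X ^ m - C u) :=
    covGal_isSplittingField F F⟮y⟯ m ζ u _ hm hζ hgen htop
  have hsep : (X ^ m - C u : F[X]).Separable :=
    separable_X_pow_sub_C u (Nat.cast_ne_zero.mpr hm.ne') hu
  have hgal : IsGalois F F⟮y⟯ := IsGalois.of_separable_splitting_field hsep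
  obtain ⟨g, hg⟩ := (IsGalois.mem_range_algebraMap_iff_fixed (F := F) (E := F⟮y⟯)
    (AdjoinSimple.gen F y)).mpr hfix
  refine ⟨g, ?_⟩
  have := congrArg (fun z : F⟮y⟯ => (z : L)) hg
  simpa using this

/-- The reduction of `Stmt_COV'` to the field `F' = F(y)`. -/
theorem cov'_of_field (h : Stmt_CovField) : Fermat.Agent.S36.Stmt_COV' := by
  intro A₀ F L _ _ _ _ _ _ _ _ _ _ _ ϖ t m ζ u y hϖ ht hfin hconst hmu hζ hu hy hgood hpos hinf
  have hm : 0 < m := by
    rcases Nat.eq_zero_or_pos m with h0 | h0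
    · exfalso
      rw [h0, Nat.cast_zero] at hmu
      exact not_isUnit_zero hmu
    · exact h0
  have hζF : IsPrimitiveRoot (algebraMap A₀ F ζ) m :=
    hζ.map_of_injective (FaithfulSMul.algebraMap_injective A₀ F)
  obtain ⟨hfd, hgal⟩ := stmt_CovGal F L m (algebraMap A₀ F ζ) u y hm hζF hu hy
  have hgen : (AdjoinSimple.gen F y) ^ m = algebraMap F F⟮y⟯ u := by
    apply Subtype.ext
    change ((AdjoinSimple.gen F y : F⟮y⟯) : L) ^ m = algebraMap F L u
    rw [AdjoinSimple.coe_gen, hy]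
  have htower : ∀ a : A₀, ((algebraMap A₀ F⟮y⟯ a : F⟮y⟯) : L) = algebraMap A₀ L a := by
    intro a
    rw [IsScalarTower.algebraMap_apply A₀ F F⟮y⟯ a, IsScalarTower.algebraMap_apply A₀ F L a]
    rfl
  have hconst' : ∀ c : F⟮y⟯, IsIntegral A₀ c → c ∈ (algebraMap A₀ F⟮y⟯).range := by
    intro c hc
    have hcL : IsIntegral A₀ (c : L) := by
      obtain ⟨p, hp, hpc⟩ := hc
      refine ⟨p, hp, ?_⟩
      have h1 := congrArg (fun z : F⟮y⟯ => (z : L)) hpc
      have h2 : ((Polynomial.eval₂ (algebraMap A₀ F⟮y⟯) c p : F⟮y⟯) : L) =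
          Polynomial.eval₂ (algebraMap A₀ L) (c : L) p := by
        have h3 := Polynomial.hom_eval₂ p (algebraMap A₀ F⟮y⟯) (algebraMap F⟮y⟯ L) c
        have h4 : (algebraMap F⟮y⟯ L).comp (algebraMap A₀ F⟮y⟯) = algebraMap A₀ L :=
          RingHom.ext htower
        rw [h4] at h3
        exact h3
      rw [← h2]
      simpa using h1
    obtain ⟨a, ha⟩ := hconst (c : L) hcL
    refine ⟨a, Subtype.ext ?_⟩
    rw [htower, ha]
  have hfix := h A₀ F F⟮y⟯ ϖ t m ζ u (AdjoinSimple.gen F y) hϖ ht hfin hconst' hmu hζ hu hgen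
    hgood hpos hinf
  obtain ⟨g, hg⟩ := hgal hfix
  refine ⟨g, (algebraMap F L).injective ?_⟩
  rw [map_pow, hg, hy]

/-- `Stmt_COV'` has weaker hypotheses than `Stmt_COV`. -/
theorem cov_of_cov' (h : Fermat.Agent.S36.Stmt_COV') : Fermat.Agent.S36.Stmt_COV := by
  intro A₀ F L _ _ _ _ _ _ _ _ _ _ _ ϖ t m ζ u y hϖ ht hfin hconst hmu hζ hu hy hgood hgood'
  exact h A₀ F L ϖ t m ζ u y hϖ ht hfin hconst hmu hζ hu hy hgood hgood'.1
    (fun 𝔫 h𝔫 hϖ𝔫 _ => hgood'.2 𝔫 h𝔫 hϖ𝔫)

end Fermat.Agent.S36.Cov
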