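import Fermat.Agent.S36.CovInterface
import Fermat.Agent.KL.PolyRing

/-!
# S36 / ABS-COV, COV-LINK : the chart of `F'` is the integral closure of the chart of `F`

Everything is proved for abstract subalgebras `S ≤ F`, `S' ≤ F'`; the concrete charts are obtained
by instantiation at the very end.
-/

set_option autoImplicit false
set_option linter.style.haveILetI false
set_option linter.unusedSectionVars false

namespace Fermat.Agent.S36.Cov

open Fermat.Agent.KL Fermat.Agent.S36 IntermediateField

namespace Link

section Generic

variable {A₀ F F' : Type} [CommRing A₀] [Field F] [Field F'] [Algebra A₀ F] [Algebra A₀ F']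
  [Algebra F F'] [IsScalarTower A₀ F F'] (S : Subalgebra A₀ F) (S' : Subalgebra A₀ F')
  (hS : S.map (IsScalarTower.toAlgHom A₀ F F') = S')

include hS

theorem map_mem (y : S) : algebraMap F F' (y : F) ∈ S' := by
  rw [← hS]
  exact ⟨(y : F), y.2, rfl⟩

/-- the ring homomorphism `S → S'`. -/
def incS : S →+* S' :=
  ((algebraMap F F').comp S.val.toRingHom).codRestrict S' (fun y => map_mem S S' hS y)

/-- the algebra structure `S → S'`. -/
@[reducible] def algS : Algebra S S' := (incS S S' hS).toAlgebra

theorem coe_algS (y : S) :
    (((algS S S' hS).algebraMap y : S') : F') = algebraMap F F' (y : F) := rfl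

theorem tower_S : @IsScalarTower S S' F' (algS S S' hS).toSMul _ _ :=
  letI := algS S S' hS
  IsScalarTower.of_algebraMap_eq' rfl

theorem bijective_algS : Function.Bijective (@algebraMap S S' _ _ (algS S S' hS)) := by
  constructor
  · intro a b hab
    apply Subtype.ext
    have h1 : algebraMap F F' (a : F) = algebraMap F F' (b : F) := congrArg Subtype.val hab
    exact (algebraMap F F').injective h1
  · intro y
    have hy : (y : F') ∈ S.map (IsScalarTower.toAlgHom A₀ F F') := by
      rw [hS]; exact y.2
    obtain ⟨z, hz, hzy⟩ := hy
    exact ⟨⟨z, hz⟩, Subtype.ext hzy⟩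

theorem algS_cst (a : A₀) :
    @algebraMap S S' _ _ (algS S S' hS) (algebraMap A₀ S a) = algebraMap A₀ S' a :=
  Subtype.ext (IsScalarTower.algebraMap_apply A₀ F F' a).symm

theorem isIntegral_map (y : integralClosure S F) : IsIntegral S' (algebraMap F F' (y : F)) := by
  letI := algS S S' hS
  haveI := tower_S S S' hS
  have h1 : IsIntegral S (algebraMap F F' (y : F)) :=
    IsIntegral.map (IsScalarTower.toAlgHom S F F') y.2
  exact h1.tower_top

/-- the ring homomorphism between the integral closures. -/
def incC : integralClosure S F →+* integralClosure S' F' :=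
  ((algebraMap F F').comp (integralClosure S F).val.toRingHom).codRestrict
    (integralClosure S' F') (fun y => isIntegral_map S S' hS y)

/-- the algebra structure between the integral closures. -/
@[reducible] def algC : Algebra (integralClosure S F) (integralClosure S' F') :=
  (incC S S' hS).toAlgebra

theorem coe_algC (y : integralClosure S F) :
    (((algC S S' hS).algebraMap y : integralClosure S' F') : F') = algebraMap F F' (y : F) := rfl

theorem tower_C :
    @IsScalarTower (integralClosure S F) (integralClosure S' F') F' (algC S S' hS).toSMul _ _ :=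
  letI := algC S S' hS
  IsScalarTower.of_algebraMap_eq' rfl

theorem algC_of_eq (s : S) (s' : S') (h : algebraMap F F' (s : F) = (s' : F')) :
    @algebraMap (integralClosure S F) (integralClosure S' F') _ _ (algC S S' hS)
      (algebraMap S (integralClosure S F) s) = algebraMap S' (integralClosure S' F') s' :=
  Subtype.ext h

theorem algC_cst (a : A₀) :
    @algebraMap (integralClosure S F) (integralClosure S' F') _ _ (algC S S' hS)
      (algebraMap S (integralClosure S F) (algebraMap A₀ S a)) =
      algebraMap S' (integralClosure S' F') (algebraMap A₀ S' a) :=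
  algC_of_eq S S' hS _ _ (IsScalarTower.algebraMap_apply A₀ F F' a).symm

omit hS in
theorem tower_SCF' : IsScalarTower S (integralClosure S F) F' :=
  IsScalarTower.of_algebraMap_eq' rfl

theorem isIntegralClosure_C :
    @IsIntegralClosure (integralClosure S' F') (integralClosure S F) F' _ _ _ _ _ := by
  letI := algS S S' hS
  haveI := tower_S S S' hS
  haveI := tower_SCF' (F' := F') S
  haveI : Algebra.IsIntegral S S' := Algebra.isIntegral_of_surjective (bijective_algS S S' hS).2
  refine ⟨Subtype.val_injective, ?_⟩
  intro z
  constructor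
  · intro hz
    have h1 : IsIntegral S z := isIntegral_trans z hz
    exact ⟨⟨z, h1.tower_top⟩, rfl⟩
  · rintro ⟨y, rfl⟩
    have h1 : IsIntegral S' ((y : F')) := y.2
    have h2 : IsIntegral S ((y : F')) := isIntegral_trans _ h1
    exact h2.tower_top

/-- the algebra structure `S → integralClosure S' F'`. -/
@[reducible] def algSC : Algebra S (integralClosure S' F') :=
  ((algebraMap S' (integralClosure S' F')).comp (incS S S' hS)).toAlgebra

theorem tower_SS'C : @IsScalarTower S S' (integralClosure S' F') (algS S S' hS).toSMul _
    (algSC S S' hS).toSMul :=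
  letI := algS S S' hS
  letI := algSC S S' hS
  IsScalarTower.of_algebraMap_eq' rfl

theorem tower_SCC : @IsScalarTower S (integralClosure S F) (integralClosure S' F') _
    (algC S S' hS).toSMul (algSC S S' hS).toSMul :=
  letI := algC S S' hS
  letI := algSC S S' hS
  IsScalarTower.of_algebraMap_eq' rfl

omit hS in
theorem faithful_SC : FaithfulSMul S (integralClosure S F) :=
  (faithfulSMul_iff_algebraMap_injective _ _).2 (fun a b hab => by
    apply Subtype.ext
    exact congrArg (fun z : integralClosure S F => (z : F)) hab)

omit hS in
theorem faithful_SF (T : Subalgebra A₀ F') : FaithfulSMul T F' :=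
  (faithfulSMul_iff_algebraMap_injective _ _).2 Subtype.val_injective

/-- the contraction clause. -/
theorem contr (hC : Stmt_CovContr) [UniqueFactorizationMonoid S] [IsIntegrallyClosed S'] (π : S)
    (hπ : Prime π) (π' : S') (hππ' : algebraMap F F' (π : F) = (π' : F')) :
    ∀ P ∈ (Ideal.span {algebraMap S' (integralClosure S' F') π'}).minimalPrimes,
      @Ideal.under (integralClosure S F) _ (integralClosure S' F') _ (algC S S' hS) P ∈
        (Ideal.span {algebraMap S (integralClosure S F) π}).minimalPrimes := by
  letI := algS S S' hS
  letI := algC S S' hS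
  letI := algSC S S' hS
  haveI := tower_SS'C S S' hS
  haveI := tower_SCC S S' hS
  haveI := faithful_SC S
  haveI := faithful_SF S'
  have h1 : algebraMap S S' π = π' := Subtype.ext hππ'
  have h2 := hC S S' (integralClosure S F) F' π hπ (bijective_algS S S' hS)
  rw [h1] at h2
  exact h2

/-- the generic form of COV-LINK. -/
theorem generic (hC : Stmt_CovContr) [UniqueFactorizationMonoid S] [IsIntegrallyClosed S']
    (ϖ : A₀) (hπ : Prime (algebraMap A₀ S ϖ)) (s : S) (s' : S')
    (hs : algebraMap F F' (s : F) = (s' : F')) :
    ∃ (_ : Algebra (integralClosure S F) (integralClosure S' F')),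
      IsScalarTower (integralClosure S F) (integralClosure S' F') F' ∧
      IsIntegralClosure (integralClosure S' F') (integralClosure S F) F' ∧
      (∀ a : A₀, algebraMap (integralClosure S F) (integralClosure S' F')
        (algebraMap S (integralClosure S F) (algebraMap A₀ S a)) =
          algebraMap S' (integralClosure S' F') (algebraMap A₀ S' a)) ∧
      algebraMap (integralClosure S F) (integralClosure S' F')
        (algebraMap S (integralClosure S F) s) = algebraMap S' (integralClosure S' F') s' ∧
      (∀ P ∈ (Ideal.span {algebraMap S' (integralClosure S' F')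
          (algebraMap A₀ S' ϖ)}).minimalPrimes,
        P.under (integralClosure S F) ∈
          (Ideal.span {algebraMap S (integralClosure S F) (algebraMap A₀ S ϖ)}).minimalPrimes) :=
  ⟨algC S S' hS, tower_C S S' hS, isIntegralClosure_C S S' hS, algC_cst S S' hS,
    algC_of_eq S S' hS s s' hs,
    contr S S' hS hC _ hπ _ (IsScalarTower.algebraMap_apply A₀ F F' ϖ).symm⟩

end Generic

end Link

/-- **COV-LINK**. -/
theorem stmt_CovLink (hC : Stmt_CovContr) : Stmt_CovLink := by
  intro A₀ F F' _ _ _ _ _ _ _ _ _ _ _ _ ϖ x x' hx hϖ htr _
  subst hx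
  have hinj : Function.Injective (algebraMap F F') := (algebraMap F F').injective
  have hfa : FaithfulSMul A₀ F' := by
    rw [faithfulSMul_iff_algebraMap_injective, IsScalarTower.algebraMap_eq A₀ F F']
    exact hinj.comp (FaithfulSMul.algebraMap_injective A₀ F)
  have htr' : Transcendental A₀ (algebraMap F F' x) := (transcendental_algebraMap_iff hinj).2 htr
  have hv := (stmt_polyRConcrete A₀ F x htr).1
  have hv' := (stmt_polyRConcrete A₀ F' (algebraMap F F' x) htr').1
  obtain ⟨-, -, hufd, -, -, hprime⟩ := stmt_polyRing A₀ (PolyR A₀ x) (polyX A₀ x) hv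
  obtain ⟨-, -, -, hic, -, -⟩ :=
    stmt_polyRing A₀ (PolyR A₀ (algebraMap F F' x)) (polyX A₀ (algebraMap F F' x)) hv'
  have hufd' : UniqueFactorizationMonoid (PolyR A₀ x) := hufd
  have hS : (PolyR A₀ x).map (IsScalarTower.toAlgHom A₀ F F') = PolyR A₀ (algebraMap F F' x) := by
    rw [AlgHom.map_adjoin, Set.image_singleton]
    rfl
  exact Link.generic (PolyR A₀ x) (PolyR A₀ (algebraMap F F' x)) hS hC ϖ (hprime ϖ hϖ)
    (polyX A₀ x) (polyX A₀ (algebraMap F F' x)) rfl

end Fermat.Agent.S36.Cov
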