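import Fermat.Agent.S36.CovField
import Fermat.Agent.S36.CovGal
import Fermat.Agent.S36.CovLink
import Fermat.Agent.S36.CovContr
import Fermat.Agent.S36.CovFin

/-!
# S36 / ABS-COV : the covering theorem, unconditional
-/

set_option autoImplicit false

namespace Fermat.Agent.S36

open Cov

theorem stmt_CovField' : Stmt_CovField :=
  stmt_CovField (stmt_CovLink stmt_CovContr) stmt_CovFin stmt_CovNonempty

/-- **COV'** -/
theorem stmt_COV' : Stmt_COV' := cov'_of_field stmt_CovField'

/-- **COV** -/
theorem stmt_COV : Stmt_COV := cov_of_cov' stmt_COV'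

end Fermat.Agent.S36
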