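import Fermat.Agent.S36.GeoInterface
import Fermat.Agent.S36.H90

/-!
# S36 : GEO-FINAL (helper38).  `Stmt_ZAbs` + `Stmt_Inst` + base facts ⟹ `Dict.Stmt_ZF`.
-/

set_option autoImplicit false

namespace Fermat.Agent.S36

open Fermat.Agent.KL Fermat.Agent.S36.Base Fermat.Agent.S36.Dict
open Fermat.Agent.S24 (Qbar FF)
open Fermat.Agent.ES.Mid (GQ gal IsDiv)
open Fermat.Agent.INJ.Inst (frickeEquiv)

/-- a nonzero constant of `E` is a power of `r` times an `m`-th power. -/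
theorem GeoFinal_const (hRoot : Stmt_BaseRoot) (r : ℕ) (A : ValuationSubring Qbar) (hr : r.Prime)
    (hA : A.LiesOverPrime r) [IsDiscreteValuationRing (AE A)]
    (hirr : Irreducible ((r : ℕ) : AE A)) (m : ℕ) (hm : 0 < m) (hrm : ¬ r ∣ m) (c : IE A)
    (hc : c ≠ 0) :
    ∃ (j : ℤ) (d : IE A), c = algebraMap (AE A) (IE A) ((r : ℕ) : AE A) ^ j * d ^ m := by
  obtain ⟨a, b, hb, rfl⟩ := IsFractionRing.div_surjective (A := AE A) c
  have hb0 : b ≠ 0 := nonZeroDivisors.ne_zero hb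
  have ha0 : a ≠ 0 := by
    rintro rfl
    simp at hc
  obtain ⟨n₁, u₁, h₁⟩ := IsDiscreteValuationRing.eq_unit_mul_pow_irreducible ha0 hirr
  obtain ⟨n₂, u₂, h₂⟩ := IsDiscreteValuationRing.eq_unit_mul_pow_irreducible hb0 hirr
  obtain ⟨d₁, hd₁⟩ := hRoot r A hr hA m hm hrm u₁ u₁.isUnit
  obtain ⟨d₂, hd₂⟩ := hRoot r A hr hA m hm hrm u₂ u₂.isUnit
  have hϖ0 : algebraMap (AE A) (IE A) ((r : ℕ) : AE A) ≠ 0 :=
    (map_ne_zero_iff _ (AE.algebraMap_injective A)).2 hirr.ne_zero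
  have hd₂0 : algebraMap (AE A) (IE A) d₂ ≠ 0 := by
    rw [map_ne_zero_iff _ (AE.algebraMap_injective A)]
    rintro rfl
    rw [zero_pow hm.ne'] at hd₂
    exact u₂.ne_zero hd₂.symm
  refine ⟨(n₁ : ℤ) - n₂, algebraMap (AE A) (IE A) d₁ / algebraMap (AE A) (IE A) d₂, ?_⟩
  rw [h₁, h₂, ← hd₁, ← hd₂, zpow_sub₀ hϖ0, zpow_natCast, zpow_natCast]
  simp only [map_mul, map_pow, div_pow]
  field_simp

theorem GeoFinal_FU_pow (hFU : Stmt_FU_mul) (r : ℕ) [NeZero r] (ζ : Qbarˣ)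
    (hζ : IsPrimitiveRoot ζ r) (x : LaurentSeries Qbar) (n : ℕ) :
    formalU r ζ (x ^ n) = formalU r ζ x ^ n := by
  induction n with
  | zero => rw [pow_zero, pow_zero]; exact (hFU Qbar r ζ hζ).1
  | succ n ih => rw [pow_succ, pow_succ, (hFU Qbar r ζ hζ).2, ih]

/-- an element of `F_E` which becomes an `m`-th power over `ℚ̄` is `r ^ j * g ^ m`. -/
theorem GeoFinal_step (hRoot : Stmt_BaseRoot) (hKD : Stmt_KumDesc) (r : ℕ)
    (A : ValuationSubring Qbar) (hr : r.Prime) (hA : A.LiesOverPrime r)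
    [IsDiscreteValuationRing (AE A)] (hirr : Irreducible ((r : ℕ) : AE A)) (m : ℕ) (hm : 0 < m)
    (hrm : ¬ r ∣ m) (N' : ℕ) [NeZero N'] (X : FE A N') (hX : X ≠ 0) (G : FF N')
    (hG : (G : LaurentSeries Qbar) ^ m = cmE A (X : Base.LE A)) :
    ∃ (j : ℤ) (g : FE A N'), X = algebraMap (AE A) (FE A N') ((r : ℕ) : AE A) ^ j * g ^ m := by
  obtain ⟨c, y, hc, hXc⟩ := hKD N' A m hm X G hX (Subtype.ext hG)
  obtain ⟨j, d, hcd⟩ := GeoFinal_const hRoot r A hr hA hirr m hm hrm c hc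
  refine ⟨j, algebraMap (IE A) (FE A N') d * y, ?_⟩
  rw [hXc, hcd, map_mul, map_zpow₀, map_pow, mul_pow, mul_assoc]
  rfl

/-- **GEO-FINAL.** -/
theorem geoFinal : Stmt_GeoFinal := by
  intro hZ hInst hDVR hDesc hRoot hKD hFU hUL _ _ N r _ _ hr hfac haux
  have hN0 : N ≠ 0 := NeZero.ne N
  have hr2 : r ^ 2 ∣ N := (hr.pow_dvd_iff_le_factorization hN0).2 hfac.ge
  have hrN : r ∣ N := dvd_trans (dvd_pow_self r two_ne_zero) hr2
  have : NeZero (N / r) := ⟨(Nat.div_pos (Nat.le_of_dvd (Nat.pos_of_ne_zero hN0) hrN) hr.pos).ne'⟩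
  refine ⟨(r ^ 2 - 1) ^ 2, ?_, ?_⟩
  · have h2 := hr.two_le
    have : 2 ^ 2 ≤ r ^ 2 := Nat.pow_le_pow_left h2 2
    exact pow_ne_zero _ (by omega)
  intro A hA ζ hζ m hm hrm u hu hI ⟨g₂, hg₂⟩ ⟨g₁, hg₁⟩
  -- Hilbert 90 and descent
  obtain ⟨u', w, hw0, hu'w, hu'div, hu'fix, -⟩ :=
    H90.h90_isDiv N m hm.ne' (A.inertiaSubgroupIn ℚ) u hu hI
  obtain ⟨x, hx⟩ := hDesc N A u' hu'fix
  have hx0 : x ≠ 0 := by
    rintro rfl
    rw [map_zero] at hx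
    exact hu'div.1 hx.symm
  obtain ⟨hdvr, hirr⟩ := hDVR r A hr hA
  obtain ⟨Z, hZm, hZr, hZϖ, hl₂, ⟨w₁, hw₁c, hl₁⟩, hlD⟩ := hInst N r hr hfac haux A hA m hm hrm
  have hcx : cmE A (x : Base.LE A) = (u : LaurentSeries Qbar) * (w : LaurentSeries Qbar) ^ m := by
    rw [← coe_emb, hx, hu'w]
    rfl
  -- the second norm
  have h₂ : ∃ (j : ℤ) (g : FE A (N / r)),
      Z.D₂.N x = algebraMap (AE A) (FE A (N / r)) ((r : ℕ) : AE A) ^ j * g ^ m := by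
    refine GeoFinal_step hRoot hKD r A hr hA hirr m hm hrm (N / r) (Z.D₂.N x)
      ((map_ne_zero Z.D₂.N).2 hx0)
      (g₂ * ⟨formalU r ζ (w : LaurentSeries Qbar), hUL N r hr hr2 ζ hζ w⟩) ?_
    rw [hl₂ ζ hζ x, hcx, (hFU Qbar r ζ hζ).2, GeoFinal_FU_pow hFU r ζ hζ, ← hg₂, ← mul_pow]
    rfl
  -- the first norm
  have h₁' : ∃ (j : ℤ) (g : FE A (N / r)),
      w₁ (Z.D₁.N x) = algebraMap (AE A) (FE A (N / r)) ((r : ℕ) : AE A) ^ j * g ^ m := by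
    refine GeoFinal_step hRoot hKD r A hr hA hirr m hm hrm (N / r) (w₁ (Z.D₁.N x))
      ((map_ne_zero w₁).2 ((map_ne_zero Z.D₁.N).2 hx0))
      (g₁ * ⟨formalU r ζ ((frickeEquiv N w : FF N) : LaurentSeries Qbar),
        hUL N r hr hr2 ζ hζ (frickeEquiv N w)⟩) ?_
    have e : ((frickeEquiv N (emb A N x) : FF N) : LaurentSeries Qbar)
        = ((frickeEquiv N u : FF N) : LaurentSeries Qbar)
          * ((frickeEquiv N w : FF N) : LaurentSeries Qbar) ^ m := by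
      rw [hx, hu'w, map_mul, map_pow]
      rfl
    rw [hl₁ ζ hζ x, e, (hFU Qbar r ζ hζ).2, GeoFinal_FU_pow hFU r ζ hζ, ← hg₁, ← mul_pow]
    rfl
  have h₁ : ∃ (j : ℤ) (g : FE A (N / r)),
      Z.D₁.N x = algebraMap (AE A) (FE A (N / r)) ((r : ℕ) : AE A) ^ j * g ^ m := by
    obtain ⟨j, g, hjg⟩ := h₁'
    refine ⟨j, w₁.symm g, ?_⟩
    apply w₁.injective
    rw [hjg, map_mul, map_zpow₀, map_pow, w₁.apply_symm_apply]
    congr 2
    exact (hw₁c _).symm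
  -- the divisor
  obtain ⟨hD1, hD2⟩ := hlD x (by rw [hx]; exact hu'div)
  -- the abstract theorem
  obtain ⟨j, g, hjg⟩ := hZ (AE A) (FE A N) (FE A (N / r)) (Base.LE A) Z x hx0
    (by rw [hZm]; exact hD1) (by rw [hZm]; exact hD2)
    (by rw [hZm, hZϖ]; exact h₁) (by rw [hZm, hZϖ]; exact h₂)
  rw [hZm, hZr] at hjg
  -- back to `ℚ̄`
  have h3 := congrArg (emb A N) hjg
  rw [map_pow, map_mul, map_zpow₀, map_pow, hx] at h3
  have h4 : emb A N (algebraMap (AE A) (FE A N) Z.ϖ)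
      = algebraMap Qbar (FF N) (algebraMap (IE A) Qbar (algebraMap (AE A) (IE A) Z.ϖ)) :=
    emb_algebraMap A N _
  obtain ⟨s, hs⟩ := IsAlgClosed.exists_pow_nat_eq
    ((algebraMap (IE A) Qbar (algebraMap (AE A) (IE A) Z.ϖ)) ^ j) hm
  rw [h4, ← map_zpow₀, ← hs, map_pow, ← mul_pow, hu'w, mul_pow] at h3
  refine ⟨algebraMap Qbar (FF N) s * emb A N g / w ^ ((r ^ 2 - 1) ^ 2), ?_⟩
  rw [div_pow, ← h3, ← pow_mul, ← pow_mul, mul_comm m]
  exact mul_div_cancel_right₀ _ (pow_ne_zero _ hw0)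

end Fermat.Agent.S36
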