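import Fermat.Agent.S36.GeoInterface
import Fermat.Agent.S36.H90

/-!
# S36 / GEO-KD : Kummer descent of `m`-th powers from `FF N` to `F_E` (`Stmt_KumDesc`)
-/

set_option autoImplicit false

namespace Fermat.Agent.S36

open Fermat.Agent.KL Fermat.Agent.S36.Base Fermat.Agent.S36.Dict Fermat.Agent.S36.H90
open Fermat.Agent.S24 (Qbar FF)
open Fermat.Agent.ES.Mid (GQ gal coe_gal IsDiv)

theorem kumDesc (h0 : Stmt_BaseDescent) : Stmt_KumDesc := by
  intro N _ A m hm x g hx hg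
  have hm0 : m ≠ 0 := hm.ne'
  have hX0 : emb A N x ≠ 0 := (map_ne_zero (emb A N)).2 hx
  have hg0 : g ≠ 0 := by
    rintro rfl
    rw [zero_pow hm0] at hg
    exact hX0 hg.symm
  have hgL : (g : LaurentSeries Qbar) ≠ 0 := fun h => hg0 (Subtype.ext h)
  obtain ⟨d, hd⟩ : ∃ d, d = (g : LaurentSeries Qbar).leadingCoeff := ⟨_, rfl⟩
  have hd0 : d ≠ 0 := by rw [hd]; exact HahnSeries.leadingCoeff_ne_zero.2 hgL
  have hdm : d ^ m = ((emb A N x : FF N) : LaurentSeries Qbar).leadingCoeff := by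
    rw [hd, ← leadingCoeff_pow', ← hg]
    rfl
  have hfix : ∀ σ ∈ A.inertiaSubgroupIn ℚ, σ (d ^ m) = d ^ m := by
    intro σ hσ
    rw [hdm, ← leadingCoeff_coeffMap, ← coe_gal, gal_emb A N x hσ]
  let c : IE A := IE.mk A (d ^ m) hfix
  have hc : algebraMap (IE A) Qbar c = d ^ m := rfl
  have hc0 : c ≠ 0 := by
    intro h
    rw [h, map_zero] at hc
    exact pow_ne_zero m hd0 hc.symm
  let g0 : FF N := algebraMap Qbar (FF N) d⁻¹ * g
  have hg00 : g0 ≠ 0 := mul_ne_zero ((map_ne_zero _).2 (inv_ne_zero hd0)) hg0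
  have hlead : (g0 : LaurentSeries Qbar).leadingCoeff = 1 := by
    show ((algebraMap Qbar (FF N) d⁻¹ : FF N) * (g : LaurentSeries Qbar)).leadingCoeff = 1
    rw [coe_const, HahnSeries.leadingCoeff_mul, leadingCoeff_const, ← hd, inv_mul_cancel₀ hd0]
  let w : FE A N := algebraMap (IE A) (FE A N) c⁻¹ * x
  have hw : emb A N w = g0 ^ m := by
    rw [map_mul, emb_algebraMap, map_inv₀, hc, mul_pow, hg, ← map_pow, inv_pow]
  have hw0 : emb A N w ≠ 0 := by rw [hw]; exact pow_ne_zero m hg00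
  have hinv : ∀ σ ∈ A.inertiaSubgroupIn ℚ, gal N σ g0 = g0 := by
    intro σ hσ
    have h1 := oneU_gal_div N σ g0 hlead
    have h2 : (gal N σ g0 * g0⁻¹) ^ m = 1 := by
      rw [mul_pow, inv_pow, ← map_pow, ← hw, gal_emb A N w hσ, mul_inv_cancel₀ hw0]
    have h3 : ((gal N σ g0 * g0⁻¹ : FF N) : LaurentSeries Qbar) ^ m = 1 :=
      congrArg Subtype.val h2
    have h4 : gal N σ g0 * g0⁻¹ = 1 := Subtype.ext (h1.eq_one_of_pow hm0 h3)
    rw [mul_inv_eq_one₀ hg00] at h4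
    exact h4
  obtain ⟨y, hy⟩ := h0 N A g0 hinv
  refine ⟨c, y, hc0, ?_⟩
  have h5 : w = y ^ m := by
    apply emb_injective A N
    rw [hw, map_pow, hy]
  rw [← h5]
  show x = algebraMap (IE A) (FE A N) c * (algebraMap (IE A) (FE A N) c⁻¹ * x)
  rw [← mul_assoc, ← map_mul, mul_inv_cancel₀ hc0, map_one, one_mul]

end Fermat.Agent.S36
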