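import Fermat.Agent.S36.ZAbs
import Fermat.Agent.S36.AtAPI

/-!
# S36 : Z-DEG, the local computation at a triple point (helper9)
-/

set_option autoImplicit false

namespace Fermat.Agent.S36

theorem stmt_DEG : Stmt_DEG := by
  intro A₀ F F₁ B _ _ _ _ _ _ _ _ _ _ o₁ o₂ o₃ r m D ν P₁ P₂ P₃ hν hP1 hP2 hP3 h1 h2 h3 c1 c2 c3 hL
    hm hr u w a₁ a₂ a₃ g za zb hu hw hNu hU ha1 ha2 ha3 hw1 hw2 hw3 hza hzb hg1 hg3
  have : ν.IsPrime := hν.isPrime
  -- `w` is a unit at the three components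
  have hwU1 : UnitAt P₁ w := (ha1.mono h1).of_sub_posAt hw1
  have hwU2 : UnitAt P₂ w := (ha2.mono h2).of_sub_posAt hw2
  have hwU3 : UnitAt P₃ w := (ha3.mono h3).of_sub_posAt hw3
  -- `η`
  have hNw : D.N w ≠ 0 := (map_ne_zero D.N).2 hw
  set η : F₁ := g / D.N w with hη
  have hηg : D.π η * D.π (D.N w) = D.π g := by
    rw [← map_mul, hη, div_mul_cancel₀ _ hNw]
  have hηm : D.π η ^ m = D.π (D.N (u / w ^ m)) := by
    rw [← map_pow, hη, div_pow, ← hNu, map_div₀ D.N, map_pow D.N]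
  have hηU : UnitAt ν (D.π η) := UnitAt.of_pow' hm (by rw [hηm]; exact hL.1 _ hU)
  have hηI := hηU.intAt
  -- the lift of `a₂`
  obtain ⟨a2', ha2'I, ha2'pos⟩ := hL.2 a₂ ha2.intAt
  have ha2'P : PosAt P₂ (a₂ - D.π a2') := (c2 _).1.2 ha2'pos
  have hwa2' : PosAt P₂ (w - D.π a2') := by
    have e : w - D.π a2' = (w - a₂) + (a₂ - D.π a2') := by ring
    rw [e]
    exact hw2.add ha2'P
  have hna : PosAt P₁ (D.π (D.N w) - w * D.π a2' ^ (r - 1)) :=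
    (c1 _).1.2 (D.na w a2' ((c1 _).2.1 hwU1) ((c2 _).2.1 hwU2) ((c2 _).1.1 hwa2'))
  have hx1P : PosAt P₁ (D.π za - D.π η * a₁ * D.π a2' ^ (r - 1)) := by
    have e : D.π za - D.π η * a₁ * D.π a2' ^ (r - 1)
        = D.π η * (D.π (D.N w) - w * D.π a2' ^ (r - 1)) - (D.π g - D.π za)
          + D.π η * ((w - a₁) * D.π a2' ^ (r - 1)) := by
      rw [mul_sub, hηg]
      ring
    rw [e]
    exact (((hηI.mono h1).mul_posAt hna).sub hg1).add
      ((hηI.mono h1).mul_posAt (hw1.mul_intAt ((ha2'I.mono h1).pow _)))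
  have hx1 : PosAt ν (D.π za - D.π η * a₁ * D.π a2' ^ (r - 1)) :=
    (hza.sub ((hηI.mul ha1.intAt).mul (ha2'I.pow _))).posAt_of_posAt h1 hx1P
  have ha2'ν : PosAt ν (D.π a2' - a₂) := by
    refine (ha2'I.sub ha2.intAt).posAt_of_posAt h2 ?_
    have := ha2'P.neg
    rwa [neg_sub] at this
  have hA : PosAt ν (D.π za - D.π η * a₁ * a₂ ^ (r - 1)) := by
    have e : D.π za - D.π η * a₁ * a₂ ^ (r - 1)
        = (D.π za - D.π η * a₁ * D.π a2' ^ (r - 1))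
          + D.π η * a₁ * (D.π a2' ^ (r - 1) - a₂ ^ (r - 1)) := by ring
    rw [e]
    exact hx1.add ((hηI.mul ha1.intAt).mul_posAt
      (PosAt.pow_sub_pow ha2'I ha2.intAt ha2'ν _))
  -- the third component
  have hnb : PosAt P₃ (D.π (D.N w) - w ^ r) := (c3 _).1.2 (D.nb w ((c3 _).2.1 hwU3))
  have hx3P : PosAt P₃ (D.π zb - D.π η * a₃ ^ r) := by
    have e : D.π zb - D.π η * a₃ ^ r
        = D.π η * (D.π (D.N w) - w ^ r) - (D.π g - D.π zb) + D.π η * (w ^ r - a₃ ^ r) := by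
      rw [mul_sub, hηg]
      ring
    rw [e]
    exact (((hηI.mono h3).mul_posAt hnb).sub hg3).add
      ((hηI.mono h3).mul_posAt (PosAt.pow_sub_pow hwU3.intAt (ha3.intAt.mono h3) hw3 _))
  have hB : PosAt ν (D.π zb - D.π η * a₃ ^ r) :=
    (hzb.sub (hηI.mul (ha3.intAt.pow _))).posAt_of_posAt h3 hx3P
  have e : D.π za * a₃ ^ r - D.π zb * (a₁ * a₂ ^ (r - 1))
      = (D.π za - D.π η * a₁ * a₂ ^ (r - 1)) * a₃ ^ r
        - (D.π zb - D.π η * a₃ ^ r) * (a₁ * a₂ ^ (r - 1)) := by ring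
  rw [e]
  exact (hA.mul_intAt (ha3.intAt.pow _)).sub (hB.mul_intAt (ha1.intAt.mul (ha2.intAt.pow _)))

end Fermat.Agent.S36
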