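import Fermat.Agent.S36.ZInterface

/-!
# S36 : step Z1 (VERT) of the proof of `Stmt_ZAbs`

After raising to the power `r + 1` and multiplying by `ϖ ^ i * h ^ m` the three vertical valuations
vanish and both norms are `m`-th powers.
-/

set_option autoImplicit false

namespace Fermat.Agent.S36

namespace Z1

section ordApi

variable {F : Type} [Field F] (o : F → ℤ)
  (hmul : ∀ x y : F, x ≠ 0 → y ≠ 0 → o (x * y) = o x + o y)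

include hmul

theorem o_one : o 1 = 0 := by
  have h := hmul 1 1 one_ne_zero one_ne_zero
  rw [one_mul] at h
  linarith

theorem o_inv {x : F} (hx : x ≠ 0) : o x⁻¹ = - o x := by
  have h := hmul x x⁻¹ hx (inv_ne_zero hx)
  rw [mul_inv_cancel₀ hx, o_one o hmul] at h
  linarith

theorem o_pow {x : F} (hx : x ≠ 0) (n : ℕ) : o (x ^ n) = n * o x := by
  induction n with
  | zero => simp [o_one o hmul]
  | succ k ih =>
    rw [pow_succ, hmul _ _ (pow_ne_zero _ hx) hx, ih]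
    push_cast
    ring

theorem o_zpow {x : F} (hx : x ≠ 0) (n : ℤ) : o (x ^ n) = n * o x := by
  obtain ⟨k, rfl | rfl⟩ := n.eq_nat_or_neg
  · rw [zpow_natCast, o_pow o hmul hx]
  · rw [zpow_neg, zpow_natCast, o_inv o hmul (pow_ne_zero _ hx), o_pow o hmul hx]
    ring

end ordApi

section degen

variable {A₀ F F₁ : Type} [CommRing A₀] [Field F] [Field F₁] [Algebra A₀ F] [Algebra A₀ F₁]
  {o₁ o₂ o₃ : F → ℤ} {r : ℕ} (D : Degen A₀ F F₁ o₁ o₂ o₃ r)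

include D in
theorem p1_ne {ϖ : A₀} (hp : algebraMap A₀ F ϖ ≠ 0) : algebraMap A₀ F₁ ϖ ≠ 0 := by
  intro h
  apply hp
  rw [← D.π_const, h, map_zero]

theorem g_ne {ϖ : A₀} {m : ℕ} (hm : 0 < m) {u : F} (hu : u ≠ 0) {j : ℤ} {g : F₁}
    (h : D.N u = algebraMap A₀ F₁ ϖ ^ j * g ^ m) : g ≠ 0 := by
  rintro rfl
  rw [zero_pow hm.ne', mul_zero] at h
  exact hu ((map_eq_zero D.N).1 h)

/-- `o (π (p1 ^ j * g ^ m)) = j + m * o (π g)` if `o p = 1`. -/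
theorem o_pi (o : F → ℤ) (hmul : ∀ x y : F, x ≠ 0 → y ≠ 0 → o (x * y) = o x + o y)
    {ϖ : A₀} (hp : algebraMap A₀ F ϖ ≠ 0) (ho : o (algebraMap A₀ F ϖ) = 1) (m : ℕ) (j : ℤ)
    {g : F₁} (hg : g ≠ 0) :
    o (D.π (algebraMap A₀ F₁ ϖ ^ j * g ^ m)) = j + m * o (D.π g) := by
  have hg' : D.π g ≠ 0 := (map_ne_zero D.π).2 hg
  rw [map_mul, map_zpow₀, map_pow, D.π_const, hmul _ _ (zpow_ne_zero _ hp) (pow_ne_zero _ hg'),
    o_zpow o hmul hp, o_pow o hmul hg', ho]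
  ring

/-- The two congruences coming from one degeneracy datum. -/
theorem cong (h₁ : ∀ x y : F, x ≠ 0 → y ≠ 0 → o₁ (x * y) = o₁ x + o₁ y)
    (h₃ : ∀ x y : F, x ≠ 0 → y ≠ 0 → o₃ (x * y) = o₃ x + o₃ y)
    {ϖ : A₀} (hp : algebraMap A₀ F ϖ ≠ 0) (ho₁ : o₁ (algebraMap A₀ F ϖ) = 1)
    (ho₃ : o₃ (algebraMap A₀ F ϖ) = 1) {m : ℕ} (hm : 0 < m) {u : F} (hu : u ≠ 0) {j : ℤ} {g : F₁}
    (h : D.N u = algebraMap A₀ F₁ ϖ ^ j * g ^ m) :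
    (m : ℤ) ∣ o₁ u + o₂ u - r * o₃ u := by
  have hg := g_ne D hm hu h
  have e₁ := D.v₁ u hu
  have e₃ := D.v₃ u hu
  rw [h, o_pi D o₁ h₁ hp ho₁ m j hg] at e₁
  rw [h, o_pi D o₃ h₃ hp ho₃ m j hg] at e₃
  exact ⟨o₁ (D.π g) - o₃ (D.π g), by linear_combination e₃ - e₁⟩

/-- If `o₁ z = o₂ z = 0` and `N z = p1 ^ j * g ^ m` then `N z` is an `m`-th power. -/
theorem norm_pow (h₁ : ∀ x y : F, x ≠ 0 → y ≠ 0 → o₁ (x * y) = o₁ x + o₁ y)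
    {ϖ : A₀} (hp : algebraMap A₀ F ϖ ≠ 0) (ho₁ : o₁ (algebraMap A₀ F ϖ) = 1)
    {m : ℕ} (hm : 0 < m) {z : F} (hz : z ≠ 0) (hz₁ : o₁ z = 0) (hz₂ : o₂ z = 0) {j : ℤ} {g : F₁}
    (h : D.N z = algebraMap A₀ F₁ ϖ ^ j * g ^ m) :
    ∃ g' : F₁, D.N z = g' ^ m := by
  have hg := g_ne D hm hz h
  have e₁ := D.v₁ z hz
  rw [h, o_pi D o₁ h₁ hp ho₁ m j hg, hz₁, hz₂] at e₁
  have hj : j = (- o₁ (D.π g)) * m := by linear_combination e₁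
  refine ⟨algebraMap A₀ F₁ ϖ ^ (- o₁ (D.π g)) * g, ?_⟩
  rw [h, mul_pow, hj, zpow_mul, zpow_natCast]

/-- The norm of `u ^ k * p ^ i * h ^ m` has again the shape `p1 ^ j * g ^ m`. -/
theorem norm_shape {ϖ : A₀} (hp : algebraMap A₀ F ϖ ≠ 0) {m : ℕ} {u : F} {j : ℤ} {g : F₁}
    (h : D.N u = algebraMap A₀ F₁ ϖ ^ j * g ^ m) (k : ℕ) (i : ℤ) (x : F) :
    D.N (u ^ k * algebraMap A₀ F ϖ ^ i * x ^ m) =
      algebraMap A₀ F₁ ϖ ^ (j * k + r * i) * (g ^ k * D.N x) ^ m := by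
  have hp1 := p1_ne D hp
  rw [map_mul, map_mul, map_pow, map_pow, map_zpow₀, D.N_const, h, zpow_add₀ hp1, zpow_mul,
    zpow_mul, zpow_natCast, zpow_natCast, mul_pow, mul_pow, ← pow_mul g, ← pow_mul g,
    mul_comm m k]
  ring

end degen

end Z1

open Z1 in
theorem stmt_Z1 : Stmt_Z1 := by
  intro A₀ F F₁ _ _ _ _ _ V u hu ⟨j₁, g₁, hN₁⟩ ⟨j₂, g₂, hN₂⟩
  have hp := V.hp
  obtain ⟨hp0, hp1, hp2⟩ := V.ord_ϖ
  obtain ⟨hM0, hM1, hM2⟩ := V.ord_pM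
  obtain ⟨hC0, hC1, hC2⟩ := V.ord_pC
  have c₁ := cong V.D₁ (V.ord_mul 0) (V.ord_mul 2) hp hp0 hp2 V.hm hu hN₁
  have c₂ := cong V.D₂ (V.ord_mul 2) (V.ord_mul 0) hp hp2 hp0 V.hm hu hN₂
  obtain ⟨k₁, hk₁⟩ := c₁
  obtain ⟨k₂, hk₂⟩ := c₂
  -- `m * β = (r + 1) * b'`, `m * γ = (r + 1) * c'`
  set β : ℤ := V.r * k₂ + k₁ with hβ
  set γ : ℤ := k₂ - k₁ with hγ
  set i : ℤ := - ((V.r : ℤ) + 1) * V.ord 0 u with hi
  set x : F := (V.pM ^ β * V.pC ^ γ)⁻¹ with hx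
  have hMβ : V.pM ^ β ≠ 0 := zpow_ne_zero _ V.pM_ne
  have hCγ : V.pC ^ γ ≠ 0 := zpow_ne_zero _ V.pC_ne
  have hx0 : x ≠ 0 := inv_ne_zero (mul_ne_zero hMβ hCγ)
  have hordx : ∀ X, V.ord X x = - (β * V.ord X V.pM + γ * V.ord X V.pC) := by
    intro X
    rw [hx, o_inv _ (V.ord_mul X) (mul_ne_zero hMβ hCγ), V.ord_mul X _ _ hMβ hCγ,
      o_zpow _ (V.ord_mul X) V.pM_ne, o_zpow _ (V.ord_mul X) V.pC_ne]
  have hz0 : u ^ (V.r + 1) * algebraMap A₀ F V.ϖ ^ i * x ^ V.m ≠ 0 :=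
    mul_ne_zero (mul_ne_zero (pow_ne_zero _ hu) (zpow_ne_zero _ hp)) (pow_ne_zero _ hx0)
  have hordz : ∀ X, V.ord X (u ^ (V.r + 1) * algebraMap A₀ F V.ϖ ^ i * x ^ V.m) =
      ((V.r : ℤ) + 1) * V.ord X u + i * V.ord X (algebraMap A₀ F V.ϖ) + V.m * V.ord X x := by
    intro X
    rw [V.ord_mul X _ _ (mul_ne_zero (pow_ne_zero _ hu) (zpow_ne_zero _ hp)) (pow_ne_zero _ hx0),
      V.ord_mul X _ _ (pow_ne_zero _ hu) (zpow_ne_zero _ hp), o_pow _ (V.ord_mul X) hu,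
      o_zpow _ (V.ord_mul X) hp, o_pow _ (V.ord_mul X) hx0]
    push_cast
    ring
  have hz : ∀ X, V.ord X (u ^ (V.r + 1) * algebraMap A₀ F V.ϖ ^ i * x ^ V.m) = 0 := by
    intro X
    rw [hordz X, hordx X]
    fin_cases X
    · simp only [Fin.zero_eta, hp0, hM0, hC0, hi]
      ring
    · simp only [Fin.mk_one, hp1, hM1, hC1, hi, hβ]
      linear_combination (V.r : ℤ) * hk₂ + hk₁
    · simp only [Fin.reduceFinMk, hp2, hM2, hC2, hi, hγ]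
      linear_combination hk₂ - hk₁
  refine ⟨i, x, hx0, hz, ?_, ?_⟩
  · exact norm_pow V.D₁ (V.ord_mul 0) hp hp0 V.hm hz0 (hz 0) (hz 1)
      (norm_shape V.D₁ hp hN₁ (V.r + 1) i x)
  · exact norm_pow V.D₂ (V.ord_mul 2) hp hp2 V.hm hz0 (hz 2) (hz 1)
      (norm_shape V.D₂ hp hN₂ (V.r + 1) i x)

end Fermat.Agent.S36
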