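import Fermat.Agent.S36.ZInterface
import Fermat.Agent.S36.AtAPI

/-!
# S36 : **Z2mid** `m`-th roots on the middle component (helper19)
-/

set_option autoImplicit false

namespace Fermat.Agent.S36

namespace Z2midAux

variable {A₀ F F₁ B : Type} [CommRing A₀] [Field F] [Field F₁] [Algebra A₀ F] [Algebra A₀ F₁]
  [CommRing B] [IsDomain B] [Algebra B F] [IsFractionRing B F]
  {o₁ o₂ o₃ : F → ℤ} {r : ℕ}

theorem ord_one {o : F → ℤ} (hmul : ∀ x y : F, x ≠ 0 → y ≠ 0 → o (x * y) = o x + o y) :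
    o 1 = 0 := by
  have := hmul 1 1 one_ne_zero one_ne_zero
  rw [mul_one] at this
  omega

/-- a unit at `P₂` coming from `F₁` is a unit at `P₁`. -/
theorem unit_same (D : Degen A₀ F F₁ o₁ o₂ o₃ r) {P₁ P₂ : Ideal B} [P₁.IsPrime] [P₂.IsPrime]
    (c1 : IsCen P₁ o₁) (c2 : IsCen P₂ o₂)
    (hmul : ∀ x y : F, x ≠ 0 → y ≠ 0 → o₁ (x * y) = o₁ x + o₁ y) {x : F₁}
    (h : UnitAt P₂ (D.π x)) : UnitAt P₁ (D.π x) := by
  have h0 : D.π x ≠ 0 := h.ne_zero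
  have hn1 : ¬ VPos o₁ (D.π x) := fun hp =>
    h.not_posAt ((c2 _).1.2 ((D.same x).1 hp))
  have hinv : UnitAt P₂ (D.π x⁻¹) := by rw [map_inv₀]; exact h.inv
  have hn2 : ¬ VPos o₁ (D.π x⁻¹) := fun hp =>
    hinv.not_posAt ((c2 _).1.2 ((D.same x⁻¹).1 hp))
  rw [map_inv₀] at hn2
  have h1 : ¬ 0 < o₁ (D.π x) := fun hp => hn1 (Or.inr hp)
  have h2 : ¬ 0 < o₁ (D.π x)⁻¹ := fun hp => hn2 (Or.inr hp)
  have h3 := hmul (D.π x) (D.π x)⁻¹ h0 (inv_ne_zero h0)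
  rw [mul_inv_cancel₀ h0, ord_one hmul] at h3
  exact (c1 _).2.2 ⟨h0, by omega⟩

end Z2midAux

open Z2midAux in
theorem stmt_Z2mid : Stmt_Z2mid := by
  intro A₀ F F₁ B _ _ _ _ _ _ _ _ _ _ o₁ o₂ o₃ r m D P₁ P₂ hP₁ hP₂ c1 c2 hm hmul u ρ g hu1 hu2 hN
    hρ hρu
  -- step 1
  obtain ⟨y₂, hy₂⟩ := D.res₂ u ((c2 u).2.1 hu2)
  have hy₂P : PosAt P₂ (u - D.π y₂) := (c2 _).1.2 hy₂
  have hy₂U2 : UnitAt P₂ (D.π y₂) := by
    refine hu2.of_sub_posAt ?_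
    have := hy₂P.neg
    rwa [neg_sub] at this
  have hy₂U1 : UnitAt P₁ (D.π y₂) := unit_same D c1 c2 hmul hy₂U2
  -- step 3
  have hna : PosAt P₁ (D.π g ^ m - u * D.π y₂ ^ (r - 1)) := by
    have := D.na u y₂ ((c1 u).2.1 hu1) ((c2 u).2.1 hu2) hy₂
    rw [hN, map_pow] at this
    exact (c1 _).1.2 this
  -- step 4
  obtain ⟨r', hr'⟩ := D.res₁ ρ ((c1 ρ).2.1 hρ)
  have hr'P : PosAt P₁ (ρ - D.π r') := (c1 _).1.2 hr'
  have hr'U : UnitAt P₁ (D.π r') := by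
    refine hρ.of_sub_posAt ?_
    have := hr'P.neg
    rwa [neg_sub] at this
  have hr'0 : D.π r' ≠ 0 := hr'U.ne_zero
  -- step 5
  have h5a : PosAt P₁ (ρ ^ m - D.π r' ^ m) := PosAt.pow_sub_pow hρ.intAt hr'U.intAt hr'P m
  have h5b : PosAt P₁ (u - D.π r' ^ m) := by
    have := hρu.add h5a
    rwa [sub_add_sub_cancel] at this
  have h5c : PosAt P₁ (D.π g ^ m - D.π r' ^ m * D.π y₂ ^ (r - 1)) := by
    have e : D.π g ^ m - D.π r' ^ m * D.π y₂ ^ (r - 1) =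
        (D.π g ^ m - u * D.π y₂ ^ (r - 1)) + (u - D.π r' ^ m) * D.π y₂ ^ (r - 1) := by ring
    rw [e]
    exact hna.add (h5b.mul_intAt (hy₂U1.intAt.pow _))
  -- step 6
  have h6 : PosAt P₁ (D.π ((g / r') ^ m - y₂ ^ (r - 1))) := by
    have e : D.π ((g / r') ^ m - y₂ ^ (r - 1)) =
        (D.π g ^ m - D.π r' ^ m * D.π y₂ ^ (r - 1)) * (D.π r' ^ m)⁻¹ := by
      rw [map_sub, map_pow, map_pow, map_div₀, div_pow]
      field_simp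
    rw [e]
    exact h5c.mul_intAt (hr'U.pow m).inv.intAt
  have h6' : PosAt P₂ (D.π ((g / r') ^ m - y₂ ^ (r - 1))) :=
    (c2 _).1.2 ((D.same _).1 ((c1 _).1.1 h6))
  rw [map_sub, map_pow, map_pow] at h6'
  -- step 7
  have h7a : PosAt P₂ (u ^ (r - 1) - D.π y₂ ^ (r - 1)) :=
    PosAt.pow_sub_pow hu2.intAt hy₂U2.intAt hy₂P (r - 1)
  have h7 : PosAt P₂ (u ^ (r - 1) - D.π (g / r') ^ m) := by
    have := h7a.sub h6'
    have e : u ^ (r - 1) - D.π y₂ ^ (r - 1) - (D.π (g / r') ^ m - D.π y₂ ^ (r - 1)) =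
        u ^ (r - 1) - D.π (g / r') ^ m := by ring
    rwa [e] at this
  refine ⟨D.π (g / r'), ?_, h7⟩
  apply UnitAt.of_pow' hm
  refine (hu2.pow (r - 1)).of_sub_posAt ?_
  have := h7.neg
  rwa [neg_sub] at this

end Fermat.Agent.S36
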