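import Fermat.Agent.S36.ZInterface
import Fermat.Agent.S36.AtAPI

/-!
# S36 : **Z2nb**, the residue `m`-th root on the purely inseparable component
-/

set_option autoImplicit false

namespace Fermat.Agent.S36

namespace Z2nb

variable {B F : Type*} [CommRing B] [Field F] [Algebra B F] [IsDomain B] [IsFractionRing B F]
  {P : Ideal B} [P.IsPrime]

lemma unitAt_zpow {z : F} (h : UnitAt P z) (n : ℤ) : UnitAt P (z ^ n) := by
  cases n with
  | ofNat n => simpa using h.pow n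
  | negSucc n => rw [zpow_negSucc]; exact (h.pow _).inv

lemma posAt_zpow_sub_zpow {a b : F} (ha : UnitAt P a) (hb : UnitAt P b) (h : PosAt P (a - b))
    (x : ℤ) : PosAt P (a ^ x - b ^ x) := by
  cases x with
  | ofNat n => simpa using PosAt.pow_sub_pow ha.intAt hb.intAt h n
  | negSucc n =>
    rw [zpow_negSucc, zpow_negSucc]
    have ha' := ha.pow (n + 1)
    have hb' := hb.pow (n + 1)
    have e : (a ^ (n + 1))⁻¹ - (b ^ (n + 1))⁻¹
        = -(a ^ (n + 1) - b ^ (n + 1)) * ((a ^ (n + 1))⁻¹ * (b ^ (n + 1))⁻¹) := by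
      have h1 := ha'.ne_zero
      have h2 := hb'.ne_zero
      field_simp
      ring
    rw [e]
    exact (PosAt.pow_sub_pow ha.intAt hb.intAt h (n + 1)).neg.mul_intAt
      (ha'.inv.intAt.mul hb'.inv.intAt)

end Z2nb

theorem stmt_Z2nb : Stmt_Z2nb := by
  intro A₀ F F₁ B _ _ _ _ _ _ _ _ _ _ o₁ o₂ o₃ r m D P₃ hP hcen hm hrm u g hu hN
  have := hP
  have h1 : PosAt P₃ (D.π (D.N u) - u ^ r) := ((hcen _).1).2 (D.nb u (((hcen u).2).1 hu))
  rw [hN, map_pow] at h1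
  have hb : UnitAt P₃ (u ^ r) := hu.pow r
  have ha : UnitAt P₃ (D.π g ^ m) := hb.of_sub_posAt h1
  have hg : UnitAt P₃ (D.π g) := UnitAt.of_pow' hm ha
  obtain ⟨x, y, hxy⟩ := Nat.isCoprime_iff_coprime.2 hrm
  refine ⟨D.π g ^ x * u ^ y, (Z2nb.unitAt_zpow hg x).mul (Z2nb.unitAt_zpow hu y), ?_⟩
  have hu0 := hu.ne_zero
  have hg0 := hg.ne_zero
  have e : u - (D.π g ^ x * u ^ y) ^ m = ((u ^ r) ^ x - (D.π g ^ m) ^ x) * u ^ (y * m) := by
    have e1 : u = (u ^ r) ^ x * u ^ (y * m) := by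
      rw [← zpow_natCast u r, ← zpow_mul, ← zpow_add₀ hu0, mul_comm (r : ℤ) x, hxy, zpow_one]
    have e2 : (D.π g ^ x * u ^ y) ^ m = (D.π g ^ m) ^ x * u ^ (y * m) := by
      rw [mul_pow, ← zpow_natCast (D.π g ^ x) m, ← zpow_mul, ← zpow_natCast (u ^ y) m, ← zpow_mul,
        ← zpow_natCast (D.π g) m, ← zpow_mul, mul_comm x (m : ℤ)]
    rw [e2, sub_mul, ← e1]
  rw [e]
  have h2 : PosAt P₃ (u ^ r - D.π g ^ m) := by
    have := h1.neg
    rwa [neg_sub] at this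
  exact (Z2nb.posAt_zpow_sub_zpow hb ha h2 x).mul_intAt (Z2nb.unitAt_zpow hu _).intAt

end Fermat.Agent.S36
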