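import Fermat.Agent.S36.AbsInterface

/-!
# S36 : ABS-APPROX, weak approximation at finitely many pairwise incomparable primes
-/

set_option autoImplicit false

namespace Fermat.Agent.S36

open Fermat.Agent.KL

/-- **APPROX**. -/
theorem stmt_Approx : Stmt_Approx := by
  intro B F _ _ _ _ _ ι _ P hP hinc x hx
  classical
  have := Fintype.ofFinite ι
  rcases isEmpty_or_nonempty ι with hι | ⟨⟨i₀⟩⟩
  · exact ⟨1, one_ne_zero, fun i => (hι.false i).elim⟩
  -- the elements `e i j`
  have h1 : ∀ i j : ι, ∃ e : B, j ≠ i → e ∈ P j ∧ e ∉ P i := by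
    intro i j
    by_cases hij : j = i
    · exact ⟨0, fun h => (h hij).elim⟩
    · have : ¬ P j ≤ P i := fun h => hij (hinc j i h)
      obtain ⟨e, he1, he2⟩ := SetLike.not_le_iff_exists.1 this
      exact ⟨e, fun _ => ⟨he1, he2⟩⟩
  choose e' he' using h1
  let e : ι → B := fun i => ∏ j ∈ Finset.univ.erase i, e' i j
  have he1 : ∀ i, e i ∉ P i := by
    intro i h
    obtain ⟨j, hj, hj2⟩ := (hP i).prod_mem_iff.1 h
    exact (he' i j (Finset.ne_of_mem_erase hj)).2 hj2
  have he2 : ∀ i j, j ≠ i → e i ∈ P j := by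
    intro i j hj
    exact (hP j).prod_mem_iff.2 ⟨j, Finset.mem_erase.2 ⟨hj, Finset.mem_univ _⟩, (he' i j hj).1⟩
  choose b hb a ha hab using hx
  set num : B := ∑ j, e j * a j with hnum
  set den : B := ∑ j, e j * b j with hden
  have key : ∀ (c : ι → B), (∀ i, c i ∉ P i) → ∀ i, (∑ j, e j * c j) ∉ P i := by
    intro c hc i h
    rw [← Finset.add_sum_erase _ _ (Finset.mem_univ i)] at h
    have h2 : ∑ j ∈ Finset.univ.erase i, e j * c j ∈ P i :=
      Ideal.sum_mem _ fun j hj => Ideal.mul_mem_right _ _ (he2 j i (Finset.ne_of_mem_erase hj).symm)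
    have h3 : e i * c i ∈ P i := ((P i).add_mem_iff_left h2).1 h
    rcases (hP i).mem_or_mem h3 with h4 | h4
    · exact he1 i h4
    · exact hc i h4
  have hnumP := key a ha
  have hdenP := key b hb
  have hinj : Function.Injective (algebraMap B F) := IsFractionRing.injective B F
  have hnum0 : algebraMap B F num ≠ 0 := by
    intro h
    have : num = 0 := hinj (h.trans (map_zero _).symm)
    apply hnumP i₀
    rw [← hnum, this]
    exact (P i₀).zero_mem
  have hden0 : algebraMap B F den ≠ 0 := by
    intro h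
    have : den = 0 := hinj (h.trans (map_zero _).symm)
    apply hdenP i₀
    rw [← hden, this]
    exact (P i₀).zero_mem
  refine ⟨algebraMap B F num / algebraMap B F den, div_ne_zero hnum0 hden0, fun i => ?_⟩
  refine ⟨b i * den, fun h => ?_, b i * num - a i * den, ?_, ?_⟩
  · rcases (hP i).mem_or_mem h with h4 | h4
    · exact hb i h4
    · exact hdenP i h4
  · have h5 : b i * num - a i * den = ∑ j, e j * (b i * a j - a i * b j) := by
      rw [hnum, hden, Finset.mul_sum, Finset.mul_sum, ← Finset.sum_sub_distrib]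
      exact Finset.sum_congr rfl fun j _ => by ring
    rw [h5]
    refine Ideal.sum_mem _ fun j _ => ?_
    by_cases hj : j = i
    · subst hj
      rw [mul_comm (b j) (a j), sub_self, mul_zero]
      exact (P j).zero_mem
    · exact Ideal.mul_mem_right _ _ (he2 j i (Ne.symm hj))
  · rw [map_mul, map_sub, map_mul, map_mul, ← hab i]
    field_simp

end Fermat.Agent.S36
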