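import Fermat.Agent.S36.ZInterface
import Fermat.Agent.S36.AtAPI
import Fermat.Agent.S36.Approx

/-!
# S36 : Z-3, `GoodAt` at the triple points, assembly (helper9)
-/

set_option autoImplicit false

namespace Fermat.Agent.S36

namespace Z3

variable {A₀ F B : Type} [CommRing A₀] [Field F] [Algebra A₀ F] [CommRing B] [IsDomain B]
  [Algebra B F] [IsFractionRing B F]

/-- units of `A₀` are units at every prime of the chart. -/
theorem unitAt_const (hc : ∀ a : A₀, ∃ b : B, algebraMap B F b = algebraMap A₀ F a) (Q : Ideal B)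
    [Q.IsPrime] {a a' : A₀} (h : a * a' = 1) : UnitAt Q (algebraMap A₀ F a) := by
  have h' : algebraMap A₀ F a * algebraMap A₀ F a' = 1 := by rw [← map_mul, h, map_one]
  rw [unitAt_iff]
  obtain ⟨b, hb⟩ := hc a
  obtain ⟨b', hb'⟩ := hc a'
  refine ⟨hb ▸ intAt_algebraMap b, ?_, left_ne_zero_of_mul_eq_one h'⟩
  rw [← eq_inv_of_mul_eq_one_right h']
  exact hb' ▸ intAt_algebraMap b'

/-- `x / y ≡ x' / y'` if `x ≡ x'`, `y ≡ y'`, and `y, y'` are units. -/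
theorem posAt_div_sub_div {P : Ideal B} [P.IsPrime] {x x' y y' : F} (hx' : IntAt P x')
    (hy : UnitAt P y) (hy' : UnitAt P y') (h1 : PosAt P (x - x')) (h2 : PosAt P (y - y')) :
    PosAt P (x / y - x' / y') := by
  have e : x / y - x' / y' = ((x - x') * y' - x' * (y - y')) * (y * y')⁻¹ := by
    have := hy.ne_zero
    have := hy'.ne_zero
    field_simp
    ring
  rw [e]
  exact ((h1.mul_intAt hy'.intAt).sub (hx'.mul_posAt h2)).mul_intAt (hy.mul hy').inv.intAt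

end Z3

theorem stmt_Z3 (h1 : Stmt_Z3a) (h2 : Stmt_Z3b) : Stmt_Z3 := by
  intro A₀ F F₁ B _ _ _ _ _ _ _ _ _ _ V C ζ hζ hinj u hu ⟨g₁, hg₁⟩ ⟨g₂, hg₂⟩
  obtain ⟨ia₁, ib₁, hia₁, hib₁⟩ := h1 A₀ F F₁ B (V.ord 0) (V.ord 1) (V.ord 2) V.r V.m V.D₁
    (C.P 0) (C.P 1) (C.P 2) ζ (C.prime 0) (C.prime 1) (C.prime 2) (C.cen 0) (C.cen 1) (C.cen 2)
    V.hm hζ hinj C.const u g₁ (hu 0) (hu 1) (hu 2) hg₁
  obtain ⟨ia₂, ib₂, hia₂, hib₂⟩ := h1 A₀ F F₁ B (V.ord 2) (V.ord 1) (V.ord 0) V.r V.m V.D₂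
    (C.P 2) (C.P 1) (C.P 0) ζ (C.prime 2) (C.prime 1) (C.prime 0) (C.cen 2) (C.cen 1) (C.cen 0)
    V.hm hζ hinj C.const u g₂ (hu 2) (hu 1) (hu 0) hg₂
  obtain ⟨f, hf0, hf1, hf2⟩ : ∃ f : Fin 3 → ℕ,
      f 0 = V.r * (ib₂ + (V.m - 1) * ia₂) + (ib₁ + (V.m - 1) * ia₁) ∧ f 1 = 0 ∧
      f 2 = V.r * (ib₁ + (V.m - 1) * ia₁) + (ib₂ + (V.m - 1) * ia₂) :=
    ⟨![_, _, _], rfl, rfl, rfl⟩
  have hzU : ∀ (Q : Ideal B) [Q.IsPrime] (n : ℕ), UnitAt Q (algebraMap A₀ F (ζ ^ n)) := by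
    intro Q _ n
    obtain ⟨a', ha'⟩ := ((hζ.isUnit V.hm.ne').pow n).exists_right_inv
    exact Z3.unitAt_const C.const Q ha'
  have hzm : ∀ n, algebraMap A₀ F (ζ ^ n) ^ V.m = 1 := by
    intro n
    rw [← map_pow, ← pow_mul, mul_comm, pow_mul, hζ.pow_eq_one, one_pow, map_one]
  have hprime : ∀ X, (C.P X).IsPrime := C.prime
  obtain ⟨s, hs0, hs⟩ := stmt_Approx B F (Fin 3) C.P C.prime C.inc
    (fun X => algebraMap A₀ F (ζ ^ f X)) (fun X => hzU _ _)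
  have hsU : ∀ X, UnitAt (C.P X) s := fun X => (hzU (C.P X) (f X)).of_sub_posAt (hs X)
  have huU : ∀ X, UnitAt (C.P X) u := fun X => unitAt_one.of_sub_posAt (hu X)
  refine ⟨s, hs0, ?_, ?_⟩
  · intro X
    have e : u ^ (V.r ^ 2 - 1) / s ^ V.m - 1 = u ^ (V.r ^ 2 - 1) / s ^ V.m - 1 / 1 := by
      rw [div_one]
    rw [e]
    refine Z3.posAt_div_sub_div intAt_one ((hsU X).pow _) unitAt_one ?_ ?_
    · have := PosAt.pow_sub_pow (huU X).intAt intAt_one (hu X) (V.r ^ 2 - 1)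
      rwa [one_pow] at this
    · have := PosAt.pow_sub_pow (hsU X).intAt (hzU (C.P X) (f X)).intAt (hs X) V.m
      rwa [hzm] at this
  · intro ν hν hle hL1 hL2 hnor w hw hUw
    have hνp : ν.IsPrime := hν.isPrime
    obtain ⟨a, haU, hwa, hA, hC⟩ := h2 A₀ F F₁ B V C ζ hζ.pow_eq_one u w g₁ g₂ ia₁ ib₁ ia₂ ib₂ ν hu
      hg₁ hg₂ hia₁ hib₁ hia₂ hib₂ hν hle hL1 hL2 hnor hw hUw
    rw [← hf0] at hA
    rw [← hf2] at hC
    have Hν : ∀ X, PosAt ν (a X ^ (V.r ^ 2 - 1)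
        - algebraMap A₀ F (ζ ^ f X) * a 1 ^ (V.r ^ 2 - 1)) := by
      intro X
      fin_cases X
      · exact hA
      · show PosAt ν (a 1 ^ (V.r ^ 2 - 1) - algebraMap A₀ F (ζ ^ f 1) * a 1 ^ (V.r ^ 2 - 1))
        rw [hf1, pow_zero, map_one, one_mul, sub_self]
        exact posAt_zero
      · exact hC
    have ha1 := (haU 1).ne_zero
    refine ⟨w ^ (V.r ^ 2 - 1) / (s * a 1 ^ (V.r ^ 2 - 1)),
      div_ne_zero (pow_ne_zero _ hw) (mul_ne_zero hs0 (pow_ne_zero _ ha1)), ?_, ?_⟩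
    · have e : u ^ (V.r ^ 2 - 1) / s ^ V.m / (w ^ (V.r ^ 2 - 1) / (s * a 1 ^ (V.r ^ 2 - 1))) ^ V.m
          = (u / w ^ V.m) ^ (V.r ^ 2 - 1) * (a 1 ^ (V.r ^ 2 - 1)) ^ V.m := by
        have e1 : (w ^ (V.r ^ 2 - 1)) ^ V.m = (w ^ V.m) ^ (V.r ^ 2 - 1) := by
          rw [← pow_mul, mul_comm, pow_mul]
        rw [div_pow, mul_pow, div_pow, e1]
        have n1 : s ^ V.m ≠ 0 := pow_ne_zero _ hs0
        have n2 : (w ^ V.m) ^ (V.r ^ 2 - 1) ≠ 0 := pow_ne_zero _ (pow_ne_zero _ hw)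
        have n3 : (a 1 ^ (V.r ^ 2 - 1)) ^ V.m ≠ 0 := pow_ne_zero _ (pow_ne_zero _ ha1)
        generalize s ^ V.m = S at *
        generalize (w ^ V.m) ^ (V.r ^ 2 - 1) = W at *
        generalize (a 1 ^ (V.r ^ 2 - 1)) ^ V.m = AA at *
        field_simp
      rw [e]
      exact (hUw.pow _).mul (((haU 1).pow _).pow _)
    · intro X
      have hden : UnitAt ν (algebraMap A₀ F (ζ ^ f X) * a 1 ^ (V.r ^ 2 - 1)) :=
        (hzU ν (f X)).mul ((haU 1).pow _)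
      refine ⟨a X ^ (V.r ^ 2 - 1) / (algebraMap A₀ F (ζ ^ f X) * a 1 ^ (V.r ^ 2 - 1)) - 1, ?_, ?_⟩
      · have e : a X ^ (V.r ^ 2 - 1) / (algebraMap A₀ F (ζ ^ f X) * a 1 ^ (V.r ^ 2 - 1)) - 1
            = (a X ^ (V.r ^ 2 - 1) - algebraMap A₀ F (ζ ^ f X) * a 1 ^ (V.r ^ 2 - 1))
              * (algebraMap A₀ F (ζ ^ f X) * a 1 ^ (V.r ^ 2 - 1))⁻¹ := by
          rw [sub_mul, mul_inv_cancel₀ hden.ne_zero, div_eq_mul_inv]
        rw [e]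
        exact (Hν X).mul_intAt hden.inv.intAt
      · have e : w ^ (V.r ^ 2 - 1) / (s * a 1 ^ (V.r ^ 2 - 1)) - 1
            - (a X ^ (V.r ^ 2 - 1) / (algebraMap A₀ F (ζ ^ f X) * a 1 ^ (V.r ^ 2 - 1)) - 1)
            = w ^ (V.r ^ 2 - 1) / (s * a 1 ^ (V.r ^ 2 - 1))
              - a X ^ (V.r ^ 2 - 1) / (algebraMap A₀ F (ζ ^ f X) * a 1 ^ (V.r ^ 2 - 1)) := by
          ring
        rw [e]
        have haX : UnitAt (C.P X) (a X) := (haU X).mono (hle X)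
        have ha1X : UnitAt (C.P X) (a 1 ^ (V.r ^ 2 - 1)) := ((haU 1).mono (hle X)).pow _
        have hwX : UnitAt (C.P X) w := haX.of_sub_posAt (hwa X)
        refine Z3.posAt_div_sub_div (haX.intAt.pow _) ((hsU X).mul ha1X) (hden.mono (hle X))
          (PosAt.pow_sub_pow hwX.intAt haX.intAt (hwa X) _) ?_
        rw [← sub_mul]
        exact (hs X).mul_intAt ha1X.intAt

end Fermat.Agent.S36
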