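import Fermat.Agent.S36.ZInterface
import Fermat.Agent.S36.AtAPI

/-!
# S36 / Z-3a : the `m`-th root of the norm is congruent to roots of unity on `P₁` and on `P₃`.
helper83
-/

set_option autoImplicit false

namespace Fermat.Agent.S36

namespace Z3a

variable {B F : Type*} [CommRing B] [Field F] [Algebra B F] [IsDomain B] [IsFractionRing B F]
  {P : Ideal B} [P.IsPrime]

/-- `B_P / P B_P` is a domain. -/
theorem posAt_or_of_mul {x y : F} (hx : IntAt P x) (h : PosAt P (x * y)) :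
    PosAt P x ∨ PosAt P y := by
  by_cases hx' : PosAt P x
  · exact Or.inl hx'
  · right
    have hu : UnitAt P x := hx.unitAt_of_not_posAt hx'
    have e : y = x⁻¹ * (x * y) := by
      rw [← mul_assoc, inv_mul_cancel₀ hu.ne_zero, one_mul]
    rw [e]
    exact hu.inv.intAt.mul_posAt h

theorem exists_posAt_of_prod {ι : Type*} (s : Finset ι) (f : ι → F) (hf : ∀ i ∈ s, IntAt P (f i))
    (h : PosAt P (∏ i ∈ s, f i)) : ∃ i ∈ s, PosAt P (f i) := by
  classical
  induction s using Finset.induction_on with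
  | empty =>
    rw [Finset.prod_empty] at h
    exact absurd h not_posAt_one
  | insert a s ha ih =>
    rw [Finset.prod_insert ha] at h
    rcases posAt_or_of_mul (hf a (Finset.mem_insert_self a s)) h with h1 | h1
    · exact ⟨a, Finset.mem_insert_self a s, h1⟩
    · obtain ⟨i, hi, hi'⟩ := ih (fun i hi => hf i (Finset.mem_insert_of_mem hi)) h1
      exact ⟨i, Finset.mem_insert_of_mem hi, hi'⟩

/-- an element whose `m`-th power is `≡ 1` is congruent to an `m`-th root of unity. -/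
theorem exists_root [IsIntegrallyClosed B] {A₀ : Type*} [CommRing A₀] [Algebra A₀ F] {m : ℕ}
    (hm : 0 < m) {ζ : A₀} (hζ : IsPrimitiveRoot ζ m) (hinj : Function.Injective (algebraMap A₀ F))
    (hconst : ∀ a : A₀, ∃ b : B, algebraMap B F b = algebraMap A₀ F a) {x : F}
    (h : PosAt P (x ^ m - 1)) : ∃ i : ℕ, PosAt P (x - algebraMap A₀ F (ζ ^ i)) := by
  have : NeZero m := ⟨hm.ne'⟩
  have hxm : UnitAt P (x ^ m) := by
    have := h.one_add_unitAt
    rwa [add_sub_cancel] at this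
  have hx : IntAt P x := (UnitAt.of_pow' hm hxm).intAt
  have hζF : IsPrimitiveRoot (algebraMap A₀ F ζ) m := hζ.map_of_injective hinj
  have hprod := hζF.pow_sub_pow_eq_prod_sub_mul x 1 hm
  rw [one_pow] at hprod
  rw [hprod] at h
  have hroot : ∀ μ ∈ Polynomial.nthRootsFinset m (1 : F), ∃ i : ℕ, μ = algebraMap A₀ F (ζ ^ i) := by
    intro μ hμ
    obtain ⟨i, -, hi⟩ := hζF.eq_pow_of_pow_eq_one ((Polynomial.mem_nthRootsFinset hm 1).1 hμ)
    exact ⟨i, by rw [map_pow, hi]⟩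
  obtain ⟨μ, hμ, hpos⟩ := exists_posAt_of_prod _ _ (fun μ hμ => by
    obtain ⟨i, rfl⟩ := hroot μ hμ
    obtain ⟨b, hb⟩ := hconst (ζ ^ i)
    rw [mul_one, ← hb]
    exact hx.sub (intAt_algebraMap b)) h
  obtain ⟨i, rfl⟩ := hroot μ hμ
  rw [mul_one] at hpos
  exact ⟨i, hpos⟩

end Z3a

theorem stmt_Z3a : Stmt_Z3a := by
  intro A₀ F F₁ B _ _ _ _ _ _ _ _ _ _ o₁ o₂ o₃ r m D P₁ P₂ P₃ ζ hP₁ hP₂ hP₃ hc₁ hc₂ hc₃ hm hζ hinj
    hconst u g hu₁ hu₂ hu₃ hN
  have hU : ∀ (P : Ideal B) [P.IsPrime], PosAt P (u - 1) → UnitAt P u := by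
    intro P _ h
    have := h.one_add_unitAt
    rwa [add_sub_cancel] at this
  have hπN : D.π (D.N u) = D.π g ^ m := by rw [hN, map_pow]
  -- on `P₁`
  have h1 : PosAt P₁ (D.π g ^ m - 1) := by
    have ha := D.na u 1 ((hc₁ u).2.1 (hU P₁ hu₁)) ((hc₂ u).2.1 (hU P₂ hu₂))
      (by rw [map_one]; exact (hc₂ _).1.1 hu₂)
    rw [map_one, one_pow, mul_one, hπN] at ha
    have := ((hc₁ _).1.2 ha).add hu₁
    rwa [sub_add_sub_cancel] at this
  -- on `P₃`
  have h3 : PosAt P₃ (D.π g ^ m - 1) := by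
    have hb := D.nb u ((hc₃ u).2.1 (hU P₃ hu₃))
    rw [hπN] at hb
    have h' := PosAt.pow_sub_pow (hU P₃ hu₃).intAt intAt_one hu₃ r
    rw [one_pow] at h'
    have := ((hc₃ _).1.2 hb).add h'
    rwa [sub_add_sub_cancel] at this
  obtain ⟨ia, hia⟩ := Z3a.exists_root hm hζ hinj hconst h1
  obtain ⟨ib, hib⟩ := Z3a.exists_root hm hζ hinj hconst h3
  exact ⟨ia, ib, hia, hib⟩

end Fermat.Agent.S36
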