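import Fermat.Agent.S36.ZInterface
import Fermat.Agent.S36.AtAPI

/-!
# S36 : `Z3b`, the computation at a triple point (helper24)
-/

set_option autoImplicit false

namespace Fermat.Agent.S36

namespace Z3b

variable {B F : Type*} [CommRing B] [Field F] [Algebra B F] [IsDomain B] [IsFractionRing B F]

/-- pure computation modulo `ν`. -/
lemma key {ν : Ideal B} [ν.IsPrime] (a c μ z₁ z₂ : F) (r : ℕ) (hr : 1 ≤ r)
    (ha : UnitAt ν a) (hc : IntAt ν c) (hμ : IntAt ν μ) (hz₁ : IntAt ν z₁) (hz₂ : IntAt ν z₂)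
    (h₁ : PosAt ν (c ^ r - z₁ * (a * μ ^ (r - 1))))
    (h₂ : PosAt ν (a ^ r - z₂ * (c * μ ^ (r - 1)))) :
    PosAt ν (a ^ (r ^ 2 - 1) - (z₂ ^ r * z₁) * μ ^ (r ^ 2 - 1)) := by
  obtain ⟨k, rfl⟩ : ∃ k, r = k + 1 := ⟨r - 1, by omega⟩
  have e1 : k + 1 - 1 = k := Nat.add_sub_cancel k 1
  have e2 : (k + 1) ^ 2 - 1 = k ^ 2 + 2 * k := Nat.sub_eq_of_eq_add (by ring)
  rw [e1] at h₁ h₂
  rw [e2]
  have hA : PosAt ν ((a ^ (k + 1)) ^ (k + 1) - (z₂ * (c * μ ^ k)) ^ (k + 1)) :=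
    PosAt.pow_sub_pow (ha.intAt.pow _) (hz₂.mul (hc.mul (hμ.pow _))) h₂ _
  have hB : PosAt ν ((z₂ ^ (k + 1) * μ ^ (k * (k + 1))) * (c ^ (k + 1) - z₁ * (a * μ ^ k))) :=
    ((hz₂.pow _).mul (hμ.pow _)).mul_posAt h₁
  have hC := (hA.add hB).mul_intAt ha.inv.intAt
  have ha0 := ha.ne_zero
  have e : ((a ^ (k + 1)) ^ (k + 1) - (z₂ * (c * μ ^ k)) ^ (k + 1) +
      (z₂ ^ (k + 1) * μ ^ (k * (k + 1))) * (c ^ (k + 1) - z₁ * (a * μ ^ k))) * a⁻¹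
      = a ^ (k ^ 2 + 2 * k) - (z₂ ^ (k + 1) * z₁) * μ ^ (k ^ 2 + 2 * k) := by
    have e3 : (a ^ (k + 1)) ^ (k + 1) = a ^ (k ^ 2 + 2 * k) * a := by
      rw [← pow_mul, ← pow_succ]; congr 1; ring
    have e4 : μ ^ (k * (k + 1)) * μ ^ k = μ ^ (k ^ 2 + 2 * k) := by
      rw [← pow_add]; congr 1; ring
    have e5 : (z₂ * (c * μ ^ k)) ^ (k + 1) = z₂ ^ (k + 1) * μ ^ (k * (k + 1)) * c ^ (k + 1) := by
      rw [mul_pow, mul_pow, ← pow_mul]; ring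
    rw [e3, e5, ← e4]
    field_simp
    ring
  rwa [e] at hC

end Z3b

theorem stmt_Z3b (hDEG : Stmt_DEG) : Stmt_Z3b := by
  intro A₀ F F₁ B _ _ _ _ _ _ _ _ _ _ V C ζ hζ u w g₁ g₂ ia₁ ib₁ ia₂ ib₂ ν hu hN₁ hN₂ h1a h1b h2a h2b
    hν hle hL₁ hL₂ hNor hw hε
  have : ν.IsPrime := hν.isPrime
  have hm := V.hm
  have hr1 : 1 ≤ V.r := le_trans (by norm_num) V.hr
  -- the constants
  have hconst : ∀ a : A₀, IntAt ν (algebraMap A₀ F a) := by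
    intro a
    obtain ⟨b, hb⟩ := C.const a
    rw [← hb]
    exact intAt_algebraMap b
  have huX : ∀ X, UnitAt (C.P X) u := by
    intro X
    have := C.prime X
    exact unitAt_one.of_sub_posAt (hu X)
  have hu0 : u ≠ 0 := (huX 0).ne_zero
  have hwm : w ^ V.m ≠ 0 := pow_ne_zero _ hw
  -- the values `a X`
  have hex : ∀ X, ∃ a : F, UnitAt ν a ∧ PosAt (C.P X) (w - a) := by
    intro X
    have := C.prime X
    have hεX : UnitAt (C.P X) (u / w ^ V.m) := hε.mono (hle X)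
    have hwmX : UnitAt (C.P X) (w ^ V.m) := by
      have := (huX X).div hεX
      have e : u / (u / w ^ V.m) = w ^ V.m := by field_simp
      rwa [e] at this
    have hwX : UnitAt (C.P X) w := UnitAt.of_pow' hm hwmX
    have hpos : PosAt (C.P X) (w ^ V.m - (u / w ^ V.m)⁻¹) := by
      have e : w ^ V.m - (u / w ^ V.m)⁻¹ = (u - 1) * (u / w ^ V.m)⁻¹ := by
        field_simp
      rw [e]
      exact (hu X).mul_intAt hεX.inv.intAt
    obtain ⟨x', hx', hx''⟩ := hNor X w (u / w ^ V.m)⁻¹ hwX hε.inv hpos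
    refine ⟨x', ?_, hx''⟩
    have h1 : PosAt (C.P X) (x' ^ V.m - (u / w ^ V.m)⁻¹) := by
      have e : x' ^ V.m - (u / w ^ V.m)⁻¹
          = (w ^ V.m - (u / w ^ V.m)⁻¹) - (w ^ V.m - x' ^ V.m) := by ring
      rw [e]
      exact hpos.sub (PosAt.pow_sub_pow hwX.intAt (hx'.mono (hle X)) hx'' _)
    have h2 : PosAt ν (x' ^ V.m - (u / w ^ V.m)⁻¹) :=
      ((hx'.pow _).sub hε.inv.intAt).posAt_of_posAt (hle X) h1
    exact UnitAt.of_pow hm hx' (hε.inv.of_sub_posAt h2)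
  choose a haU haP using hex
  refine ⟨a, haU, haP, ?_, ?_⟩
  all_goals
    have R₁ := hDEG A₀ F F₁ B (V.ord 0) (V.ord 1) (V.ord 2) V.r V.m V.D₁ ν (C.P 0) (C.P 1) (C.P 2)
      hν (C.prime 0) (C.prime 1) (C.prime 2) (hle 0) (hle 1) (hle 2) (C.cen 0) (C.cen 1) (C.cen 2)
      hL₁ hm hr1 u w (a 0) (a 1) (a 2) g₁ (algebraMap A₀ F₁ (ζ ^ ia₁)) (algebraMap A₀ F₁ (ζ ^ ib₁))
      hu0 hw hN₁ hε (haU 0) (haU 1) (haU 2) (haP 0) (haP 1) (haP 2)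
      (by rw [V.D₁.π_const]; exact hconst _) (by rw [V.D₁.π_const]; exact hconst _)
      (by rw [V.D₁.π_const]; exact h1a) (by rw [V.D₁.π_const]; exact h1b)
    have R₂ := hDEG A₀ F F₁ B (V.ord 2) (V.ord 1) (V.ord 0) V.r V.m V.D₂ ν (C.P 2) (C.P 1) (C.P 0)
      hν (C.prime 2) (C.prime 1) (C.prime 0) (hle 2) (hle 1) (hle 0) (C.cen 2) (C.cen 1) (C.cen 0)
      hL₂ hm hr1 u w (a 2) (a 1) (a 0) g₂ (algebraMap A₀ F₁ (ζ ^ ia₂)) (algebraMap A₀ F₁ (ζ ^ ib₂))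
      hu0 hw hN₂ hε (haU 2) (haU 1) (haU 0) (haP 2) (haP 1) (haP 0)
      (by rw [V.D₂.π_const]; exact hconst _) (by rw [V.D₂.π_const]; exact hconst _)
      (by rw [V.D₂.π_const]; exact h2a) (by rw [V.D₂.π_const]; exact h2b)
    rw [V.D₁.π_const, V.D₁.π_const] at R₁
    rw [V.D₂.π_const, V.D₂.π_const] at R₂
    -- normalise
    have hone : ∀ i : ℕ, ζ ^ ((V.m - 1) * i) * ζ ^ i = 1 := by
      intro i
      rw [← pow_add]
      have : (V.m - 1) * i + i = V.m * i := by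
        obtain ⟨k, hk⟩ : ∃ k, V.m = k + 1 := ⟨V.m - 1, by omega⟩
        rw [hk, Nat.add_sub_cancel]; ring
      rw [this, pow_mul, hζ, one_pow]
    have S₁ : PosAt ν (a 2 ^ V.r - algebraMap A₀ F (ζ ^ (ib₁ + (V.m - 1) * ia₁)) *
        (a 0 * a 1 ^ (V.r - 1))) := by
      have := (hconst (ζ ^ ((V.m - 1) * ia₁))).mul_posAt R₁
      have e : algebraMap A₀ F (ζ ^ ((V.m - 1) * ia₁)) *
          (algebraMap A₀ F (ζ ^ ia₁) * a 2 ^ V.r -
            algebraMap A₀ F (ζ ^ ib₁) * (a 0 * a 1 ^ (V.r - 1)))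
          = a 2 ^ V.r - algebraMap A₀ F (ζ ^ (ib₁ + (V.m - 1) * ia₁)) *
            (a 0 * a 1 ^ (V.r - 1)) := by
        rw [mul_sub, ← mul_assoc, ← map_mul, hone, map_one, one_mul, ← mul_assoc, ← map_mul,
          ← pow_add, add_comm ((V.m - 1) * ia₁) ib₁]
      rwa [e] at this
    have S₂ : PosAt ν (a 0 ^ V.r - algebraMap A₀ F (ζ ^ (ib₂ + (V.m - 1) * ia₂)) *
        (a 2 * a 1 ^ (V.r - 1))) := by
      have := (hconst (ζ ^ ((V.m - 1) * ia₂))).mul_posAt R₂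
      have e : algebraMap A₀ F (ζ ^ ((V.m - 1) * ia₂)) *
          (algebraMap A₀ F (ζ ^ ia₂) * a 0 ^ V.r -
            algebraMap A₀ F (ζ ^ ib₂) * (a 2 * a 1 ^ (V.r - 1)))
          = a 0 ^ V.r - algebraMap A₀ F (ζ ^ (ib₂ + (V.m - 1) * ia₂)) *
            (a 2 * a 1 ^ (V.r - 1)) := by
        rw [mul_sub, ← mul_assoc, ← map_mul, hone, map_one, one_mul, ← mul_assoc, ← map_mul,
          ← pow_add, add_comm ((V.m - 1) * ia₂) ib₂]
      rwa [e] at this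
  · have := Z3b.key (a 0) (a 2) (a 1) _ _ V.r hr1 (haU 0) (haU 2).intAt (haU 1).intAt
      (hconst _) (hconst _) S₁ S₂
    rw [← map_pow, ← map_mul, ← pow_mul, ← pow_add,
      mul_comm (ib₂ + (V.m - 1) * ia₂) V.r] at this
    exact this
  · have := Z3b.key (a 2) (a 0) (a 1) _ _ V.r hr1 (haU 2) (haU 0).intAt (haU 1).intAt
      (hconst _) (hconst _) S₂ S₁
    rw [← map_pow, ← map_mul, ← pow_mul, ← pow_add,
      mul_comm (ib₁ + (V.m - 1) * ia₁) V.r] at this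
    exact this

end Fermat.Agent.S36
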