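import Fermat.Agent.S36.AtAPI

/-!
# S36 : `GoodAt` at closed points lying on one normal component (helper25)
-/

set_option autoImplicit false

namespace Fermat.Agent.S36

open Fermat.Agent.KL

theorem stmt_One : Stmt_One := by
  intro B F _ _ _ _ _ _ ϖ 𝔫 P m u w h𝔫 hP hle huniq hm hnorm hu hw heps
  have := hP
  have : 𝔫.IsPrime := h𝔫.isPrime
  set eps : F := u / w ^ m with heps_def
  have hepsP : UnitAt P eps := heps.mono hle
  have huP : UnitAt P u := by
    have := hu.one_add_unitAt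
    rwa [add_sub_cancel] at this
  have hu0 : u ≠ 0 := huP.ne_zero
  have heps0 : eps ≠ 0 := heps.ne_zero
  have hwm0 : w ^ m ≠ 0 := pow_ne_zero m hw
  have hwm : w ^ m = u / eps := by
    rw [heps_def]
    field_simp
  have hwmP : UnitAt P (w ^ m) := hwm ▸ huP.div hepsP
  have hwP : UnitAt P w := UnitAt.of_pow' hm hwmP
  have h1 : PosAt P (w ^ m - eps⁻¹) := by
    have e : w ^ m - eps⁻¹ = (u - 1) * eps⁻¹ := by
      rw [hwm]
      field_simp
    rw [e]
    exact hu.mul_intAt hepsP.inv.intAt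
  obtain ⟨x', hx', hwx'⟩ := hnorm w eps⁻¹ hwP heps.inv h1
  have hx'P : IntAt P x' := hx'.mono hle
  have h2 : PosAt P (x' ^ m - eps⁻¹) := by
    have e : x' ^ m - eps⁻¹ = (w ^ m - eps⁻¹) - (w ^ m - x' ^ m) := by ring
    rw [e]
    exact h1.sub (PosAt.pow_sub_pow hwP.intAt hx'P hwx' m)
  have h3 : PosAt 𝔫 (x' ^ m - eps⁻¹) :=
    ((hx'.pow m).sub heps.inv.intAt).posAt_of_posAt hle h2
  have h4 : UnitAt 𝔫 (x' ^ m) := heps.inv.of_sub_posAt h3
  have h5 : UnitAt 𝔫 x' := UnitAt.of_pow hm hx' h4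
  have hx'0 : x' ≠ 0 := h5.ne_zero
  refine ⟨w / x', div_ne_zero hw hx'0, ?_, ?_⟩
  · have e : u / (w / x') ^ m = eps * x' ^ m := by
      rw [heps_def, div_pow]
      field_simp
    rw [e]
    exact heps.mul h4
  · intro Q hQ hQle
    rw [huniq Q hQ hQle]
    apply ValAt.of_posAt
    have e : w / x' - 1 = (w - x') * x'⁻¹ := by
      field_simp
    rw [e]
    exact hwx'.mul_intAt (h5.mono hle).inv.intAt

end Fermat.Agent.S36
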