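import Fermat.Agent.S36.ZInterface
import Fermat.Agent.S36.AtAPI
import Fermat.Agent.S36.LPB
import Fermat.Agent.S36.One

/-!
# S36 : Z-L, the one chart local lemmas (`stmt_ZL`, `stmt_ZOne`, `stmt_ZHDiv`)  (helper58)
-/

set_option autoImplicit false

namespace Fermat.Agent.S36

open Fermat.Agent.KL

namespace ZLoc

variable {B F : Type*} [CommRing B] [IsDomain B] [Field F] [Algebra B F] [IsFractionRing B F]

lemma unitAt_zpow {P : Ideal B} [P.IsPrime] {z : F} (h : UnitAt P z) (n : ℤ) :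
    UnitAt P (z ^ n) := by
  cases n with
  | ofNat n => simpa using h.pow n
  | negSucc n => rw [zpow_negSucc]; exact (h.pow _).inv

end ZLoc

theorem stmt_ZL : Stmt_ZL := by
  intro B F _ _ _ _ _ _ _ ϖ m u 𝔫 hϖ hm hu h𝔫 hreg hdiv hunit
  obtain ⟨a, b, ha, hb, ha0, hprime, hgen⟩ := hreg
  refine stmt_LPB' B F 𝔫 a b m u h𝔫 ha hb ha0 hprime hgen hm hu ?_
  intro 𝔭 h𝔭 hle
  obtain ⟨hp, hne, hmin⟩ := h𝔭
  by_cases hmem : ϖ ∈ 𝔭
  · obtain ⟨Q, hQ, hQle⟩ := Ideal.exists_minimalPrimes_le (I := Ideal.span {ϖ}) (J := 𝔭)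
      (by rwa [Ideal.span_singleton_le_iff_mem])
    have hQp : Q.IsPrime := hQ.1.1
    have hQne : Q ≠ ⊥ := by
      rintro rfl
      have : ϖ ∈ (⊥ : Ideal B) := hQ.1.2 (Ideal.mem_span_singleton_self ϖ)
      exact hϖ (by simpa using this)
    have hQeq : Q = 𝔭 := (hmin Q hQp hQle).resolve_left hQne
    refine ⟨1, one_ne_zero, ?_⟩
    rw [one_pow, div_one]
    exact hQeq ▸ hunit Q hQ
  · exact hdiv 𝔭 hp hne hmin hmem

theorem stmt_ZOne : Stmt_ZOne := by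
  intro B F _ _ _ _ _ _ _ ϖ m u 𝔫 hϖ hm h𝔫 hmem hreg hdiv hpos hirr hnor
  have hunit : ∀ P ∈ (Ideal.span {ϖ}).minimalPrimes, UnitAt P u := by
    intro P hP
    have : P.IsPrime := hP.1.1
    have h1 := (hpos P hP).one_add_unitAt
    rwa [add_sub_cancel] at h1
  have h𝔫p : 𝔫.IsPrime := h𝔫.isPrime
  obtain ⟨P, hP, hPle⟩ := Ideal.exists_minimalPrimes_le (I := Ideal.span {ϖ}) (J := 𝔫)
    (by rwa [Ideal.span_singleton_le_iff_mem])
  have hu : u ≠ 0 := (hunit P hP).ne_zero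
  obtain ⟨w, hw, hwu⟩ := stmt_ZL B F ϖ m u 𝔫 hϖ hm hu h𝔫 hreg hdiv hunit
  exact stmt_One B F ϖ 𝔫 P m u w h𝔫 hP.1.1 hPle (fun Q hQ hQle => hirr Q P hQ hP hQle hPle) hm
    (hnor P hP hPle) (hpos P hP) hw hwu

theorem stmt_ZHDiv : Stmt_ZHDiv := by
  intro B F _ _ _ _ _ ϖ m u h k i j hh hdiv 𝔭 hp hne hmin hmem
  obtain ⟨g, hg, hgu⟩ := hdiv 𝔭 hp hne hmin hmem
  refine ⟨g ^ k * h ^ j, mul_ne_zero (pow_ne_zero _ hg) (zpow_ne_zero _ hh), ?_⟩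
  have e : u ^ k * algebraMap B F ϖ ^ i * (h ^ m) ^ j / (g ^ k * h ^ j) ^ m
      = (u / g ^ m) ^ k * algebraMap B F ϖ ^ i := by
    have h0 : (h ^ m) ^ j = (h ^ j) ^ m := by
      rw [← zpow_natCast, ← zpow_mul, ← zpow_natCast (h ^ j), ← zpow_mul, mul_comm]
    have h1 : (h ^ j) ^ m ≠ 0 := pow_ne_zero _ (zpow_ne_zero _ hh)
    have h2 : (g ^ k) ^ m ≠ 0 := pow_ne_zero _ (pow_ne_zero _ hg)
    have h3 : (g ^ m) ^ k = (g ^ k) ^ m := by rw [← pow_mul, ← pow_mul, mul_comm]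
    rw [h0, mul_pow, div_pow, h3, div_mul_eq_mul_div, div_eq_div_iff (mul_ne_zero h2 h1) h2]
    ring
  rw [e]
  exact (hgu.pow k).mul (ZLoc.unitAt_zpow (unitAt_algebraMap hmem) i)

end Fermat.Agent.S36
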