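import Fermat.Agent.S36.ZInterface
import Fermat.Agent.S36.AtAPI
import Fermat.Agent.S36.Approx

/-! # S36 : RED assembly (`Stmt_Z2`) (helper93) -/

set_option autoImplicit false
set_option linter.style.haveILetI false

namespace Fermat.Agent.S36

open Fermat.Agent.KL

theorem ZM.z2 (h1 : Stmt_Z2nb) (h2 : Stmt_Z2mid) : Stmt_Z2 := by
  intro A₀ F F₁ B _ _ _ _ _ _ _ _ _ _ V C u hu hord ⟨g₁, hg₁⟩ ⟨g₂, hg₂⟩
  have hU : ∀ X, UnitAt (C.P X) u := fun X => ((C.cen X) u).2.2 ⟨hu, hord X⟩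
  obtain ⟨rC, hrC, hrC'⟩ := h1 A₀ F F₁ B _ _ _ V.r V.m V.D₁ (C.P 2) (C.prime 2) (C.cen 2) V.hm V.hrm
    u g₁ (hU 2) hg₁
  obtain ⟨rA, hrA, hrA'⟩ := h1 A₀ F F₁ B _ _ _ V.r V.m V.D₂ (C.P 0) (C.prime 0) (C.cen 0) V.hm V.hrm
    u g₂ (hU 0) hg₂
  obtain ⟨rM, hrM, hrM'⟩ := h2 A₀ F F₁ B _ _ _ V.r V.m V.D₁ (C.P 0) (C.P 1) (C.prime 0) (C.prime 1)
    (C.cen 0) (C.cen 1) V.hm (V.ord_mul 0) u rA g₁ (hU 0) (hU 1) hg₁ hrA hrA'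
  -- the three roots
  have key : ∀ X, ∃ ρ : F, UnitAt (C.P X) ρ ∧ PosAt (C.P X) (u ^ (V.r - 1) - ρ ^ V.m) := by
    intro X
    haveI := C.prime 0
    haveI := C.prime 2
    fin_cases X
    · refine ⟨rA ^ (V.r - 1), hrA.pow _, ?_⟩
      have := PosAt.pow_sub_pow (hU 0).intAt (hrA.pow V.m).intAt hrA' (V.r - 1)
      rwa [← pow_mul, mul_comm, pow_mul] at this
    · exact ⟨rM, hrM, hrM'⟩
    · refine ⟨rC ^ (V.r - 1), hrC.pow _, ?_⟩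
      have := PosAt.pow_sub_pow (hU 2).intAt (hrC.pow V.m).intAt hrC' (V.r - 1)
      rwa [← pow_mul, mul_comm, pow_mul] at this
  choose ρ hρ hρ' using key
  obtain ⟨z, hz, hz'⟩ := stmt_Approx B F (Fin 3) C.P C.prime C.inc ρ hρ
  refine ⟨z, hz, fun X => ?_⟩
  haveI := C.prime X
  have hzU : UnitAt (C.P X) z := (hρ X).of_sub_posAt (hz' X)
  have e : u ^ (V.r - 1) / z ^ V.m - 1
      = ((u ^ (V.r - 1) - ρ X ^ V.m) - (z ^ V.m - ρ X ^ V.m)) * (z ^ V.m)⁻¹ := by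
    have : z ^ V.m ≠ 0 := pow_ne_zero _ hz
    field_simp
    ring
  rw [e]
  exact ((hρ' X).sub (PosAt.pow_sub_pow hzU.intAt (hρ X).intAt (hz' X) V.m)).mul_intAt
    (hzU.pow _).inv.intAt

end Fermat.Agent.S36
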