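import Fermat.Agent.S36.ZMainB
import Fermat.Agent.S36.Z1
import Fermat.Agent.S36.Z2nb
import Fermat.Agent.S36.Z2mid
import Fermat.Agent.S36.ZMainC
import Fermat.Agent.S36.Z3a
import Fermat.Agent.S36.Z3b
import Fermat.Agent.S36.Z3
import Fermat.Agent.S36.ZLoc
import Fermat.Agent.S36.Deg

/-!
# S36 : Theorem Z, abstract form (`Stmt_ZAbs`), final assembly (helper93)
-/

set_option autoImplicit false

namespace Fermat.Agent.S36

/-- **Theorem Z, abstract form**, from the covering theorem and the local computation `DEG`. -/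
theorem stmt_ZAbs (hCOV : Stmt_COV') (hDEG : Stmt_DEG) : Stmt_ZAbs :=
  ZM.zabs_of stmt_Z1 (ZM.z2 stmt_Z2nb stmt_Z2mid) (stmt_Z3 stmt_Z3a (stmt_Z3b hDEG)) stmt_ZL
    stmt_ZOne stmt_ZHDiv hCOV

/-- **Theorem Z, abstract form**, from the covering theorem alone. -/
theorem stmt_ZAbs' (hCOV : Stmt_COV') : Stmt_ZAbs := stmt_ZAbs hCOV stmt_DEG

end Fermat.Agent.S36
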