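import Fermat.Agent.S36.Top.Main
import Fermat.Agent.S36.ZMain
import Fermat.Agent.S36.GeoFinal
import Fermat.Agent.S36.KumDesc
import Fermat.Agent.S36.Dict.AuxLevel
import Fermat.Agent.S36.Dict.Glue
import Fermat.Agent.S36.Dict.KumU
import Fermat.Agent.S36.Dict.KumW
import Fermat.Agent.S36.Dict.UA
import Fermat.Agent.S36.Dict.FU
import Fermat.Agent.S36.Dict.ULevel
import Fermat.Agent.S36.Dict.WAlg
import Fermat.Agent.S36.Base.DVR
import Fermat.Agent.S36.Base.Unram
import Fermat.Agent.S36.Base.Descent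
import Fermat.Agent.S36.Base.Span
import Fermat.Agent.S36.Base.Mu
import Fermat.Agent.FD.Main
import Fermat.Agent.INJ.Inst.ClaimKFull

/-!
# S36 : final chain (helper84)

`Stmt_COV'` + `Stmt_Inst`  ⟹  `Dict.Stmt_Z`  ⟹  the frozen statement (`Top.S36_of`).
-/

set_option autoImplicit false

namespace Fermat.Agent.S36

open Fermat.Agent.S36.Dict

theorem final_baseDescent : Stmt_BaseDescent := fun N _ A u h =>
  Base.stmt_Descent Base.stmt_Span A N u h

theorem final_baseRoot : Stmt_BaseRoot := fun r A hr hA m hm hrm c hc =>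
  (Base.stmt_Mu r A hr hA m hm.ne' hrm).2.2 c hc

theorem final_ZF (hCOV : Stmt_COV') (hInst : Stmt_Inst) : Stmt_ZF :=
  geoFinal (stmt_ZAbs' hCOV) hInst (Base.stmt_DVR Base.stmt_Unram) final_baseDescent final_baseRoot
    (kumDesc final_baseDescent) fu_mul (uLevel ua fu_mul) frickeGal fu_gal

theorem final_Z (hCOV : Stmt_COV') (hInst : Stmt_Inst) : Dict.Stmt_Z :=
  z_of_zf (kumU ua fu_mul) (uLevel ua fu_mul) kumW fu_mul
    (zfAll (aux fu_expand frickeRaise expandMem) (final_ZF hCOV hInst))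

end Fermat.Agent.S36
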