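import Fermat.Agent.S36.Inst.All
import Fermat.Agent.S36.Inst.FactsJ
import Fermat.Agent.S36.Phi.Out
import Fermat.Agent.S36.Phi.Deg
import Fermat.Agent.S36.Phi.Ord
import Fermat.Agent.S36.Phi.Sym
import Fermat.Agent.S36.Loc.Final
import Fermat.Agent.S36.Loc.Abs
import Fermat.Agent.S36.Loc.Cong
import Fermat.Agent.S36.Loc.MutC
import Fermat.Agent.S36.Loc.MutAbs
import Fermat.Agent.S36.Loc.Side
import Fermat.Agent.S36.Loc.IsoV
import Fermat.Agent.S36.Loc.AtV
import Fermat.Agent.S36.Loc.NorV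
import Fermat.Agent.S36.Loc.Type4
import Fermat.Agent.S36.Loc.Type9
import Fermat.Agent.S36.Loc.DichV
import Fermat.Agent.S36.Loc.CuspStep
import Fermat.Agent.S36.Loc.ValCrit
import Fermat.Agent.S36.GRE.All
import Fermat.Agent.CAR.Unit.Main2

/-!
# S36 : `Stmt_Inst`, unconditional (assembly helper84)
-/

set_option autoImplicit false

namespace Fermat.Agent.S36

theorem instFinal_Phi : Phi.Stmt_Phi := Phi.phi (Phi.phiDeg Phi.phiOrd Phi.phiSym)

theorem instFinal_Mut : Loc.Stmt_Mut :=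
  Loc.mutC (Loc.mutAbs Loc.valCrit Loc.dichV Loc.cuspStep) Loc.mutTrans Loc.type4 Loc.type9
    instFinal_Phi Base.all_Mu

theorem instFinal_LocAbs : Loc.Stmt_LocAbs :=
  Loc.locAbs (Loc.side Loc.isoV Loc.norV Val.stmt_CenAbs) Loc.locAtV Val.stmt_VertInv

theorem instFinal_Loc : Inst.Stmt_LocInst :=
  Loc.locInst instFinal_LocAbs instFinal_Mut Loc.cong' GRE.all_LiftGre GRE.all_GoodCoord

theorem stmt_Inst : Stmt_Inst :=
  Inst.inst_all (Inst.factsJ instFinal_Phi) CAR.Unit.U.facts instFinal_Loc GRE.all_GoodCoord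

end Fermat.Agent.S36
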