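import Fermat.Agent.KL.Glue
import Fermat.Agent.KL.TKInterface

/-!
# S36 / BR : connectedness of the special fibre, general form

Generalisation of `KL.Stmt_idempotentLift`, `KL.Stmt_glue` from `LocIrred` (pairwise disjoint
components) to an arbitrary *class* `C` of minimal primes over `ϖ` such that no maximal ideal
contains a minimal prime in `C` and one outside `C`.  Together with `KL.Stmt_TK4` this gives:
the special fibre of the normal model is connected.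
-/

set_option autoImplicit false

namespace Fermat.Agent.S36

open Fermat.Agent.KL

/-- `C` is a union of connected components of `V(ϖ)`: no maximal ideal contains a minimal prime
over `ϖ` in `C` and another one outside `C`. -/
def IsClopenClass {B : Type} [CommRing B] (ϖ : B) (C : Set (Ideal B)) : Prop :=
  ∀ 𝔫 : Ideal B, 𝔫.IsMaximal → ∀ P ∈ (Ideal.span {ϖ}).minimalPrimes,
    ∀ Q ∈ (Ideal.span {ϖ}).minimalPrimes, P ≤ 𝔫 → Q ≤ 𝔫 → P ∈ C → Q ∈ C

namespace Conn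

variable {B : Type} [CommRing B]

theorem sup_eq_top {ϖ : B} {C : Set (Ideal B)} (h : IsClopenClass ϖ C) {P Q : Ideal B}
    (hP : P ∈ (Ideal.span {ϖ}).minimalPrimes) (hQ : Q ∈ (Ideal.span {ϖ}).minimalPrimes)
    (hPC : P ∈ C) (hQC : Q ∉ C) : P ⊔ Q = ⊤ := by
  by_contra hcon
  obtain ⟨𝔫, h𝔫, hle⟩ := Ideal.exists_le_maximal _ hcon
  exact hQC (h 𝔫 h𝔫 P hP Q hQ (le_sup_left.trans hle) (le_sup_right.trans hle) hPC)

/-- the first approximation -/
theorem exists_a0 [IsNoetherianRing B] {ϖ : B} {C : Set (Ideal B)} (h : IsClopenClass ϖ C) :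
    ∃ a : B, (∀ P ∈ (Ideal.span {ϖ}).minimalPrimes, P ∈ C → a ∈ P) ∧
      ∀ Q ∈ (Ideal.span {ϖ}).minimalPrimes, Q ∉ C → a - 1 ∈ Q := by
  classical
  have hfin : ((Ideal.span {ϖ}).minimalPrimes).Finite :=
    Ideal.finite_minimalPrimes_of_isNoetherianRing B _
  set T₁ : Finset (Ideal B) := hfin.toFinset.filter (· ∈ C) with hT₁
  set T₂ : Finset (Ideal B) := hfin.toFinset.filter (· ∉ C) with hT₂
  have hcop : (⨅ P ∈ T₁, (P : Ideal B)) ⊔ ⨅ Q ∈ T₂, (Q : Ideal B) = ⊤ := by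
    refine Ideal.sup_iInf_eq_top fun Q hQ => ?_
    rw [sup_comm]
    refine Ideal.sup_iInf_eq_top fun P hP => ?_
    rw [hT₁, Finset.mem_filter, Set.Finite.mem_toFinset] at hP
    rw [hT₂, Finset.mem_filter, Set.Finite.mem_toFinset] at hQ
    rw [sup_comm]
    exact sup_eq_top h hP.1 hQ.1 hP.2 hQ.2
  obtain ⟨a, ha, b, hb, hab⟩ := Submodule.mem_sup.1 ((Ideal.eq_top_iff_one _).1 hcop)
  refine ⟨a, fun P hP hPC => ?_, fun Q hQ hQC => ?_⟩
  · rw [Submodule.mem_iInf] at ha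
    have := ha P
    rw [Submodule.mem_iInf] at this
    exact this (by rw [hT₁, Finset.mem_filter, Set.Finite.mem_toFinset]; exact ⟨hP, hPC⟩)
  · have hb' : b ∈ Q := by
      rw [Submodule.mem_iInf] at hb
      have := hb Q
      rw [Submodule.mem_iInf] at this
      exact this (by rw [hT₂, Finset.mem_filter, Set.Finite.mem_toFinset]; exact ⟨hQ, hQC⟩)
    have : a - 1 = -b := by rw [← hab]; ring
    rw [this]
    exact Q.neg_mem hb'

/-- idempotents modulo `ϖ ^ n` attached to a clopen class -/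
theorem idempotentLift [IsNoetherianRing B] {ϖ : B} {C : Set (Ideal B)} (h : IsClopenClass ϖ C)
    (n : ℕ) : ∃ a : B, ϖ ^ n ∣ a * a - a ∧
      (∀ P ∈ (Ideal.span {ϖ}).minimalPrimes, P ∈ C → a ∈ P) ∧
      ∀ Q ∈ (Ideal.span {ϖ}).minimalPrimes, Q ∉ C → a - 1 ∈ Q := by
  obtain ⟨a0, ha0, ha0'⟩ := exists_a0 h
  rcases Nat.eq_zero_or_pos n with rfl | hn
  · exact ⟨a0, by simp, ha0, ha0'⟩
  set I : Ideal B := Ideal.span {ϖ} with hI
  set J : Ideal B := Ideal.span {ϖ ^ n} with hJ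
  have hJI : J = I ^ n := by rw [hI, hJ, Ideal.span_singleton_pow]
  have hle : J ≤ I.radical := by
    rw [hJI]
    exact (Ideal.pow_le_self hn.ne').trans Ideal.le_radical
  have hrad_le : ∀ Q ∈ I.minimalPrimes, I.radical ≤ Q := by
    intro Q hQ
    rw [← Ideal.sInf_minimalPrimes]
    exact sInf_le hQ
  have hrad : a0 * a0 - a0 ∈ I.radical := by
    rw [← Ideal.sInf_minimalPrimes, Submodule.mem_sInf]
    intro Q hQ
    have e : a0 * a0 - a0 = a0 * (a0 - 1) := by ring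
    rw [e]
    by_cases hQC : Q ∈ C
    · exact Ideal.mul_mem_right _ Q (ha0 Q hQ hQC)
    · exact Ideal.mul_mem_left Q _ (ha0' Q hQ hQC)
  let f : B ⧸ J →+* B ⧸ I.radical := Ideal.Quotient.factor hle
  have hker : ∀ x ∈ RingHom.ker f, IsNilpotent x := by
    intro x hx
    obtain ⟨y, rfl⟩ := Ideal.Quotient.mk_surjective x
    rw [RingHom.mem_ker, Ideal.Quotient.factor_mk, Ideal.Quotient.eq_zero_iff_mem] at hx
    obtain ⟨k, hk⟩ := hx
    refine ⟨k * n, ?_⟩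
    rw [← map_pow, Ideal.Quotient.eq_zero_iff_mem, hJI, pow_mul]
    exact Ideal.pow_mem_pow hk n
  have hidem : IsIdempotentElem (Ideal.Quotient.mk I.radical a0) := by
    unfold IsIdempotentElem
    rw [← map_mul, Ideal.Quotient.eq]
    exact hrad
  obtain ⟨e', he', hfe'⟩ := exists_isIdempotentElem_eq_of_ker_isNilpotent f hker
    (Ideal.Quotient.mk I.radical a0) ⟨Ideal.Quotient.mk J a0, Ideal.Quotient.factor_mk _ _⟩ hidem
  obtain ⟨a, rfl⟩ := Ideal.Quotient.mk_surjective e'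
  have h1 : a * a - a ∈ J := by
    unfold IsIdempotentElem at he'
    rw [← map_mul, Ideal.Quotient.eq] at he'
    exact he'
  have h2 : a - a0 ∈ I.radical := by
    rw [Ideal.Quotient.factor_mk, Ideal.Quotient.eq] at hfe'
    exact hfe'
  refine ⟨a, Ideal.mem_span_singleton.1 h1, ?_, ?_⟩
  · intro P hP hPC
    have : a = (a - a0) + a0 := by ring
    rw [this]
    exact P.add_mem (hrad_le P hP h2) (ha0 P hP hPC)
  · intro Q hQ hQC
    have : a - 1 = (a - a0) + (a0 - 1) := by ring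
    rw [this]
    exact Q.add_mem (hrad_le Q hQ h2) (ha0' Q hQ hQC)

end Conn

open G1b Conn in
/-- gluing the idempotents of two compatible clopen classes on two charts -/
theorem glueClass (B₁ B₂ BB : Type) [CommRing B₁] [CommRing B₂] [CommRing BB]
    [IsNoetherianRing B₁] [IsNoetherianRing B₂] [Algebra B₁ BB] [Algebra B₂ BB] (t : B₁) (s : B₂)
    [IsLocalization.Away t BB] [IsLocalization.Away s BB] (ϖ₁ : B₁) (ϖ₂ : B₂)
    (hϖ : algebraMap B₁ BB ϖ₁ = algebraMap B₂ BB ϖ₂)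
    (C₁ : Set (Ideal B₁)) (C₂ : Set (Ideal B₂))
    (h₁ : IsClopenClass ϖ₁ C₁) (h₂ : IsClopenClass ϖ₂ C₂)
    (hcompat : ∀ PP ∈ (Ideal.span {algebraMap B₁ BB ϖ₁}).minimalPrimes,
      (PP.under B₁ ∈ C₁ ↔ PP.under B₂ ∈ C₂)) (n : ℕ) :
    ∃ (a : B₁) (b : B₂), (∀ P ∈ (Ideal.span {ϖ₁}).minimalPrimes, P ∈ C₁ → a ∈ P) ∧
      (∀ Q ∈ (Ideal.span {ϖ₁}).minimalPrimes, Q ∉ C₁ → a - 1 ∈ Q) ∧
      algebraMap B₁ BB ϖ₁ ^ n ∣ algebraMap B₁ BB a - algebraMap B₂ BB b := by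
  obtain ⟨a, ha, haP, haQ⟩ := idempotentLift h₁ n
  obtain ⟨b, hb, hbP, hbQ⟩ := idempotentLift h₂ n
  set π : BB := algebraMap B₁ BB ϖ₁ with hπ
  have hmap₁ : (Ideal.span {ϖ₁}).map (algebraMap B₁ BB) = Ideal.span {π} := by
    rw [Ideal.map_span, Set.image_singleton]
  have hmap₂ : (Ideal.span {ϖ₂}).map (algebraMap B₂ BB) = Ideal.span {π} := by
    rw [Ideal.map_span, Set.image_singleton, ← hϖ]
  refine ⟨a, b, haP, haQ, ?_⟩
  set α : BB := algebraMap B₁ BB a with hα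
  set β : BB := algebraMap B₂ BB b with hβ
  have hrad : α - β ∈ (Ideal.span {π}).radical := by
    rw [← Ideal.sInf_minimalPrimes, Ideal.mem_sInf]
    intro PP hPP
    have hu₁ : PP.under B₁ ∈ (Ideal.span {ϖ₁}).minimalPrimes :=
      under_mem_minimalPrimes t _ (by rw [hmap₁]; exact hPP)
    have hu₂ : PP.under B₂ ∈ (Ideal.span {ϖ₂}).minimalPrimes :=
      under_mem_minimalPrimes s _ (by rw [hmap₂]; exact hPP)
    by_cases hcase : PP.under B₁ ∈ C₁
    · have h1 : α ∈ PP := haP _ hu₁ hcase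
      have h2 : β ∈ PP := hbP _ hu₂ ((hcompat PP hPP).mp hcase)
      exact PP.sub_mem h1 h2
    · have h1 : a - 1 ∈ PP.under B₁ := haQ _ hu₁ hcase
      have h2 : b - 1 ∈ PP.under B₂ := hbQ _ hu₂ (fun h => hcase ((hcompat PP hPP).mpr h))
      have h1' : α - 1 ∈ PP := by
        have : algebraMap B₁ BB (a - 1) ∈ PP := h1
        rwa [map_sub, map_one] at this
      have h2' : β - 1 ∈ PP := by
        have : algebraMap B₂ BB (b - 1) ∈ PP := h2
        rwa [map_sub, map_one] at this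
      have := PP.sub_mem h1' h2'
      rwa [sub_sub_sub_cancel_right] at this
  obtain ⟨m, hm⟩ := hrad
  rw [← Ideal.mem_span_singleton]
  refine sub_mem_of_idempotent _ α β ?_ ?_ (m * n) ?_
  · rw [Ideal.mem_span_singleton]
    have := map_dvd (algebraMap B₁ BB) ha
    rwa [map_pow, map_sub, map_mul] at this
  · rw [Ideal.mem_span_singleton]
    have := map_dvd (algebraMap B₂ BB) hb
    rwa [map_pow, map_sub, map_mul, ← hϖ] at this
  · rw [Ideal.mem_span_singleton] at hm ⊢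
    rw [pow_mul]
    exact pow_dvd_pow_of_dvd hm n

/-- **Connectedness of the special fibre** (abstract two-chart form): if `BB / (B₁ + B₂)` is a
finitely generated `A₀`-module and `B₁ ∩ B₂ = A₀`, a pair of compatible clopen classes of vertical
components is empty or everything. -/
theorem conn (hTK4 : Stmt_TK4) (A₀ B₁ B₂ BB : Type) [CommRing A₀] [IsDomain A₀]
    [IsDiscreteValuationRing A₀]
    [CommRing B₁] [CommRing B₂] [CommRing BB] [IsNoetherianRing B₁] [IsNoetherianRing B₂]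
    [Algebra A₀ B₁] [Algebra A₀ B₂] [Algebra A₀ BB]
    [Algebra B₁ BB] [Algebra B₂ BB] [IsScalarTower A₀ B₁ BB] [IsScalarTower A₀ B₂ BB] (ϖ : A₀)
    (hϖ : Irreducible ϖ) (t : B₁) (s : B₂) [IsLocalization.Away t BB] [IsLocalization.Away s BB]
    (hH1 : ∃ N : Submodule A₀ BB, N.FG ∧ ∀ y : BB, ∃ (a : B₁) (b : B₂), ∃ n ∈ N,
      y = algebraMap B₁ BB a + algebraMap B₂ BB b + n)
    (hH0 : ∀ (a : B₁) (b : B₂), algebraMap B₁ BB a = algebraMap B₂ BB b →
      ∃ α : A₀, a = algebraMap A₀ B₁ α)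
    (C₁ : Set (Ideal B₁)) (C₂ : Set (Ideal B₂))
    (h₁ : IsClopenClass (algebraMap A₀ B₁ ϖ) C₁) (h₂ : IsClopenClass (algebraMap A₀ B₂ ϖ) C₂)
    (hcompat : ∀ PP ∈ (Ideal.span {algebraMap A₀ BB ϖ}).minimalPrimes,
      (PP.under B₁ ∈ C₁ ↔ PP.under B₂ ∈ C₂))
    (P Q : Ideal B₁) (hP : P ∈ (Ideal.span {algebraMap A₀ B₁ ϖ}).minimalPrimes)
    (hQ : Q ∈ (Ideal.span {algebraMap A₀ B₁ ϖ}).minimalPrimes) (hPC : P ∈ C₁) : Q ∈ C₁ := by
  by_contra hQC
  have e₁ : algebraMap B₁ BB (algebraMap A₀ B₁ ϖ) = algebraMap A₀ BB ϖ :=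
    (IsScalarTower.algebraMap_apply A₀ B₁ BB ϖ).symm
  have e₂ : algebraMap B₂ BB (algebraMap A₀ B₂ ϖ) = algebraMap A₀ BB ϖ :=
    (IsScalarTower.algebraMap_apply A₀ B₂ BB ϖ).symm
  refine hTK4 A₀ B₁ B₂ BB ϖ hϖ hH1 hH0 P Q hP.1.1 hQ.1.1
    (hP.1.2 (Ideal.mem_span_singleton_self _)) (hQ.1.2 (Ideal.mem_span_singleton_self _))
    fun n => ?_
  obtain ⟨a, b, haP, haQ, hab⟩ := glueClass B₁ B₂ BB t s (algebraMap A₀ B₁ ϖ) (algebraMap A₀ B₂ ϖ)
    (e₁.trans e₂.symm) C₁ C₂ h₁ h₂ (by rw [e₁]; exact hcompat) n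
  exact ⟨a, b, haP P hP hPC, haQ Q hQ hQC, by rw [← e₁]; exact hab⟩

end Fermat.Agent.S36
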