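import Fermat.Agent.S36.CovLabel

/-!
# S36 / ABS-COV : the abstract two-chart theorem

* `posAt_under_away` : `PosAt` is insensitive to the localisation `C → C[1/t]`;
* `isClopenClass_transfer` : clopen-ness at the points of the second chart with `s ≠ 0` follows from
  the first chart;
* `labels_const` : all the vertical primes of the Kummer covering have the same label;
* `fixed_of_labels_const` : hence every automorphism fixes `y`.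
-/

set_option autoImplicit false
set_option linter.unusedSectionVars false

namespace Fermat.Agent.S36.Cov

open Fermat.Agent.S36 Fermat.Agent.KL

/-! ### localisation -/

section Away

variable {C CC F' : Type*} [CommRing C] [CommRing CC] [Field F'] [Algebra C CC] [Algebra C F']
  [Algebra CC F'] [IsScalarTower C CC F']

theorem posAt_under_away (t : C) [IsLocalization.Away t CC] {PP : Ideal CC} (hPP : PP.IsPrime)
    (z : F') : PosAt (PP.under C) z ↔ PosAt PP z := by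
  constructor
  · rintro ⟨s, hs, p, hp, e⟩
    exact ⟨algebraMap C CC s, hs, algebraMap C CC p, hp, by
      rw [← IsScalarTower.algebraMap_apply C CC F', ← IsScalarTower.algebraMap_apply C CC F', e]⟩
  · rintro ⟨S, hS, p', hp', e⟩
    obtain ⟨⟨s, a⟩, hs⟩ := IsLocalization.surj (Submonoid.powers t) S
    obtain ⟨⟨p, b⟩, hp⟩ := IsLocalization.surj (Submonoid.powers t) p'
    simp only at hs hp
    have ha : IsUnit (algebraMap C CC a) := IsLocalization.map_units CC a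
    have hb : IsUnit (algebraMap C CC b) := IsLocalization.map_units CC b
    have hnot : ∀ {v : CC}, IsUnit v → v ∉ PP := fun hv hmem =>
      hPP.ne_top (Ideal.eq_top_of_isUnit_mem _ hmem hv)
    refine ⟨s * b, ?_, p * a, ?_, ?_⟩
    · intro hmem
      have h1 : algebraMap C CC (s * b) ∈ PP := hmem
      rw [map_mul, ← hs] at h1
      rcases hPP.mem_or_mem h1 with h2 | h2
      · rcases hPP.mem_or_mem h2 with h3 | h3
        · exact hS h3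
        · exact hnot ha h3
      · exact hnot hb h2
    · show algebraMap C CC (p * a) ∈ PP
      rw [map_mul, ← hp]
      exact PP.mul_mem_right _ (PP.mul_mem_right _ hp')
    · rw [IsScalarTower.algebraMap_apply C CC F', IsScalarTower.algebraMap_apply C CC F',
        map_mul (algebraMap C CC), map_mul (algebraMap C CC), ← hs, ← hp, map_mul, map_mul,
        map_mul, map_mul, ← e]
      ring

end Away

/-! ### transfer of clopen-ness -/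

open G1b in
theorem isClopenClass_transfer (B₁ B₂ BB : Type) [CommRing B₁] [CommRing B₂] [CommRing BB]
    [Algebra B₁ BB] [Algebra B₂ BB] (t : B₁) (s : B₂)
    [IsLocalization.Away t BB] [IsLocalization.Away s BB] (ϖ₁ : B₁) (ϖ₂ : B₂)
    (hϖ : algebraMap B₁ BB ϖ₁ = algebraMap B₂ BB ϖ₂)
    (C₁ : Set (Ideal B₁)) (C₂ : Set (Ideal B₂)) (h₁ : IsClopenClass ϖ₁ C₁)
    (hcompat : ∀ PP ∈ (Ideal.span {algebraMap B₁ BB ϖ₁}).minimalPrimes,
      (PP.under B₁ ∈ C₁ ↔ PP.under B₂ ∈ C₂))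
    (h₂ : ∀ 𝔫 : Ideal B₂, 𝔫.IsMaximal → s ∈ 𝔫 → ∀ P ∈ (Ideal.span {ϖ₂}).minimalPrimes,
      ∀ Q ∈ (Ideal.span {ϖ₂}).minimalPrimes, P ≤ 𝔫 → Q ≤ 𝔫 → P ∈ C₂ → Q ∈ C₂) :
    IsClopenClass ϖ₂ C₂ := by
  intro 𝔫 h𝔫 P' hP' Q' hQ' hP'𝔫 hQ'𝔫 hP'C
  by_cases hs : s ∈ 𝔫
  · exact h₂ 𝔫 h𝔫 hs P' hP' Q' hQ' hP'𝔫 hQ'𝔫 hP'C
  set π : BB := algebraMap B₁ BB ϖ₁ with hπ
  have hmap₁ : (Ideal.span {ϖ₁}).map (algebraMap B₁ BB) = Ideal.span {π} := by
    rw [Ideal.map_span, Set.image_singleton]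
  have hmap₂ : (Ideal.span {ϖ₂}).map (algebraMap B₂ BB) = Ideal.span {π} := by
    rw [Ideal.map_span, Set.image_singleton, ← hϖ]
  have hsP' : s ∉ P' := fun h => hs (hP'𝔫 h)
  have hsQ' : s ∉ Q' := fun h => hs (hQ'𝔫 h)
  have hNN : (𝔫.map (algebraMap B₂ BB)).IsPrime := isPrime_map_of_notMem s h𝔫.isPrime hs
  have hN₁ : ((𝔫.map (algebraMap B₂ BB)).under B₁).IsPrime := Ideal.IsPrime.under B₁ _
  obtain ⟨𝔪, h𝔪, hle⟩ := Ideal.exists_le_maximal _ hN₁.ne_top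
  have hPP : P'.map (algebraMap B₂ BB) ∈ (Ideal.span {π}).minimalPrimes := by
    rw [← hmap₂]; exact map_mem_minimalPrimes s _ hP' hsP'
  have hQQ : Q'.map (algebraMap B₂ BB) ∈ (Ideal.span {π}).minimalPrimes := by
    rw [← hmap₂]; exact map_mem_minimalPrimes s _ hQ' hsQ'
  have hPmin : (P'.map (algebraMap B₂ BB)).under B₁ ∈ (Ideal.span {ϖ₁}).minimalPrimes :=
    under_mem_minimalPrimes t _ (by rw [hmap₁]; exact hPP)
  have hQmin : (Q'.map (algebraMap B₂ BB)).under B₁ ∈ (Ideal.span {ϖ₁}).minimalPrimes :=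
    under_mem_minimalPrimes t _ (by rw [hmap₁]; exact hQQ)
  have h3 : (P'.map (algebraMap B₂ BB)).under B₁ ∈ C₁ := by
    rw [hcompat _ hPP, under_map_of_notMem (BB := BB) s hP'.1.1 hsP']
    exact hP'C
  have h4 := h₁ 𝔪 h𝔪 _ hPmin _ hQmin
    ((Ideal.comap_mono (Ideal.map_mono hP'𝔫)).trans hle)
    ((Ideal.comap_mono (Ideal.map_mono hQ'𝔫)).trans hle) h3
  rw [hcompat _ hQQ, under_map_of_notMem (BB := BB) s hQ'.1.1 hsQ'] at h4
  exact h4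

/-! ### the label classes, pointwise form -/

section Label

variable {A₀ B F C F' : Type} [CommRing A₀] [IsDomain A₀] [CommRing B] [Field F] [Algebra B F]
  [CommRing C] [Field F'] [Algebra C F'] [Algebra B C] [Algebra F F'] [Algebra B F']
  [IsScalarTower B C F'] [IsScalarTower B F F'] [IsIntegralClosure C B F']
  [Algebra A₀ C] [Algebra A₀ F'] [IsScalarTower A₀ C F']

theorem cls_at {m : ℕ} (hm : 0 < m) (hmu : IsUnit (m : A₀)) {ζ : A₀}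
    (hζ : IsPrimitiveRoot ζ m) {u : F} {y : F'} (hy : y ^ m = algebraMap F F' u) (ϖ : B)
    (hcontr : ∀ P ∈ (Ideal.span {algebraMap B C ϖ}).minimalPrimes,
      P.under B ∈ (Ideal.span {ϖ}).minimalPrimes)
    (hpos : ∀ P ∈ (Ideal.span {ϖ}).minimalPrimes, PosAt P (u - 1)) {ξ : A₀} (hξ : ξ ^ m = 1)
    (𝔫 : Ideal C) (h𝔫 : 𝔫.IsMaximal) (hgood : GoodAt ϖ m u (𝔫.under B))
    (P : Ideal C) (hP : P ∈ (Ideal.span {algebraMap B C ϖ}).minimalPrimes)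
    (Q : Ideal C) (hQ : Q ∈ (Ideal.span {algebraMap B C ϖ}).minimalPrimes)
    (hP𝔫 : P ≤ 𝔫) (hQ𝔫 : Q ≤ 𝔫) (hPξ : P ∈ Cls C y ξ) : Q ∈ Cls C y ξ := by
  obtain ⟨w, hw, hU, hV⟩ := hgood
  obtain ⟨ξ', hξ', hQξ'⟩ := exists_label (B := B) hm hζ hy hQ.1.1 (hpos _ (hcontr Q hQ))
  have h1 := local_value hm hy hw h𝔫.isPrime hP.1.1 hP𝔫 hU
    (hV _ (hcontr P hP) (Ideal.comap_mono hP𝔫)) hPξ
  have h2 := local_value hm hy hw h𝔫.isPrime hQ.1.1 hQ𝔫 hU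
    (hV _ (hcontr Q hQ) (Ideal.comap_mono hQ𝔫)) hQξ'
  have h3 := label_unique (B := B) hm hmu h𝔫.isPrime hξ hξ' h1 h2
  show PosAt Q (y - algebraMap A₀ F' ξ)
  rw [h3]
  exact hQξ'

end Label

/-! ### all labels are equal -/

theorem labels_const (hTK4 : Stmt_TK4) (A₀ F F' B₁ B₂ C₁ C₂ CC : Type)
    [CommRing A₀] [IsDomain A₀] [IsDiscreteValuationRing A₀] [Field F] [Field F'] [Algebra F F']
    [CommRing B₁] [CommRing B₂] [Algebra B₁ F] [Algebra B₂ F]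
    [CommRing C₁] [CommRing C₂] [CommRing CC] [IsNoetherianRing C₁] [IsNoetherianRing C₂]
    [Algebra C₁ F'] [Algebra C₂ F'] [Algebra CC F']
    [Algebra B₁ C₁] [Algebra B₂ C₂] [Algebra B₁ F'] [Algebra B₂ F']
    [IsScalarTower B₁ C₁ F'] [IsScalarTower B₁ F F'] [IsIntegralClosure C₁ B₁ F']
    [IsScalarTower B₂ C₂ F'] [IsScalarTower B₂ F F'] [IsIntegralClosure C₂ B₂ F']
    [Algebra A₀ C₁] [Algebra A₀ C₂] [Algebra A₀ CC] [Algebra A₀ F']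
    [IsScalarTower A₀ C₁ F'] [IsScalarTower A₀ C₂ F']
    [Algebra C₁ CC] [Algebra C₂ CC] [IsScalarTower A₀ C₁ CC] [IsScalarTower A₀ C₂ CC]
    [IsScalarTower C₁ CC F'] [IsScalarTower C₂ CC F']
    (ϖ : A₀) (hϖ : Irreducible ϖ) (t₁ : C₁) (t₂ : C₂)
    [IsLocalization.Away t₁ CC] [IsLocalization.Away t₂ CC]
    (hH1 : ∃ N : Submodule A₀ CC, N.FG ∧ ∀ y : CC, ∃ (a : C₁) (b : C₂), ∃ n ∈ N,
      y = algebraMap C₁ CC a + algebraMap C₂ CC b + n)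
    (hH0 : ∀ (a : C₁) (b : C₂), algebraMap C₁ CC a = algebraMap C₂ CC b →
      ∃ α : A₀, a = algebraMap A₀ C₁ α)
    (ϖ₁ : B₁) (ϖ₂ s₂ : B₂) (hϖ₁ : algebraMap B₁ C₁ ϖ₁ = algebraMap A₀ C₁ ϖ)
    (hϖ₂ : algebraMap B₂ C₂ ϖ₂ = algebraMap A₀ C₂ ϖ) (hs₂ : algebraMap B₂ C₂ s₂ = t₂)
    (hcontr₁ : ∀ P ∈ (Ideal.span {algebraMap B₁ C₁ ϖ₁}).minimalPrimes,
      P.under B₁ ∈ (Ideal.span {ϖ₁}).minimalPrimes)
    (hcontr₂ : ∀ P ∈ (Ideal.span {algebraMap B₂ C₂ ϖ₂}).minimalPrimes,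
      P.under B₂ ∈ (Ideal.span {ϖ₂}).minimalPrimes)
    (m : ℕ) (hm : 0 < m) (hmu : IsUnit (m : A₀)) (ζ : A₀) (hζ : IsPrimitiveRoot ζ m) (u : F)
    (y : F') (hy : y ^ m = algebraMap F F' u) (hg₁ : GoodChart ϖ₁ m u)
    (hpos₂ : ∀ P ∈ (Ideal.span {ϖ₂}).minimalPrimes, PosAt P (u - 1))
    (hg₂ : ∀ 𝔫 : Ideal B₂, 𝔫.IsMaximal → ϖ₂ ∈ 𝔫 → s₂ ∈ 𝔫 → GoodAt ϖ₂ m u 𝔫)
    (P Q : Ideal C₁) (hP : P ∈ (Ideal.span {algebraMap B₁ C₁ ϖ₁}).minimalPrimes)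
    (hQ : Q ∈ (Ideal.span {algebraMap B₁ C₁ ϖ₁}).minimalPrimes) (ξ : A₀) (hξ : ξ ^ m = 1)
    (hPξ : PosAt P (y - algebraMap A₀ F' ξ)) : PosAt Q (y - algebraMap A₀ F' ξ) := by
  have h₁ : IsClopenClass (algebraMap A₀ C₁ ϖ) (Cls C₁ y ξ) := by
    rw [← hϖ₁]
    exact isClopenClass_cls hm hmu hζ hy ϖ₁ hcontr₁ hg₁ hξ
  have hcompat : ∀ PP ∈ (Ideal.span {algebraMap A₀ CC ϖ}).minimalPrimes,
      (PP.under C₁ ∈ Cls C₁ y ξ ↔ PP.under C₂ ∈ Cls C₂ y ξ) := fun PP hPP =>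
    (posAt_under_away t₁ hPP.1.1 _).trans (posAt_under_away t₂ hPP.1.1 _).symm
  have e₁ : algebraMap C₁ CC (algebraMap A₀ C₁ ϖ) = algebraMap A₀ CC ϖ :=
    (IsScalarTower.algebraMap_apply A₀ C₁ CC ϖ).symm
  have e₂ : algebraMap C₂ CC (algebraMap A₀ C₂ ϖ) = algebraMap A₀ CC ϖ :=
    (IsScalarTower.algebraMap_apply A₀ C₂ CC ϖ).symm
  have h₂ : IsClopenClass (algebraMap A₀ C₂ ϖ) (Cls C₂ y ξ) := by
    refine isClopenClass_transfer C₁ C₂ CC t₁ t₂ _ _ (e₁.trans e₂.symm) _ _ h₁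
      (by rw [e₁]; exact hcompat) ?_
    intro 𝔫 h𝔫 hs P' hP' Q' hQ' hP'𝔫 hQ'𝔫 hP'C
    rw [← hϖ₂] at hP' hQ'
    have : Algebra.IsIntegral B₂ C₂ := IsIntegralClosure.isIntegral_algebra B₂ F'
    have hmax : (𝔫.under B₂).IsMaximal := Ideal.isMaximal_comap_of_isIntegral_of_isMaximal 𝔫
    have hϖ𝔫 : ϖ₂ ∈ 𝔫.under B₂ := hP'𝔫 (hP'.1.2 (Ideal.mem_span_singleton_self _))
    have hs𝔫 : s₂ ∈ 𝔫.under B₂ := by
      show algebraMap B₂ C₂ s₂ ∈ 𝔫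
      rw [hs₂]; exact hs
    exact cls_at hm hmu hζ hy ϖ₂ hcontr₂ hpos₂ hξ 𝔫 h𝔫 (hg₂ _ hmax hϖ𝔫 hs𝔫) P' hP' Q' hQ'
      hP'𝔫 hQ'𝔫 hP'C
  rw [hϖ₁] at hP hQ
  exact conn hTK4 A₀ C₁ C₂ CC ϖ hϖ t₁ t₂ hH1 hH0 _ _ h₁ h₂ hcompat P Q hP hQ hPξ

/-! ### the Galois action on the labels -/

section Equiv

variable {C F' : Type*} [CommRing C] [Field F'] [Algebra C F']

theorem posAt_translate (σ : C ≃+* C) (τ : F' →+* F')
    (hστ : ∀ c, algebraMap C F' (σ c) = τ (algebraMap C F' c)) {P : Ideal C} {z : F'}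
    (h : PosAt P z) : PosAt (P.comap (σ.symm : C →+* C)) (τ z) := by
  obtain ⟨s, hs, p, hp, e⟩ := h
  refine ⟨σ s, ?_, σ p, ?_, ?_⟩
  · intro hmem
    rw [Ideal.mem_comap] at hmem
    apply hs
    simpa using hmem
  · rw [Ideal.mem_comap]
    simpa using hp
  · rw [hστ, hστ, ← map_mul, e]

theorem translate_mem_minimalPrimes (σ : C ≃+* C) {ϖ : C} (hσ : σ ϖ = ϖ) {P : Ideal C}
    (hP : P ∈ (Ideal.span {ϖ}).minimalPrimes) :
    P.comap (σ.symm : C →+* C) ∈ (Ideal.span {ϖ}).minimalPrimes := by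
  have hσ' : σ.symm ϖ = ϖ := by rw [RingEquiv.symm_apply_eq, hσ]
  have hP1 := hP.1.1
  refine ⟨⟨Ideal.comap_isPrime _ _, ?_⟩, ?_⟩
  · rw [Ideal.span_singleton_le_iff_mem, Ideal.mem_comap]
    show σ.symm ϖ ∈ P
    rw [hσ']
    exact hP.1.2 (Ideal.mem_span_singleton_self _)
  · rintro Q ⟨hQ, hQϖ⟩ hle
    have h1 : P ≤ Q.comap (σ : C →+* C) := by
      refine hP.2 ⟨Ideal.comap_isPrime _ _, ?_⟩ ?_
      · rw [Ideal.span_singleton_le_iff_mem, Ideal.mem_comap]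
        show σ ϖ ∈ Q
        rw [hσ]
        exact hQϖ (Ideal.mem_span_singleton_self _)
      · intro c hc
        have := hle hc
        rw [Ideal.mem_comap] at this
        simpa using this
    intro c hc
    have := h1 hc
    rw [Ideal.mem_comap] at this
    simpa using this

end Equiv

section Galois

variable {A₀ B F C F' : Type} [CommRing A₀] [IsDomain A₀] [CommRing B] [Field F] [Algebra B F]
  [IsFractionRing B F]
  [CommRing C] [Field F'] [Algebra C F'] [Algebra B C] [Algebra F F'] [Algebra B F']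
  [IsScalarTower B C F'] [IsScalarTower B F F'] [IsIntegralClosure C B F']
  [Algebra.IsAlgebraic F F']
  [Algebra A₀ C] [Algebra A₀ F'] [IsScalarTower A₀ C F'] [Algebra A₀ F] [IsScalarTower A₀ F F']

theorem fixed_of_labels_const (hinj : Function.Injective (algebraMap A₀ F'))
    {m : ℕ} (hm : 0 < m) (hmu : IsUnit (m : A₀)) {ζ : A₀}
    (hζ : IsPrimitiveRoot ζ m) {u : F} (hu : u ≠ 0) {y : F'} (hy : y ^ m = algebraMap F F' u)
    (ϖ : B) (P : Ideal C) (hP : P ∈ (Ideal.span {algebraMap B C ϖ}).minimalPrimes)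
    (hpos : PosAt (P.under B) (u - 1))
    (hconst : ∀ Q ∈ (Ideal.span {algebraMap B C ϖ}).minimalPrimes, ∀ ξ : A₀, ξ ^ m = 1 →
      PosAt P (y - algebraMap A₀ F' ξ) → PosAt Q (y - algebraMap A₀ F' ξ))
    (τ : F' ≃ₐ[F] F') : τ y = y := by
  obtain ⟨ξ, hξ, hPξ⟩ := exists_label (B := B) hm hζ hy hP.1.1 hpos
  set σ : C ≃ₐ[B] C := galRestrict B F F' C τ with hσ
  have hστ : ∀ c, algebraMap C F' (σ.toRingEquiv c) = (τ : F' →+* F') (algebraMap C F' c) :=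
    fun c => algebraMap_galRestrict_apply B τ c
  set Q : Ideal C := P.comap (σ.toRingEquiv.symm : C →+* C) with hQdef
  have hQ : Q ∈ (Ideal.span {algebraMap B C ϖ}).minimalPrimes :=
    translate_mem_minimalPrimes σ.toRingEquiv (σ.commutes ϖ) hP
  have h1 : PosAt Q ((τ : F' →+* F') (y - algebraMap A₀ F' ξ)) :=
    posAt_translate σ.toRingEquiv (τ : F' →+* F') hστ hPξ
  have h2 : PosAt Q (y - algebraMap A₀ F' ξ) := hconst Q hQ ξ hξ hPξ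
  have hy0 : y ≠ 0 := by
    intro h0
    rw [h0, zero_pow hm.ne'] at hy
    exact hu ((map_eq_zero _).mp hy.symm)
  have hτm : (τ y / y) ^ m = 1 := by
    rw [div_pow, ← map_pow, hy, τ.commutes, div_self]
    rw [← hy]
    exact pow_ne_zero _ hy0
  have hζ' : IsPrimitiveRoot (algebraMap A₀ F' ζ) m := hζ.map_of_injective hinj
  have : NeZero m := ⟨hm.ne'⟩
  obtain ⟨i, -, hi⟩ := hζ'.eq_pow_of_pow_eq_one hτm
  set r : A₀ := ζ ^ i with hr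
  have hrm : r ^ m = 1 := by rw [hr, ← pow_mul, mul_comm, pow_mul, hζ.pow_eq_one, one_pow]
  have hτy : τ y = algebraMap A₀ F' r * y := by
    rw [hr, map_pow, hi]
    field_simp
  have h1' : PosAt Q (algebraMap A₀ F' r * y - algebraMap A₀ F' ξ) := by
    have e : (τ : F' →+* F') (y - algebraMap A₀ F' ξ)
        = algebraMap A₀ F' r * y - algebraMap A₀ F' ξ := by
      show τ (y - algebraMap A₀ F' ξ) = _
      rw [map_sub, hτy, IsScalarTower.algebraMap_apply A₀ F F' ξ, τ.commutes]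
    rwa [e] at h1
  have h2' : PosAt Q (algebraMap A₀ F' r * y - algebraMap A₀ F' (r * ξ)) := by
    have e : algebraMap A₀ F' r * y - algebraMap A₀ F' (r * ξ)
        = (y - algebraMap A₀ F' ξ) * algebraMap A₀ F' r := by
      rw [map_mul]; ring
    rw [e]
    exact posAt_mul_intAt hQ.1.1 h2 (intAt_const hQ.1.1 r)
  have h3 : ξ = r * ξ :=
    label_unique (B := B) hm hmu hQ.1.1 hξ (by rw [mul_pow, hrm, hξ, one_mul]) h1' h2'
  have hξ0 : ξ ≠ 0 := by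
    intro h0
    rw [h0, zero_pow hm.ne'] at hξ
    exact zero_ne_one hξ
  have hr1 : r = 1 := by
    have : (r - 1) * ξ = 0 := by rw [sub_mul, one_mul, ← h3, sub_self]
    exact sub_eq_zero.mp ((mul_eq_zero.mp this).resolve_right hξ0)
  rw [hτy, hr1, map_one, one_mul]

end Galois

/-! ### the abstract covering theorem -/

theorem cov_abs (hTK4 : Stmt_TK4) (A₀ F F' B₁ B₂ C₁ C₂ CC : Type)
    [CommRing A₀] [IsDomain A₀] [IsDiscreteValuationRing A₀] [Field F] [Field F'] [Algebra F F']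
    [Algebra.IsAlgebraic F F']
    [CommRing B₁] [CommRing B₂] [Algebra B₁ F] [Algebra B₂ F] [IsFractionRing B₁ F]
    [CommRing C₁] [CommRing C₂] [CommRing CC] [IsNoetherianRing C₁] [IsNoetherianRing C₂]
    [Algebra C₁ F'] [Algebra C₂ F'] [Algebra CC F']
    [Algebra B₁ C₁] [Algebra B₂ C₂] [Algebra B₁ F'] [Algebra B₂ F']
    [IsScalarTower B₁ C₁ F'] [IsScalarTower B₁ F F'] [IsIntegralClosure C₁ B₁ F']
    [IsScalarTower B₂ C₂ F'] [IsScalarTower B₂ F F'] [IsIntegralClosure C₂ B₂ F']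
    [Algebra A₀ C₁] [Algebra A₀ C₂] [Algebra A₀ CC] [Algebra A₀ F'] [Algebra A₀ F]
    [IsScalarTower A₀ F F'] [IsScalarTower A₀ C₁ F'] [IsScalarTower A₀ C₂ F']
    [Algebra C₁ CC] [Algebra C₂ CC] [IsScalarTower A₀ C₁ CC] [IsScalarTower A₀ C₂ CC]
    [IsScalarTower C₁ CC F'] [IsScalarTower C₂ CC F']
    (hinj : Function.Injective (algebraMap A₀ F'))
    (ϖ : A₀) (hϖ : Irreducible ϖ) (t₁ : C₁) (t₂ : C₂)
    [IsLocalization.Away t₁ CC] [IsLocalization.Away t₂ CC]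
    (hH1 : ∃ N : Submodule A₀ CC, N.FG ∧ ∀ y : CC, ∃ (a : C₁) (b : C₂), ∃ n ∈ N,
      y = algebraMap C₁ CC a + algebraMap C₂ CC b + n)
    (hH0 : ∀ (a : C₁) (b : C₂), algebraMap C₁ CC a = algebraMap C₂ CC b →
      ∃ α : A₀, a = algebraMap A₀ C₁ α)
    (ϖ₁ : B₁) (ϖ₂ s₂ : B₂) (hϖ₁ : algebraMap B₁ C₁ ϖ₁ = algebraMap A₀ C₁ ϖ)
    (hϖ₂ : algebraMap B₂ C₂ ϖ₂ = algebraMap A₀ C₂ ϖ) (hs₂ : algebraMap B₂ C₂ s₂ = t₂)
    (hcontr₁ : ∀ P ∈ (Ideal.span {algebraMap B₁ C₁ ϖ₁}).minimalPrimes,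
      P.under B₁ ∈ (Ideal.span {ϖ₁}).minimalPrimes)
    (hcontr₂ : ∀ P ∈ (Ideal.span {algebraMap B₂ C₂ ϖ₂}).minimalPrimes,
      P.under B₂ ∈ (Ideal.span {ϖ₂}).minimalPrimes)
    (hne : ∃ P : Ideal C₁, P ∈ (Ideal.span {algebraMap B₁ C₁ ϖ₁}).minimalPrimes)
    (m : ℕ) (hm : 0 < m) (hmu : IsUnit (m : A₀)) (ζ : A₀) (hζ : IsPrimitiveRoot ζ m) (u : F)
    (hu : u ≠ 0) (y : F') (hy : y ^ m = algebraMap F F' u) (hg₁ : GoodChart ϖ₁ m u)
    (hpos₂ : ∀ P ∈ (Ideal.span {ϖ₂}).minimalPrimes, PosAt P (u - 1))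
    (hg₂ : ∀ 𝔫 : Ideal B₂, 𝔫.IsMaximal → ϖ₂ ∈ 𝔫 → s₂ ∈ 𝔫 → GoodAt ϖ₂ m u 𝔫)
    (τ : F' ≃ₐ[F] F') : τ y = y := by
  obtain ⟨P, hP⟩ := hne
  exact fixed_of_labels_const (B := B₁) (C := C₁) hinj hm hmu hζ hu hy ϖ₁ P hP
    (hg₁.1 _ (hcontr₁ P hP))
    (fun Q hQ ξ hξ hPξ => labels_const hTK4 A₀ F F' B₁ B₂ C₁ C₂ CC ϖ hϖ t₁ t₂ hH1 hH0 ϖ₁ ϖ₂ s₂
      hϖ₁ hϖ₂ hs₂ hcontr₁ hcontr₂ m hm hmu ζ hζ u y hy hg₁ hpos₂ hg₂ P Q hP hQ ξ hξ hPξ) τ

end Fermat.Agent.S36.Cov
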