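import Fermat.Agent.S36.AbsInterface

/-!
# S36 / ABS-COV : elementary API of `PosAt`, `IntAt`, `UnitAt` (private to the COV package)
-/

set_option autoImplicit false

namespace Fermat.Agent.S36.Cov

open Fermat.Agent.S36

section One

variable {B F : Type*} [CommRing B] [Field F] [Algebra B F]

theorem intAt_of_posAt {P : Ideal B} {z : F} (h : PosAt P z) : IntAt P z := by
  obtain ⟨s, hs, p, -, e⟩ := h
  exact ⟨s, hs, p, e⟩

theorem intAt_of_unitAt {P : Ideal B} {z : F} (h : UnitAt P z) : IntAt P z := by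
  obtain ⟨s, hs, p, -, e⟩ := h
  exact ⟨s, hs, p, e⟩

theorem intAt_mono {P Q : Ideal B} (h : P ≤ Q) {z : F} (hz : IntAt Q z) : IntAt P z := by
  obtain ⟨s, hs, p, e⟩ := hz
  exact ⟨s, fun hsP => hs (h hsP), p, e⟩

theorem unitAt_mono {P Q : Ideal B} (h : P ≤ Q) {z : F} (hz : UnitAt Q z) : UnitAt P z := by
  obtain ⟨s, hs, p, hp, e⟩ := hz
  exact ⟨s, fun hsP => hs (h hsP), p, fun hpP => hp (h hpP), e⟩

theorem intAt_algebraMap {P : Ideal B} (hP : P.IsPrime) (b : B) : IntAt P (algebraMap B F b) :=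
  ⟨1, fun h => hP.ne_top ((Ideal.eq_top_iff_one _).mpr h), b, by rw [map_one, one_mul]⟩

theorem posAt_algebraMap {P : Ideal B} (hP : P.IsPrime) {b : B} (hb : b ∈ P) :
    PosAt P (algebraMap B F b) :=
  ⟨1, fun h => hP.ne_top ((Ideal.eq_top_iff_one _).mpr h), b, hb, by rw [map_one, one_mul]⟩

theorem mem_of_posAt_algebraMap (hinj : Function.Injective (algebraMap B F)) {P : Ideal B}
    (hP : P.IsPrime) {b : B} (h : PosAt P (algebraMap B F b)) : b ∈ P := by
  obtain ⟨s, hs, p, hp, e⟩ := h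
  rw [← map_mul] at e
  have := hinj e
  exact (hP.mem_or_mem (this ▸ hp)).resolve_left hs

theorem posAt_add {P : Ideal B} (hP : P.IsPrime) {a b : F} (ha : PosAt P a) (hb : PosAt P b) :
    PosAt P (a + b) := by
  obtain ⟨s, hs, p, hp, e⟩ := ha
  obtain ⟨s', hs', p', hp', e'⟩ := hb
  refine ⟨s * s', fun h => (hP.mem_or_mem h).elim hs hs', s' * p + s * p',
    P.add_mem (P.mul_mem_left _ hp) (P.mul_mem_left _ hp'), ?_⟩
  rw [map_mul, map_add, map_mul, map_mul, ← e, ← e']
  ring

theorem posAt_neg {P : Ideal B} {a : F} (ha : PosAt P a) : PosAt P (-a) := by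
  obtain ⟨s, hs, p, hp, e⟩ := ha
  exact ⟨s, hs, -p, P.neg_mem hp, by rw [map_neg, ← e]; ring⟩

theorem posAt_sub {P : Ideal B} (hP : P.IsPrime) {a b : F} (ha : PosAt P a) (hb : PosAt P b) :
    PosAt P (a - b) := by
  rw [sub_eq_add_neg]
  exact posAt_add hP ha (posAt_neg hb)

theorem posAt_mul_intAt {P : Ideal B} (hP : P.IsPrime) {a b : F} (ha : PosAt P a)
    (hb : IntAt P b) : PosAt P (a * b) := by
  obtain ⟨s, hs, p, hp, e⟩ := ha
  obtain ⟨s', hs', p', e'⟩ := hb
  refine ⟨s * s', fun h => (hP.mem_or_mem h).elim hs hs', p * p', P.mul_mem_right _ hp, ?_⟩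
  rw [map_mul, map_mul, ← e, ← e']
  ring

theorem intAt_add {P : Ideal B} (hP : P.IsPrime) {a b : F} (ha : IntAt P a) (hb : IntAt P b) :
    IntAt P (a + b) := by
  obtain ⟨s, hs, p, e⟩ := ha
  obtain ⟨s', hs', p', e'⟩ := hb
  refine ⟨s * s', fun h => (hP.mem_or_mem h).elim hs hs', s' * p + s * p', ?_⟩
  rw [map_mul, map_add, map_mul, map_mul, ← e, ← e']
  ring

theorem intAt_neg {P : Ideal B} {a : F} (ha : IntAt P a) : IntAt P (-a) := by
  obtain ⟨s, hs, p, e⟩ := ha
  exact ⟨s, hs, -p, by rw [map_neg, ← e]; ring⟩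

theorem intAt_sub {P : Ideal B} (hP : P.IsPrime) {a b : F} (ha : IntAt P a) (hb : IntAt P b) :
    IntAt P (a - b) := by
  rw [sub_eq_add_neg]
  exact intAt_add hP ha (intAt_neg hb)

theorem intAt_mul {P : Ideal B} (hP : P.IsPrime) {a b : F} (ha : IntAt P a) (hb : IntAt P b) :
    IntAt P (a * b) := by
  obtain ⟨s, hs, p, e⟩ := ha
  obtain ⟨s', hs', p', e'⟩ := hb
  refine ⟨s * s', fun h => (hP.mem_or_mem h).elim hs hs', p * p', ?_⟩
  rw [map_mul, map_mul, ← e, ← e']
  ring

/-- an element of `B_𝔫` which is positive at a prime `P ≤ 𝔫` is positive at `𝔫`. -/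
theorem posAt_of_intAt_of_le (hinj : Function.Injective (algebraMap B F)) {P 𝔫 : Ideal B}
    (hP : P.IsPrime) (hle : P ≤ 𝔫) {z : F} (hz : IntAt 𝔫 z) (hz' : PosAt P z) : PosAt 𝔫 z := by
  obtain ⟨s, hs, p, e⟩ := hz
  obtain ⟨s', hs', p', hp', e'⟩ := hz'
  have h1 : s' * p = s * p' := by
    apply hinj
    rw [map_mul, map_mul, ← e, ← e']
    ring
  have h2 : p ∈ P := (hP.mem_or_mem (h1 ▸ P.mul_mem_left s hp')).resolve_left hs'
  exact ⟨s, hs, p, hle h2, e⟩

/-- a product of elements of `B_P` which is positive at `P` has a positive factor -/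
theorem exists_posAt_of_prod (hinj : Function.Injective (algebraMap B F)) {P : Ideal B}
    (hP : P.IsPrime) {ι : Type*} (S : Finset ι) (f : ι → F) (hf : ∀ i ∈ S, IntAt P (f i))
    (h : PosAt P (∏ i ∈ S, f i)) : ∃ i ∈ S, PosAt P (f i) := by
  classical
  induction S using Finset.induction_on with
  | empty =>
    exfalso
    rw [Finset.prod_empty] at h
    have : PosAt P (algebraMap B F 1) := by rwa [map_one]
    exact hP.ne_top ((Ideal.eq_top_iff_one _).mpr (mem_of_posAt_algebraMap hinj hP this))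
  | insert a S ha ih =>
    rw [Finset.prod_insert ha] at h
    -- both factors are integral at `P`
    have h1 : IntAt P (f a) := hf a (Finset.mem_insert_self _ _)
    have h2 : IntAt P (∏ i ∈ S, f i) := by
      have : ∀ T : Finset ι, T ⊆ S → IntAt P (∏ i ∈ T, f i) := by
        intro T
        induction T using Finset.induction_on with
        | empty =>
          intro _
          rw [Finset.prod_empty, ← map_one (algebraMap B F)]
          exact intAt_algebraMap hP 1
        | insert b T hb ihT =>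
          intro hT
          rw [Finset.prod_insert hb]
          exact intAt_mul hP (hf b (Finset.mem_insert_of_mem (hT (Finset.mem_insert_self _ _))))
            (ihT fun x hx => hT (Finset.mem_insert_of_mem hx))
      exact this S (Finset.Subset.refl _)
    obtain ⟨s, hs, p, e⟩ := h1
    obtain ⟨s', hs', p', e'⟩ := h2
    obtain ⟨s'', hs'', p'', hp'', e''⟩ := h
    have h3 : s'' * (p * p') = s * s' * p'' := by
      apply hinj
      rw [map_mul, map_mul, map_mul, map_mul, ← e, ← e', ← e'']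
      ring
    have h4 : p * p' ∈ P :=
      (hP.mem_or_mem (h3 ▸ P.mul_mem_left (s * s') hp'')).resolve_left hs''
    rcases hP.mem_or_mem h4 with h5 | h5
    · exact ⟨a, Finset.mem_insert_self _ _, s, hs, p, h5, e⟩
    · obtain ⟨i, hi, hpi⟩ := ih (fun i hi => hf i (Finset.mem_insert_of_mem hi)) ⟨s', hs', p', h5, e'⟩
      exact ⟨i, Finset.mem_insert_of_mem hi, hpi⟩

end One

section Tower

variable {B F C F' : Type*} [CommRing B] [Field F] [Algebra B F] [CommRing C] [Field F']
  [Algebra C F'] [Algebra B C] [Algebra F F'] [Algebra B F'] [IsScalarTower B C F']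
  [IsScalarTower B F F']

theorem tower_eq (b : B) :
    algebraMap C F' (algebraMap B C b) = algebraMap F F' (algebraMap B F b) := by
  rw [← IsScalarTower.algebraMap_apply B C F', ← IsScalarTower.algebraMap_apply B F F']

theorem posAt_map {P : Ideal C} {z : F} (h : PosAt (P.under B) z) :
    PosAt P (algebraMap F F' z) := by
  obtain ⟨s, hs, p, hp, e⟩ := h
  exact ⟨algebraMap B C s, hs, algebraMap B C p, hp, by
    rw [tower_eq (F := F) s, tower_eq (F := F) p, ← map_mul, e]⟩

theorem intAt_map {P : Ideal C} {z : F} (h : IntAt (P.under B) z) :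
    IntAt P (algebraMap F F' z) := by
  obtain ⟨s, hs, p, e⟩ := h
  exact ⟨algebraMap B C s, hs, algebraMap B C p, by
    rw [tower_eq (F := F) s, tower_eq (F := F) p, ← map_mul, e]⟩

theorem unitAt_map {P : Ideal C} {z : F} (h : UnitAt (P.under B) z) :
    UnitAt P (algebraMap F F' z) := by
  obtain ⟨s, hs, p, hp, e⟩ := h
  exact ⟨algebraMap B C s, hs, algebraMap B C p, hp, by
    rw [tower_eq (F := F) s, tower_eq (F := F) p, ← map_mul, e]⟩

/-- an `m`-th root of a unit at `P ∩ B` is integral at `P`. -/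
theorem intAt_of_pow [IsIntegralClosure C B F'] {P : Ideal C} {m : ℕ} (hm : 0 < m) {e : F}
    {Y : F'} (hY : Y ^ m = algebraMap F F' e) (he : IntAt (P.under B) e) : IntAt P Y := by
  obtain ⟨s, hs, p, hsp⟩ := he
  have hint : IsIntegral B (algebraMap B F' s * Y) := by
    refine IsIntegral.of_pow hm ?_
    have : (algebraMap B F' s * Y) ^ m = algebraMap B F' (s ^ (m - 1) * p) := by
      obtain ⟨k, rfl⟩ : ∃ k, m = k + 1 := ⟨m - 1, by omega⟩
      rw [Nat.add_sub_cancel, mul_pow, hY, map_mul, map_pow, pow_succ,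
        IsScalarTower.algebraMap_apply B F F' p, ← hsp, map_mul,
        ← IsScalarTower.algebraMap_apply B F F']
      ring
    rw [this]
    exact isIntegral_algebraMap
  obtain ⟨c, hc⟩ := IsIntegralClosure.isIntegral_iff (A := C) |>.mp hint
  exact ⟨algebraMap B C s, hs, c, by
    rw [hc, ← IsScalarTower.algebraMap_apply B C F']⟩

end Tower

end Fermat.Agent.S36.Cov
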