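import Fermat.Agent.S36.CovAbs
import Fermat.Agent.S36.CovInterface
import Fermat.Agent.KL.PolyRing
import Fermat.Agent.KL.PolyRing4
import Fermat.Agent.KL.TwoCharts
import Fermat.Agent.KL.TK4
import Fermat.Agent.KL.SmallG

/-!
# S36 / ABS-COV : the covering theorem for an abstract finite extension `F'` of `F`
(instantiation of `cov_abs` at the concrete charts)
-/

set_option autoImplicit false
set_option linter.style.haveILetI false

namespace Fermat.Agent.S36.Cov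

open Fermat.Agent.KL Fermat.Agent.S36 Fermat.Agent.KL.TK

theorem stmt_CovField (hLink : Stmt_CovLink) (hFin : Stmt_CovFin) (hNe : Stmt_CovNonempty) :
    Stmt_CovField := by
  intro A₀ F F' _ _ _ _ _ _ _ _ _ _ _ _ ϖ t m ζ u y hϖ htr hF hconst hmu hζ hu hy hg₁ hpos₂ hg₂ τ
  have hinjFF' : Function.Injective (algebraMap F F') := (algebraMap F F').injective
  have hinj : Function.Injective (algebraMap A₀ F') := by
    rw [IsScalarTower.algebraMap_eq A₀ F F']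
    exact hinjFF'.comp (FaithfulSMul.algebraMap_injective A₀ F)
  haveI : FaithfulSMul A₀ F' := (faithfulSMul_iff_algebraMap_injective A₀ F').mpr hinj
  haveI : CharZero F' := charZero_of_injective_algebraMap hinjFF'
  have hm : 0 < m := by
    rcases Nat.eq_zero_or_pos m with rfl | h
    · simp at hmu
    · exact h
  set t' : F' := algebraMap F F' t with ht'
  have ht0 : t ≠ 0 := by
    rintro rfl
    exact htr (by simpa using isAlgebraic_zero)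
  have ht'0 : t' ≠ 0 := by
    rw [ht']; simpa using ht0
  obtain ⟨hpv, htr2, hF2⟩ := stmt_polyRConcrete A₀ F t htr
  obtain ⟨htr', hF'⟩ := hFin A₀ F F' t t' rfl htr hF
  obtain ⟨hpv', htr2', hF2'⟩ := stmt_polyRConcrete A₀ F' t' htr'
  obtain ⟨hpvi', -, -⟩ := stmt_polyRConcrete A₀ F' t'⁻¹ htr2'
  obtain ⟨alg₁, tw₁, ic₁, hcst₁, hcrd₁, hcontr₁⟩ := hLink A₀ F F' ϖ t t' rfl hϖ htr hF
  obtain ⟨alg₂, tw₂, ic₂, hcst₂, hcrd₂, hcontr₂⟩ :=
    hLink A₀ F F' ϖ t⁻¹ t'⁻¹ (by rw [ht', map_inv₀]) hϖ htr2 (hF2 hF)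
  have hB₁ := stmt_chartBasic A₀ (PolyR A₀ t) F (Chart A₀ t) (polyX A₀ t) hpv hF
  have hC₁ := stmt_chartBasic A₀ (PolyR A₀ t') F' (Chart A₀ t') (polyX A₀ t') hpv' hF'
  have hC₂ := stmt_chartBasic A₀ (PolyR A₀ t'⁻¹) F' (Chart A₀ t'⁻¹) (polyX A₀ t'⁻¹) hpvi'
    (hF2' hF')
  haveI := hB₁.2.2.2.2.1
  haveI := hC₁.2.1
  haveI := hC₂.2.1
  haveI := awayB1 A₀ stmt_chartOverlap ht'0
  haveI := awayB2 A₀ stmt_chartOverlap ht'0
  obtain ⟨P, hP⟩ := hNe A₀ F' ϖ t' hϖ htr'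
  exact cov_abs (stmt_TK4 stmt_H1bound) A₀ F F' (Chart A₀ t) (Chart A₀ t⁻¹) (Chart A₀ t')
    (Chart A₀ t'⁻¹) (Chart2 A₀ t') hinj ϖ hϖ (crd A₀ t') (crd A₀ t'⁻¹)
    (chart_h1 A₀ (stmt_H1fg stmt_chartBasic stmt_polyRConcrete) htr' hF')
    (chart_h0 A₀ stmt_chartInter htr' hconst)
    (cst A₀ t ϖ) (cst A₀ t⁻¹ ϖ) (crd A₀ t⁻¹)
    ((hcst₁ ϖ).trans (cst_eq A₀ t' ϖ)) ((hcst₂ ϖ).trans (cst_eq A₀ t'⁻¹ ϖ)) hcrd₂
    (by rw [hcst₁]; exact hcontr₁) (by rw [hcst₂]; exact hcontr₂)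
    ⟨P, by rw [hcst₁]; exact hP⟩ m hm hmu ζ hζ u hu y hy hg₁ hpos₂ hg₂ τ

end Fermat.Agent.S36.Cov
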