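import Fermat.Agent.S36.CovP3
import Fermat.Agent.S36.CovGal
import Fermat.Agent.S36.CovFin
import Fermat.Agent.S36.CovContr
import Fermat.Agent.S36.CovLink
import Fermat.Agent.S36.ZMain

/-!
# S36 : the covering theorem `Stmt_COV'` and Theorem Z (abstract form), unconditional (helper93)
-/

set_option autoImplicit false

namespace Fermat.Agent.S36.CovP

open Fermat.Agent.S36 Fermat.Agent.S36.Cov

/-- `Stmt_CovField`, unconditional. -/
theorem covField' : Stmt_CovField :=
  covField stmt_CovFin stmt_CovNonempty (stmt_CovLink stmt_CovContr)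

/-- **COV'**, unconditional. -/
theorem cov' : Stmt_COV' := cov'_of_field covField'

/-- **COV**, unconditional. -/
theorem cov : Stmt_COV := cov_of_cov' cov'

/-- **Theorem Z, abstract form**, unconditional. -/
theorem zabs : Stmt_ZAbs := stmt_ZAbs' cov'

end Fermat.Agent.S36.CovP
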