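import Fermat.Agent.S36.CovApi
import Fermat.Agent.S36.Conn

/-!
# S36 / ABS-COV : labels of the vertical primes of a Kummer covering (one chart, abstract rings)
-/

set_option autoImplicit false
set_option linter.unusedSectionVars false

namespace Fermat.Agent.S36.Cov

open Fermat.Agent.S36 Polynomial

/-- distinct `m`-th roots of unity stay distinct modulo a proper ideal, if `m` is a unit -/
theorem root_eq_of_sub_mem {A₀ C : Type*} [CommRing A₀] [IsDomain A₀] [CommRing C] [Algebra A₀ C]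
    {m : ℕ} (hm : 0 < m) (hmu : IsUnit (m : A₀)) {𝔫 : Ideal C} (h𝔫 : 𝔫 ≠ ⊤) {ξ ξ' : A₀}
    (hξ : ξ ^ m = 1) (hξ' : ξ' ^ m = 1) (h : algebraMap A₀ C (ξ - ξ') ∈ 𝔫) : ξ = ξ' := by
  by_contra hne
  obtain ⟨k, rfl⟩ : ∃ k, m = k + 1 := ⟨m - 1, by omega⟩
  set ρ : A₀ := ξ * ξ' ^ k with hρ
  have hρm : ρ ^ (k + 1) = 1 := by
    rw [hρ, mul_pow, hξ, one_mul, ← pow_mul, mul_comm, pow_mul, hξ', one_pow]
  have hρ1 : ρ ≠ 1 := by
    intro h1
    apply hne
    have : ρ * ξ' = ξ := by rw [hρ, mul_assoc, ← pow_succ, hξ', mul_one]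
    rw [← this, h1, one_mul]
  have hsum : ∑ i ∈ Finset.range (k + 1), ρ ^ i = 0 := by
    have := geom_sum_mul ρ (k + 1)
    rw [hρm, sub_self] at this
    exact (mul_eq_zero.mp this).resolve_right (sub_ne_zero.mpr hρ1)
  have hρmem : algebraMap A₀ C (ρ - 1) ∈ 𝔫 := by
    have : ρ - 1 = ξ' ^ k * (ξ - ξ') := by
      rw [hρ, mul_sub, ← pow_succ, hξ']; ring
    rw [this, map_mul]
    exact 𝔫.mul_mem_left _ h
  have hmem : algebraMap A₀ C ((k + 1 : ℕ) : A₀) ∈ 𝔫 := by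
    have h1 : ((k + 1 : ℕ) : A₀) = - ∑ i ∈ Finset.range (k + 1), (ρ ^ i - 1) := by
      rw [Finset.sum_sub_distrib, hsum]
      simp
    rw [h1, map_neg, map_sum]
    refine 𝔫.neg_mem (𝔫.sum_mem fun i _ => ?_)
    obtain ⟨d, hd⟩ := sub_one_dvd_pow_sub_one ρ i
    rw [hd, map_mul]
    exact 𝔫.mul_mem_right _ hρmem
  exact h𝔫 (Ideal.eq_top_of_isUnit_mem _ hmem (hmu.map (algebraMap A₀ C)))

section Label

variable {A₀ B F C F' : Type} [CommRing A₀] [IsDomain A₀] [CommRing B] [Field F] [Algebra B F]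
  [CommRing C] [Field F'] [Algebra C F'] [Algebra B C] [Algebra F F'] [Algebra B F']
  [IsScalarTower B C F'] [IsScalarTower B F F'] [IsIntegralClosure C B F']
  [Algebra A₀ C] [Algebra A₀ F'] [IsScalarTower A₀ C F']

/-- the class of the primes of `C` with label `ξ` -/
def Cls (C : Type) {A₀ F' : Type} [CommRing A₀] [CommRing C] [Field F'] [Algebra C F']
    [Algebra A₀ F'] (y : F') (ξ : A₀) : Set (Ideal C) :=
  {P | PosAt P (y - algebraMap A₀ F' ξ)}

omit [IsDomain A₀] in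
theorem intAt_const {P : Ideal C} (hP : P.IsPrime) (ξ : A₀) : IntAt P (algebraMap A₀ F' ξ) := by
  rw [IsScalarTower.algebraMap_apply A₀ C F']
  exact intAt_algebraMap hP _

include B in
theorem injC : Function.Injective (algebraMap C F') :=
  IsIntegralClosure.algebraMap_injective C B F'

include B in
/-- uniqueness of the label -/
theorem label_unique {m : ℕ} (hm : 0 < m) (hmu : IsUnit (m : A₀)) {y : F'} {P : Ideal C}
    (hP : P.IsPrime) {ξ ξ' : A₀} (hξ : ξ ^ m = 1) (hξ' : ξ' ^ m = 1)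
    (h : PosAt P (y - algebraMap A₀ F' ξ)) (h' : PosAt P (y - algebraMap A₀ F' ξ')) : ξ = ξ' := by
  have h1 := posAt_sub hP h' h
  have h2 : y - algebraMap A₀ F' ξ' - (y - algebraMap A₀ F' ξ)
      = algebraMap C F' (algebraMap A₀ C (ξ - ξ')) := by
    rw [← IsScalarTower.algebraMap_apply A₀ C F', map_sub]; ring
  rw [h2] at h1
  exact root_eq_of_sub_mem hm hmu hP.ne_top hξ hξ'
    (mem_of_posAt_algebraMap (injC (B := B)) hP h1)

/-- existence of the label -/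
theorem exists_label {m : ℕ} (hm : 0 < m) {ζ : A₀} (hζ : IsPrimitiveRoot ζ m) {u : F} {y : F'}
    (hy : y ^ m = algebraMap F F' u) {P : Ideal C} (hP : P.IsPrime)
    (hu : PosAt (P.under B) (u - 1)) :
    ∃ ξ : A₀, ξ ^ m = 1 ∧ PosAt P (y - algebraMap A₀ F' ξ) := by
  have hPB : (P.under B).IsPrime := Ideal.IsPrime.under B P
  have huint : IntAt (P.under B) u := by
    have h1 := intAt_add hPB (intAt_of_posAt hu) (intAt_algebraMap (F := F) hPB 1)
    rwa [map_one, sub_add_cancel] at h1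
  have hyint : IntAt P y := intAt_of_pow hm hy huint
  have hprod : y ^ m - 1 = ∏ ξ ∈ nthRootsFinset m (1 : A₀), (y - algebraMap A₀ F' ξ) := by
    have h1 := congrArg (aeval y) (X_pow_sub_one_eq_prod hm hζ)
    rw [map_sub, map_pow, aeval_X, map_one, map_prod] at h1
    rw [h1]
    exact Finset.prod_congr rfl fun ξ _ => by rw [map_sub, aeval_X, aeval_C]
  have hpos : PosAt P (∏ ξ ∈ nthRootsFinset m (1 : A₀), (y - algebraMap A₀ F' ξ)) := by
    rw [← hprod, hy]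
    have := posAt_map (C := C) (F' := F') hu
    rwa [map_sub, map_one] at this
  obtain ⟨ξ, hξ, hpξ⟩ := exists_posAt_of_prod (injC (B := B)) hP _ _
    (fun ξ _ => intAt_sub hP hyint (intAt_const hP ξ)) hpos
  exact ⟨ξ, (mem_nthRootsFinset hm 1).mp hξ, hpξ⟩

omit [IsDomain A₀] in
/-- the key local computation -/
theorem local_value {m : ℕ} (hm : 0 < m) {u w : F} {y : F'} (hy : y ^ m = algebraMap F F' u)
    (hw : w ≠ 0) {𝔫 P : Ideal C} (h𝔫 : 𝔫.IsPrime) (hP : P.IsPrime) (hle : P ≤ 𝔫)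
    (hU : UnitAt (𝔫.under B) (u / w ^ m)) (hV : ValAt (𝔫.under B) (P.under B) w 1) {ξ : A₀}
    (hlab : PosAt P (y - algebraMap A₀ F' ξ)) :
    PosAt 𝔫 (y / algebraMap F F' w - algebraMap A₀ F' ξ) := by
  have hw' : algebraMap F F' w ≠ 0 := by simpa using hw
  set Y : F' := y / algebraMap F F' w with hY
  have hYm : Y ^ m = algebraMap F F' (u / w ^ m) := by
    rw [hY, div_pow, hy, map_div₀, map_pow]
  have hYint : IntAt 𝔫 Y := intAt_of_pow hm hYm (intAt_of_unitAt hU)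
  obtain ⟨c, hc, hμ⟩ := hV
  have hc' : PosAt 𝔫 (algebraMap F F' c) := posAt_map hc
  have hμ' : PosAt P (algebraMap F F' (w - 1 - c)) := posAt_map hμ
  set z : F' := Y * (1 + algebraMap F F' c) - algebraMap A₀ F' ξ with hz
  have hz1 : z = (y - algebraMap A₀ F' ξ) - algebraMap F F' (w - 1 - c) * Y := by
    rw [hz, hY, map_sub, map_sub, map_one]
    field_simp
    ring
  have hzP : PosAt P z := by
    rw [hz1]
    exact posAt_sub hP hlab (posAt_mul_intAt hP hμ' (intAt_mono hle hYint))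
  have hone : IntAt 𝔫 (1 : F') := by
    have := intAt_algebraMap (F := F') h𝔫 (1 : C)
    rwa [map_one] at this
  have hzint : IntAt 𝔫 z :=
    intAt_sub h𝔫 (intAt_mul h𝔫 hYint (intAt_add h𝔫 hone (intAt_of_posAt hc'))) (intAt_const h𝔫 ξ)
  have hz𝔫 : PosAt 𝔫 z := posAt_of_intAt_of_le (injC (B := B)) hP hle hzint hzP
  have hfin : Y - algebraMap A₀ F' ξ = z - algebraMap F F' c * Y := by
    rw [hz]; ring
  rw [hfin]
  exact posAt_sub h𝔫 hz𝔫 (posAt_mul_intAt h𝔫 hc' hYint)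

/-- the label classes are clopen -/
theorem isClopenClass_cls {m : ℕ} (hm : 0 < m) (hmu : IsUnit (m : A₀)) {ζ : A₀}
    (hζ : IsPrimitiveRoot ζ m) {u : F} {y : F'} (hy : y ^ m = algebraMap F F' u) (ϖ : B)
    (hcontr : ∀ P ∈ (Ideal.span {algebraMap B C ϖ}).minimalPrimes,
      P.under B ∈ (Ideal.span {ϖ}).minimalPrimes)
    (hgood : GoodChart ϖ m u) {ξ : A₀} (hξ : ξ ^ m = 1) :
    IsClopenClass (algebraMap B C ϖ) (Cls C y ξ) := by
  intro 𝔫 h𝔫 P hP Q hQ hP𝔫 hQ𝔫 hPξ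
  have : Algebra.IsIntegral B C := IsIntegralClosure.isIntegral_algebra B F'
  have hmax : (𝔫.under B).IsMaximal := Ideal.isMaximal_comap_of_isIntegral_of_isMaximal 𝔫
  have hϖ𝔫 : ϖ ∈ 𝔫.under B := hP𝔫 (hP.1.2 (Ideal.mem_span_singleton_self _))
  obtain ⟨w, hw, hU, hV⟩ := hgood.2 _ hmax hϖ𝔫
  obtain ⟨ξ', hξ', hQξ'⟩ := exists_label (B := B) hm hζ hy hQ.1.1 (hgood.1 _ (hcontr Q hQ))
  have h1 := local_value hm hy hw h𝔫.isPrime hP.1.1 hP𝔫 hU
    (hV _ (hcontr P hP) (Ideal.comap_mono hP𝔫)) hPξ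
  have h2 := local_value hm hy hw h𝔫.isPrime hQ.1.1 hQ𝔫 hU
    (hV _ (hcontr Q hQ) (Ideal.comap_mono hQ𝔫)) hQξ'
  have h3 := label_unique (B := B) hm hmu h𝔫.isPrime hξ hξ' h1 h2
  show PosAt Q (y - algebraMap A₀ F' ξ)
  rw [h3]
  exact hQξ'

end Label

end Fermat.Agent.S36.Cov
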