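import Fermat.Agent.S36.CovLabel

/-!
# S36 / COV : four abstract lemmas for the two-chart argument (helper93)

* `posAt_under_iff`  : `PosAt` and localisation away from an element;
* `clopen_transfer`  : clopen-ness on the second chart from the first chart and the points `s = 0`;
* `sigma_prime`      : an automorphism of `F'/F` permutes the minimal primes over `ϖ`;
* `clopen_at`        : pointwise version of `isClopenClass_cls`.
-/

set_option autoImplicit false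
set_option linter.unusedSectionVars false
set_option linter.style.haveILetI false

namespace Fermat.Agent.S36.CovP

open Fermat.Agent.S36 Fermat.Agent.S36.Cov Fermat.Agent.KL

/-- `PosAt` at a prime of `BB = B[1/t]` and at its contraction. -/
theorem posAt_under_iff {B BB F : Type} [CommRing B] [CommRing BB] [Field F] [Algebra B BB]
    [Algebra B F] [Algebra BB F] [IsScalarTower B BB F] (t : B) [IsLocalization.Away t BB]
    {PP : Ideal BB} (hPP : PP.IsPrime) (z : F) : PosAt (PP.under B) z ↔ PosAt PP z := by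
  constructor
  · rintro ⟨s, hs, p, hp, e⟩
    exact ⟨algebraMap B BB s, hs, algebraMap B BB p, hp, by
      rw [← IsScalarTower.algebraMap_apply, ← IsScalarTower.algebraMap_apply, e]⟩
  · rintro ⟨s', hs', p', hp', e⟩
    obtain ⟨n, a, ha⟩ := IsLocalization.Away.surj t s'
    obtain ⟨l, b, hb⟩ := IsLocalization.Away.surj t p'
    have htu : IsUnit (algebraMap B BB t) := IsLocalization.Away.algebraMap_isUnit t
    have htP : ∀ k : ℕ, algebraMap B BB t ^ k ∉ PP := fun k h =>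
      hPP.ne_top (Ideal.eq_top_of_isUnit_mem _ h (htu.pow k))
    refine ⟨a * t ^ l, ?_, b * t ^ n, ?_, ?_⟩
    · intro h
      have h1 : algebraMap B BB (a * t ^ l) ∈ PP := h
      rw [map_mul, map_pow, ← ha] at h1
      rcases hPP.mem_or_mem h1 with h2 | h2
      · rcases hPP.mem_or_mem h2 with h3 | h3
        · exact hs' h3
        · exact htP _ h3
      · exact htP _ h2
    · show algebraMap B BB (b * t ^ n) ∈ PP
      rw [map_mul, ← hb]
      exact PP.mul_mem_right _ (PP.mul_mem_right _ hp')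
    · rw [IsScalarTower.algebraMap_apply B BB F, IsScalarTower.algebraMap_apply B BB F,
        map_mul (algebraMap B BB), map_mul (algebraMap B BB), ← ha, ← hb, map_pow (algebraMap B BB),
        map_pow (algebraMap B BB), map_mul, map_mul, map_mul, map_mul, ← e]
      ring

open G1b in
/-- transfer of clopen-ness to the second chart. -/
theorem clopen_transfer {B₁ B₂ BB : Type} [CommRing B₁] [CommRing B₂] [CommRing BB]
    [Algebra B₁ BB] [Algebra B₂ BB] (t : B₁) (s : B₂) [IsLocalization.Away t BB]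
    [IsLocalization.Away s BB] (ϖ₁ : B₁) (ϖ₂ : B₂)
    (hϖ : algebraMap B₁ BB ϖ₁ = algebraMap B₂ BB ϖ₂)
    (K₁ : Set (Ideal B₁)) (K₂ : Set (Ideal B₂)) (h₁ : IsClopenClass ϖ₁ K₁)
    (hcompat : ∀ PP ∈ (Ideal.span {algebraMap B₁ BB ϖ₁}).minimalPrimes,
      (PP.under B₁ ∈ K₁ ↔ PP.under B₂ ∈ K₂))
    (h₂ : ∀ 𝔫 : Ideal B₂, 𝔫.IsMaximal → s ∈ 𝔫 → ∀ P ∈ (Ideal.span {ϖ₂}).minimalPrimes,
      ∀ Q ∈ (Ideal.span {ϖ₂}).minimalPrimes, P ≤ 𝔫 → Q ≤ 𝔫 → P ∈ K₂ → Q ∈ K₂) :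
    IsClopenClass ϖ₂ K₂ := by
  intro 𝔫 h𝔫 P' hP' Q' hQ' hP'𝔫 hQ'𝔫 hPK
  by_cases hs : s ∈ 𝔫
  · exact h₂ 𝔫 h𝔫 hs P' hP' Q' hQ' hP'𝔫 hQ'𝔫 hPK
  set π : BB := algebraMap B₁ BB ϖ₁ with hπ
  have hmap₁ : (Ideal.span {ϖ₁}).map (algebraMap B₁ BB) = Ideal.span {π} := by
    rw [Ideal.map_span, Set.image_singleton]
  have hmap₂ : (Ideal.span {ϖ₂}).map (algebraMap B₂ BB) = Ideal.span {π} := by
    rw [Ideal.map_span, Set.image_singleton, ← hϖ]
  have hsP' : s ∉ P' := fun h => hs (hP'𝔫 h)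
  have hsQ' : s ∉ Q' := fun h => hs (hQ'𝔫 h)
  have hNN : (𝔫.map (algebraMap B₂ BB)).IsPrime := isPrime_map_of_notMem s h𝔫.isPrime hs
  have hN₁ : ((𝔫.map (algebraMap B₂ BB)).under B₁).IsPrime := Ideal.IsPrime.under B₁ _
  obtain ⟨𝔪, h𝔪, hle⟩ := Ideal.exists_le_maximal _ hN₁.ne_top
  have hPP : P'.map (algebraMap B₂ BB) ∈ (Ideal.span {π}).minimalPrimes := by
    rw [← hmap₂]; exact map_mem_minimalPrimes s _ hP' hsP'
  have hQQ : Q'.map (algebraMap B₂ BB) ∈ (Ideal.span {π}).minimalPrimes := by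
    rw [← hmap₂]; exact map_mem_minimalPrimes s _ hQ' hsQ'
  have hPmin : (P'.map (algebraMap B₂ BB)).under B₁ ∈ (Ideal.span {ϖ₁}).minimalPrimes :=
    under_mem_minimalPrimes t _ (by rw [hmap₁]; exact hPP)
  have hQmin : (Q'.map (algebraMap B₂ BB)).under B₁ ∈ (Ideal.span {ϖ₁}).minimalPrimes :=
    under_mem_minimalPrimes t _ (by rw [hmap₁]; exact hQQ)
  have h3 : (P'.map (algebraMap B₂ BB)).under B₁ ∈ K₁ := by
    rw [hcompat _ hPP, under_map_of_notMem (BB := BB) s hP'.1.1 hsP']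
    exact hPK
  have h4 := h₁ 𝔪 h𝔪 _ hPmin _ hQmin
    ((Ideal.comap_mono (Ideal.map_mono hP'𝔫)).trans hle)
    ((Ideal.comap_mono (Ideal.map_mono hQ'𝔫)).trans hle) h3
  rw [hcompat _ hQQ, under_map_of_notMem (BB := BB) s hQ'.1.1 hsQ'] at h4
  exact h4

section Upper

variable {A₀ B F C F' : Type} [CommRing A₀] [IsDomain A₀] [CommRing B] [Field F] [Algebra B F]
  [CommRing C] [Field F'] [Algebra C F'] [Algebra B C] [Algebra F F'] [Algebra B F']
  [IsScalarTower B C F'] [IsScalarTower B F F'] [IsIntegralClosure C B F']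
  [Algebra A₀ C] [Algebra A₀ F'] [IsScalarTower A₀ C F']

omit [CommRing A₀] [IsDomain A₀] [Algebra A₀ C] [Algebra A₀ F'] [IsScalarTower A₀ C F'] in
/-- an automorphism of `F' / F` permutes the minimal primes over `ϖ`. -/
theorem sigma_prime (τ : F' ≃ₐ[F] F') (ϖ : B) {P : Ideal C}
    (hP : P ∈ (Ideal.span {algebraMap B C ϖ}).minimalPrimes) :
    ∃ P' ∈ (Ideal.span {algebraMap B C ϖ}).minimalPrimes, ∀ z : F', PosAt P z → PosAt P' (τ z) := by
  have hinj : Function.Injective (algebraMap C F') := IsIntegralClosure.algebraMap_injective C B F'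
  let f : C →ₐ[B] C := galRestrict' B C C (τ.symm : F' →ₐ[F] F')
  let g : C →ₐ[B] C := galRestrict' B C C (τ : F' →ₐ[F] F')
  have hf : ∀ c, algebraMap C F' (f c) = τ.symm (algebraMap C F' c) := fun c =>
    algebraMap_galRestrict'_apply B C C (τ.symm : F' →ₐ[F] F') c
  have hg : ∀ c, algebraMap C F' (g c) = τ (algebraMap C F' c) := fun c =>
    algebraMap_galRestrict'_apply B C C (τ : F' →ₐ[F] F') c
  have hfg : ∀ c, f (g c) = c := fun c => hinj (by rw [hf, hg, AlgEquiv.symm_apply_apply])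
  have hgf : ∀ c, g (f c) = c := fun c => hinj (by rw [hg, hf, AlgEquiv.apply_symm_apply])
  have hϖP : algebraMap B C ϖ ∈ P := hP.1.2 (Ideal.mem_span_singleton_self _)
  haveI := hP.1.1
  refine ⟨P.comap f, ⟨⟨Ideal.comap_isPrime f P, ?_⟩, ?_⟩, ?_⟩
  · rw [Ideal.span_singleton_le_iff_mem, Ideal.mem_comap, AlgHom.commutes]
    exact hϖP
  · rintro Q ⟨hQ, hQϖ⟩ hQle c hc
    haveI := hQ
    have h1 : P ≤ Q.comap g := by
      refine hP.2 ⟨Ideal.comap_isPrime g Q, ?_⟩ ?_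
      · rw [Ideal.span_singleton_le_iff_mem, Ideal.mem_comap, AlgHom.commutes]
        exact hQϖ (Ideal.mem_span_singleton_self _)
      · intro d hd
        have := hQle (Ideal.mem_comap.1 hd)
        rwa [Ideal.mem_comap, hfg] at this
    have := h1 (Ideal.mem_comap.1 hc)
    rwa [Ideal.mem_comap, hgf] at this
  · rintro z ⟨s, hs, p, hp, e⟩
    refine ⟨g s, ?_, g p, ?_, ?_⟩
    · rw [Ideal.mem_comap, hfg]; exact hs
    · rw [Ideal.mem_comap, hfg]; exact hp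
    · rw [hg, hg, ← map_mul, e]

/-- pointwise version of `isClopenClass_cls`. -/
theorem clopen_at {m : ℕ} (hm : 0 < m) (hmu : IsUnit (m : A₀)) {ζ : A₀}
    (hζ : IsPrimitiveRoot ζ m) {u : F} {y : F'} (hy : y ^ m = algebraMap F F' u) (ϖ : B)
    (hcontr : ∀ P ∈ (Ideal.span {algebraMap B C ϖ}).minimalPrimes,
      P.under B ∈ (Ideal.span {ϖ}).minimalPrimes)
    (hpos : ∀ P ∈ (Ideal.span {ϖ}).minimalPrimes, PosAt P (u - 1)) {ξ : A₀} (hξ : ξ ^ m = 1)
    {𝔫 : Ideal C} (h𝔫 : 𝔫.IsPrime) (hgood : GoodAt ϖ m u (𝔫.under B))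
    {P Q : Ideal C} (hP : P ∈ (Ideal.span {algebraMap B C ϖ}).minimalPrimes)
    (hQ : Q ∈ (Ideal.span {algebraMap B C ϖ}).minimalPrimes) (hP𝔫 : P ≤ 𝔫) (hQ𝔫 : Q ≤ 𝔫)
    (hPξ : P ∈ Cls C y ξ) : Q ∈ Cls C y ξ := by
  obtain ⟨w, hw, hU, hV⟩ := hgood
  obtain ⟨ξ', hξ', hQξ'⟩ := exists_label (B := B) hm hζ hy hQ.1.1 (hpos _ (hcontr Q hQ))
  have h1 := local_value hm hy hw h𝔫 hP.1.1 hP𝔫 hU
    (hV _ (hcontr P hP) (Ideal.comap_mono hP𝔫)) hPξ
  have h2 := local_value hm hy hw h𝔫 hQ.1.1 hQ𝔫 hU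
    (hV _ (hcontr Q hQ) (Ideal.comap_mono hQ𝔫)) hQξ'
  have h3 := label_unique (B := B) hm hmu h𝔫 hξ hξ' h1 h2
  show PosAt Q (y - algebraMap A₀ F' ξ)
  rw [h3]
  exact hQξ'

end Upper

end Fermat.Agent.S36.CovP
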