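import Fermat.Agent.S36.CovP1

/-!
# S36 / COV : the abstract two-chart theorem (helper93)

All rings are abstract.  `B₁, B₂` are the charts of `F`, `C₁, C₂` the charts of `F'`
(integral closures of `B₁, B₂`), `CC` the overlap of `C₁, C₂`.
Conclusion: every `F`-automorphism of `F'` fixes the `m`-th root `y` of `u`.
-/

set_option autoImplicit false
set_option linter.unusedSectionVars false
set_option linter.style.haveILetI false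

namespace Fermat.Agent.S36.CovP

open Fermat.Agent.S36 Fermat.Agent.S36.Cov Fermat.Agent.KL

theorem two_chart (hTK4 : Stmt_TK4)
    {A₀ F F' B₁ B₂ C₁ C₂ CC : Type} [CommRing A₀] [IsDomain A₀] [IsDiscreteValuationRing A₀]
    [Field F] [Field F'] [Algebra F F'] [Algebra A₀ F] [Algebra A₀ F'] [IsScalarTower A₀ F F']
    [CommRing B₁] [Algebra B₁ F] [CommRing B₂] [Algebra B₂ F]
    [CommRing C₁] [Algebra C₁ F'] [Algebra B₁ C₁] [Algebra B₁ F'] [IsScalarTower B₁ C₁ F']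
    [IsScalarTower B₁ F F'] [IsIntegralClosure C₁ B₁ F'] [Algebra A₀ C₁] [IsScalarTower A₀ C₁ F']
    [CommRing C₂] [Algebra C₂ F'] [Algebra B₂ C₂] [Algebra B₂ F'] [IsScalarTower B₂ C₂ F']
    [IsScalarTower B₂ F F'] [IsIntegralClosure C₂ B₂ F'] [Algebra A₀ C₂] [IsScalarTower A₀ C₂ F']
    [CommRing CC] [Algebra CC F'] [Algebra A₀ CC] [Algebra C₁ CC] [Algebra C₂ CC]
    [IsScalarTower A₀ C₁ CC] [IsScalarTower A₀ C₂ CC] [IsScalarTower C₁ CC F']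
    [IsScalarTower C₂ CC F'] [IsNoetherianRing C₁] [IsNoetherianRing C₂]
    (ϖ : A₀) (hϖ : Irreducible ϖ) (tC : C₁) (sC : C₂) [IsLocalization.Away tC CC]
    [IsLocalization.Away sC CC]
    (hH1 : ∃ N : Submodule A₀ CC, N.FG ∧ ∀ y : CC, ∃ (a : C₁) (b : C₂), ∃ n ∈ N,
      y = algebraMap C₁ CC a + algebraMap C₂ CC b + n)
    (hH0 : ∀ (a : C₁) (b : C₂), algebraMap C₁ CC a = algebraMap C₂ CC b →
      ∃ α : A₀, a = algebraMap A₀ C₁ α)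
    (hinj : Function.Injective (algebraMap A₀ F'))
    {m : ℕ} (hm : 0 < m) (hmu : IsUnit (m : A₀)) {ζ : A₀} (hζ : IsPrimitiveRoot ζ m)
    {u : F} (hu : u ≠ 0) {y : F'} (hy : y ^ m = algebraMap F F' u)
    (ϖ₁ : B₁) (ϖ₂ s₂ : B₂)
    (e₁ : algebraMap B₁ C₁ ϖ₁ = algebraMap A₀ C₁ ϖ) (e₂ : algebraMap B₂ C₂ ϖ₂ = algebraMap A₀ C₂ ϖ)
    (es : algebraMap B₂ C₂ s₂ = sC)
    (hcontr₁ : ∀ P ∈ (Ideal.span {algebraMap B₁ C₁ ϖ₁}).minimalPrimes,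
      P.under B₁ ∈ (Ideal.span {ϖ₁}).minimalPrimes)
    (hcontr₂ : ∀ P ∈ (Ideal.span {algebraMap B₂ C₂ ϖ₂}).minimalPrimes,
      P.under B₂ ∈ (Ideal.span {ϖ₂}).minimalPrimes)
    (good₁ : GoodChart ϖ₁ m u)
    (pos₂ : ∀ P ∈ (Ideal.span {ϖ₂}).minimalPrimes, PosAt P (u - 1))
    (good₂ : ∀ 𝔫 : Ideal B₂, 𝔫.IsMaximal → ϖ₂ ∈ 𝔫 → s₂ ∈ 𝔫 → GoodAt ϖ₂ m u 𝔫)
    (hne : ∃ P : Ideal C₁, P ∈ (Ideal.span {algebraMap A₀ C₁ ϖ}).minimalPrimes)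
    (τ : F' ≃ₐ[F] F') : τ y = y := by
  have hy0 : y ≠ 0 := by
    rintro rfl
    rw [zero_pow hm.ne'] at hy
    exact hu ((map_eq_zero (algebraMap F F')).1 hy.symm)
  -- `τ y = ξ y`
  have hζ' : IsPrimitiveRoot (algebraMap A₀ F' ζ) m := hζ.map_of_injective hinj
  have h1 : (τ y / y) ^ m = 1 := by
    rw [div_pow, ← map_pow, hy, AlgEquiv.commutes, div_self]
    rw [← hy]
    exact pow_ne_zero _ hy0
  haveI : NeZero m := ⟨hm.ne'⟩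
  obtain ⟨k, -, hk⟩ := hζ'.eq_pow_of_pow_eq_one h1
  set ξ : A₀ := ζ ^ k with hξdef
  have hξ : ξ ^ m = 1 := by rw [hξdef, ← pow_mul, mul_comm, pow_mul, hζ.pow_eq_one, one_pow]
  have hτy : τ y = algebraMap A₀ F' ξ * y := by
    rw [hξdef, map_pow, hk, div_mul_cancel₀ _ hy0]
  -- a prime and its label
  obtain ⟨P, hP⟩ := hne
  have hP' : P ∈ (Ideal.span {algebraMap B₁ C₁ ϖ₁}).minimalPrimes := by rw [e₁]; exact hP
  obtain ⟨ξ₀, hξ₀, hlab⟩ := exists_label (B := B₁) hm hζ hy hP.1.1 (good₁.1 _ (hcontr₁ P hP'))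
  obtain ⟨Q, hQ', hQτ⟩ := sigma_prime (B := B₁) τ ϖ₁ hP'
  have hQ : Q ∈ (Ideal.span {algebraMap A₀ C₁ ϖ}).minimalPrimes := by rw [← e₁]; exact hQ'
  -- clopen classes
  have hc₁ : IsClopenClass (algebraMap A₀ C₁ ϖ) (Cls C₁ y ξ₀) := by
    rw [← e₁]
    exact isClopenClass_cls hm hmu hζ hy ϖ₁ hcontr₁ good₁ hξ₀
  have eCC : algebraMap C₁ CC (algebraMap A₀ C₁ ϖ) = algebraMap C₂ CC (algebraMap A₀ C₂ ϖ) := by
    rw [← IsScalarTower.algebraMap_apply, ← IsScalarTower.algebraMap_apply]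
  have hcompat : ∀ PP : Ideal CC, PP.IsPrime →
      (PP.under C₁ ∈ Cls C₁ y ξ₀ ↔ PP.under C₂ ∈ Cls C₂ y ξ₀) := by
    intro PP hPP
    exact (posAt_under_iff tC hPP _).trans (posAt_under_iff sC hPP _).symm
  have hc₂ : IsClopenClass (algebraMap A₀ C₂ ϖ) (Cls C₂ y ξ₀) := by
    refine clopen_transfer (BB := CC) tC sC _ _ eCC _ _ hc₁ (fun PP hPP => hcompat PP hPP.1.1) ?_
    intro 𝔫 h𝔫 hs P₂ hP₂ Q₂ hQ₂ hP𝔫 hQ𝔫 hPK
    have : Algebra.IsIntegral B₂ C₂ := IsIntegralClosure.isIntegral_algebra B₂ F'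
    have hmax : (𝔫.under B₂).IsMaximal := Ideal.isMaximal_comap_of_isIntegral_of_isMaximal 𝔫
    have hϖ𝔫 : ϖ₂ ∈ 𝔫.under B₂ := by
      show algebraMap B₂ C₂ ϖ₂ ∈ 𝔫
      rw [e₂]
      exact hP𝔫 (hP₂.1.2 (Ideal.mem_span_singleton_self _))
    have hs𝔫 : s₂ ∈ 𝔫.under B₂ := by
      show algebraMap B₂ C₂ s₂ ∈ 𝔫
      rw [es]
      exact hs
    rw [← e₂] at hP₂ hQ₂
    exact clopen_at hm hmu hζ hy ϖ₂ hcontr₂ pos₂ hξ₀ h𝔫.isPrime (good₂ _ hmax hϖ𝔫 hs𝔫) hP₂ hQ₂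
      hP𝔫 hQ𝔫 hPK
  have hQlab : PosAt Q (y - algebraMap A₀ F' ξ₀) :=
    conn hTK4 A₀ C₁ C₂ CC ϖ hϖ tC sC hH1 hH0 (Cls C₁ y ξ₀) (Cls C₂ y ξ₀) hc₁ hc₂
      (fun PP hPP => hcompat PP hPP.1.1) P Q hP hQ hlab
  -- the two labels of `ξ y` at `Q`
  have h2 : PosAt Q (algebraMap A₀ F' ξ * y - algebraMap A₀ F' ξ₀) := by
    have := hQτ _ hlab
    rwa [map_sub, hτy, IsScalarTower.algebraMap_apply A₀ F F' ξ₀, AlgEquiv.commutes,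
      ← IsScalarTower.algebraMap_apply A₀ F F' ξ₀] at this
  have h3 : PosAt Q (algebraMap A₀ F' ξ * y - algebraMap A₀ F' (ξ * ξ₀)) := by
    have := posAt_mul_intAt hQ.1.1 hQlab (intAt_const hQ.1.1 ξ)
    rwa [sub_mul, mul_comm, mul_comm (algebraMap A₀ F' ξ₀), ← map_mul] at this
  have h4 : ξ₀ = ξ * ξ₀ := label_unique (B := B₁) hm hmu hQ.1.1 hξ₀
    (by rw [mul_pow, hξ, hξ₀, one_mul]) h2 h3
  have hξ₀0 : ξ₀ ≠ 0 := by
    rintro rfl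
    rw [zero_pow hm.ne'] at hξ₀
    exact zero_ne_one hξ₀
  have h5 : ξ = 1 := by
    have : 1 * ξ₀ = ξ * ξ₀ := by rw [one_mul]; exact h4
    exact (mul_right_cancel₀ hξ₀0 this).symm
  rw [hτy, h5, map_one, one_mul]

end Fermat.Agent.S36.CovP
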