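import Fermat.Agent.S36.CovP2
import Fermat.Agent.S36.CovInterface
import Fermat.Agent.KL.TK4
import Fermat.Agent.KL.SmallG
import Fermat.Agent.KL.TwoCharts
import Fermat.Agent.KL.PolyRing
import Fermat.Agent.KL.PolyRing4

/-!
# S36 / COV : `Stmt_CovField` from the abstract two-chart theorem (helper93)
-/

set_option autoImplicit false
set_option linter.unusedSectionVars false
set_option linter.style.haveILetI false

namespace Fermat.Agent.S36.CovP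

open Fermat.Agent.S36 Fermat.Agent.S36.Cov Fermat.Agent.KL

theorem covField (hFin : Stmt_CovFin) (hNE : Stmt_CovNonempty) (hLink : Stmt_CovLink) :
    Stmt_CovField := by
  intro A₀ F F' _ _ _ _ _ _ _ _ _ _ _ _ ϖ t m ζ u y hϖ ht hfin hconst hmu hζ hu hy good₁ pos₂ good₂ τ
  have hm : 0 < m := by
    rcases Nat.eq_zero_or_pos m with h | h
    · rw [h, Nat.cast_zero] at hmu
      exact (not_isUnit_zero hmu).elim
    · exact h
  have hinj : Function.Injective (algebraMap A₀ F') := by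
    rw [IsScalarTower.algebraMap_eq A₀ F F']
    exact (algebraMap F F').injective.comp (FaithfulSMul.algebraMap_injective A₀ F)
  haveI : FaithfulSMul A₀ F' := (faithfulSMul_iff_algebraMap_injective A₀ F').2 hinj
  haveI : CharZero F' := charZero_of_injective_algebraMap (algebraMap F F').injective
  obtain ⟨-, ht₂, hfin₂'⟩ := stmt_polyRConcrete A₀ F t ht
  have hfin₂ := hfin₂' hfin
  generalize ht'def : algebraMap F F' t = t' at *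
  obtain ⟨ht', hfin'⟩ := hFin A₀ F F' t t' ht'def ht hfin
  have ht'0 : t' ≠ 0 := by
    rintro rfl
    exact ht' isAlgebraic_zero
  obtain ⟨hpv₁, ht₂', hfin₂''⟩ := stmt_polyRConcrete A₀ F' t' ht'
  have hfin₂' := hfin₂'' hfin'
  obtain ⟨hpv₂, -, -⟩ := stmt_polyRConcrete A₀ F' t'⁻¹ ht₂'
  obtain ⟨-, hn₁, -, -, -, -, -⟩ :=
    stmt_chartBasic A₀ (PolyR A₀ t') F' (Chart A₀ t') (polyX A₀ t') hpv₁ hfin'
  obtain ⟨-, hn₂, -, -, -, -, -⟩ :=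
    stmt_chartBasic A₀ (PolyR A₀ t'⁻¹) F' (Chart A₀ t'⁻¹) (polyX A₀ t'⁻¹) hpv₂ hfin₂'
  haveI := TK.awayB1 A₀ stmt_chartOverlap ht'0
  haveI := TK.awayB2 A₀ stmt_chartOverlap ht'0
  have hH1 := TK.chart_h1 A₀ (stmt_H1fg stmt_chartBasic stmt_polyRConcrete) ht' hfin'
  have hH0 := TK.chart_h0 A₀ stmt_chartInter ht' hconst
  obtain ⟨alg₁, tw₁, ic₁, hc₁, -, hcontr₁⟩ := hLink A₀ F F' ϖ t t' ht'def hϖ ht hfin
  obtain ⟨alg₂, tw₂, ic₂, hc₂, hcrd₂, hcontr₂⟩ := hLink A₀ F F' ϖ t⁻¹ t'⁻¹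
    (by rw [map_inv₀, ht'def]) hϖ ht₂ hfin₂
  obtain ⟨P, hP⟩ := hNE A₀ F' ϖ t' hϖ ht'
  refine two_chart (stmt_TK4 stmt_H1bound) (B₁ := Chart A₀ t) (B₂ := Chart A₀ t⁻¹)
    (C₁ := Chart A₀ t') (C₂ := Chart A₀ t'⁻¹) (CC := Chart2 A₀ t') ϖ hϖ (crd A₀ t') (crd A₀ t'⁻¹)
    hH1 hH0 hinj hm hmu hζ hu hy (cst A₀ t ϖ) (cst A₀ t⁻¹ ϖ) (crd A₀ t⁻¹)
    ((hc₁ ϖ).trans (TK.cst_eq A₀ t' ϖ)) ((hc₂ ϖ).trans (TK.cst_eq A₀ t'⁻¹ ϖ)) hcrd₂
    (by rw [hc₁]; exact hcontr₁) (by rw [hc₂]; exact hcontr₂) good₁ pos₂ good₂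
    ⟨P, by rw [← TK.cst_eq]; exact hP⟩ τ

end Fermat.Agent.S36.CovP
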