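import Mathlib

/-!
# S36 : (CRIT) a normal noetherian domain is determined by its height one primes

`B` a noetherian integrally closed domain with fraction field `F`.  Valuation free forms:

* `Crit.mem_minimalPrimes_of_isPrime_den` : (ASS) if the ideal of denominators `den y` is prime,
  it is minimal over every nonzero principal ideal it contains.
* `Crit.crit_loc`, `Crit.crit` : (CRIT) `x * r ^ k ∈ B`, and `x ∈ B_P` for the minimal primes `P`
  over `r` (contained in the prime `𝔫`)  ⟹  `x ∈ B_𝔫` (resp. `x ∈ B`).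
* `Crit.krull` : `x ∈ B_p` for all height one primes `p` ⟹ `x ∈ B`.
* `Crit.dvd_of_unique_loc`, `Crit.eq_span_of_unique` : a prime which is the only minimal prime over
  `a` and is generated by `a` generically is generated by `a`.
-/

set_option autoImplicit false
set_option linter.unusedSectionVars false

namespace Fermat.Agent.S36.Crit

variable {B F : Type*} [CommRing B] [IsDomain B] [Field F] [Algebra B F] [IsFractionRing B F]

local notation "ι" => algebraMap B F

/-- the ideal of denominators of `x`. -/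
def den (x : F) : Ideal B where
  carrier := {c | ∃ b : B, ι c * x = ι b}
  zero_mem' := ⟨0, by simp⟩
  add_mem' := by
    rintro c c' ⟨b, hb⟩ ⟨b', hb'⟩
    exact ⟨b + b', by rw [map_add, add_mul, hb, hb', map_add]⟩
  smul_mem' := by
    rintro a c ⟨b, hb⟩
    exact ⟨a * b, by rw [smul_eq_mul, map_mul, mul_assoc, hb, map_mul]⟩

theorem mem_den {x : F} {c : B} : c ∈ den (B := B) x ↔ ∃ b : B, ι c * x = ι b := Iff.rfl

theorem den_le_den_mul (c : B) (x : F) : den (B := B) x ≤ den (ι c * x) := by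
  rintro d ⟨b, hb⟩
  exact ⟨c * b, by rw [map_mul, ← hb]; ring⟩

theorem mem_den_mul {c d : B} {x : F} :
    d ∈ den (B := B) (ι c * x) ↔ d * c ∈ den (B := B) x := by
  simp only [mem_den, map_mul, mul_assoc]

theorem den_eq_top_iff {x : F} : den (B := B) x = ⊤ ↔ ∃ b : B, x = ι b := by
  rw [Ideal.eq_top_iff_one, mem_den]
  simp

/-- an associated prime of `F / B` inside a given prime `𝔫 ⊇ den x`. -/
theorem exists_isPrime_den [IsNoetherianRing B] (𝔫 : Ideal B) [h𝔫 : 𝔫.IsPrime] (x : F)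
    (hx : den (B := B) x ≤ 𝔫) :
    ∃ c : B, (den (B := B) (ι c * x)).IsPrime ∧ den (B := B) (ι c * x) ≤ 𝔫 := by
  let S : Set (Ideal B) := {I | ∃ c : B, I = den (ι c * x) ∧ I ≤ 𝔫}
  have hS : S.Nonempty := ⟨den (ι 1 * x), 1, rfl, by simpa using hx⟩
  obtain ⟨p, ⟨c, rfl, hpn⟩, hmax⟩ :=
    (set_has_maximal_iff_noetherian (R := B) (M := B)).2 inferInstance S hS
  refine ⟨c, ?_, hpn⟩
  set y := ι c * x with hy
  have key : ∀ a : B, den (B := B) (ι a * y) ≤ 𝔫 → den (B := B) (ι a * y) = den y := by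
    intro a ha
    by_contra hne
    exact hmax (den (ι a * y)) ⟨a * c, by rw [map_mul, mul_assoc], ha⟩
      (lt_of_le_of_ne (den_le_den_mul a y) (Ne.symm hne))
  have sat : ∀ s a : B, s ∉ 𝔫 → s * a ∈ den (B := B) y → a ∈ den (B := B) y := by
    intro s a hs hsa
    have h1 : den (B := B) (ι s * y) ≤ 𝔫 := by
      intro z hz
      rw [mem_den_mul] at hz
      exact (h𝔫.mem_or_mem (hpn hz)).resolve_right hs
    rw [← key s h1, mem_den_mul, mul_comm]
    exact hsa
  refine ⟨?_, ?_⟩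
  · intro h
    exact h𝔫.ne_top (top_le_iff.1 (h ▸ hpn))
  · intro a b hab
    by_cases ha : den (B := B) (ι a * y) ≤ 𝔫
    · right
      rw [← key a ha, mem_den_mul, mul_comm]
      exact hab
    · left
      obtain ⟨s, hs, hsn⟩ := Set.not_subset.1 ha
      exact sat s a hsn (mem_den_mul.1 hs)

/-- (ASS) a prime ideal of denominators is locally principal. -/
theorem exists_gen_of_isPrime_den [IsNoetherianRing B] [IsIntegrallyClosed B] (y : F)
    (hp : (den (B := B) y).IsPrime) :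
    ∃ t ∈ den (B := B) y, ∃ u ∉ den (B := B) y, ∀ z ∈ den (B := B) y, t ∣ u * z := by
  set p := den (B := B) y with hpdef
  have hA : ∃ t ∈ p, ∃ u ∉ p, ι t * y = ι u := by
    by_contra h
    push Not at h
    -- `p ≠ ⊥`
    obtain ⟨r, hr0, hrp⟩ : ∃ r : B, r ≠ 0 ∧ r ∈ p := by
      obtain ⟨a, s, hs, rfl⟩ := IsFractionRing.div_surjective (A := B) y
      have hs0 : ι s ≠ 0 := by
        simpa using (nonZeroDivisors.ne_zero hs)
      exact ⟨s, nonZeroDivisors.ne_zero hs, a, by field_simp⟩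
    have hint : IsIntegral B y := by
      refine isIntegral_of_smul_mem_submodule (M := F)
        (Submodule.map (Algebra.linearMap B F) p) ?_ ((IsNoetherian.noetherian p).map _) y ?_
      · intro hbot
        have : ι r ∈ Submodule.map (Algebra.linearMap B F) p := ⟨r, hrp, rfl⟩
        rw [hbot, Submodule.mem_bot] at this
        exact hr0 ((map_eq_zero_iff _ (IsFractionRing.injective B F)).1 this)
      · rintro _ ⟨t, ht, rfl⟩
        obtain ⟨u, hu⟩ := mem_den.1 ht
        refine ⟨u, ?_, ?_⟩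
        · by_contra hup
          exact h t ht u hup hu
        · rw [smul_eq_mul, mul_comm]
          exact hu.symm
    obtain ⟨b, hb⟩ := IsIntegrallyClosed.isIntegral_iff.1 hint
    exact hp.ne_top (den_eq_top_iff.2 ⟨b, hb.symm⟩)
  obtain ⟨t, ht, u, hu, htu⟩ := hA
  refine ⟨t, ht, u, hu, fun z hz => ?_⟩
  obtain ⟨w, hw⟩ := mem_den.1 hz
  refine ⟨w, IsFractionRing.injective B F ?_⟩
  rw [map_mul, map_mul, ← htu, ← hw]
  ring

/-- (ASS) a prime ideal of denominators is minimal over every nonzero principal ideal in it. -/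
theorem mem_minimalPrimes_of_isPrime_den [IsNoetherianRing B] [IsIntegrallyClosed B] (y : F)
    (hp : (den (B := B) y).IsPrime) (r : B) (hr : r ≠ 0) (hrp : r ∈ den (B := B) y) :
    den (B := B) y ∈ (Ideal.span {r}).minimalPrimes := by
  obtain ⟨t, ht, u, hu, htu⟩ := exists_gen_of_isPrime_den y hp
  set p := den (B := B) y with hpdef
  have hmin : p ∈ (Ideal.span {t}).minimalPrimes := by
    refine ⟨⟨hp, (Ideal.span_singleton_le_iff_mem _).2 ht⟩, ?_⟩
    rintro q ⟨hq, htq⟩ hqp z hz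
    have h1 : u * z ∈ q := Ideal.mem_of_dvd q (htu z hz) ((Ideal.span_singleton_le_iff_mem _).1 htq)
    exact (hq.mem_or_mem h1).resolve_left fun huq => hu (hqp huq)
  have hht : p.height ≤ 1 := Ideal.height_le_one_of_isPrincipal_of_mem_minimalPrimes _ p hmin
  exact Ideal.mem_minimalPrimes_of_height_le ((Ideal.span_singleton_le_iff_mem _).2 hrp)
    (hht.trans (Ideal.one_le_height_span_singleton_of_mem_nonZeroDivisors
      (mem_nonZeroDivisors_of_ne_zero hr)))

/-- (CRIT), local form. -/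
theorem crit_loc [IsNoetherianRing B] [IsIntegrallyClosed B] (𝔫 : Ideal B) [𝔫.IsPrime] (r : B)
    (hr : r ≠ 0) (x : F) (k : ℕ) (hx : ∃ b : B, x * ι r ^ k = ι b)
    (H : ∀ P ∈ (Ideal.span {r}).minimalPrimes, P ≤ 𝔫 → ∃ s ∉ P, ∃ b : B, x * ι s = ι b) :
    ∃ s ∉ 𝔫, ∃ b : B, x * ι s = ι b := by
  by_contra hcon
  have hle : den (B := B) x ≤ 𝔫 := by
    intro s hs
    by_contra hsn
    obtain ⟨b, hb⟩ := hs
    exact hcon ⟨s, hsn, b, by rw [mul_comm]; exact hb⟩
  obtain ⟨c, hp, hpn⟩ := exists_isPrime_den 𝔫 x hle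
  have hrk : r ^ k ∈ den (B := B) (ι c * x) := by
    apply den_le_den_mul c x
    obtain ⟨b, hb⟩ := hx
    exact ⟨b, by rw [map_pow, mul_comm]; exact hb⟩
  have hrp : r ∈ den (B := B) (ι c * x) := hp.mem_of_pow_mem k hrk
  obtain ⟨s, hs, b, hb⟩ := H _ (mem_minimalPrimes_of_isPrime_den _ hp r hr hrp) hpn
  exact hs (den_le_den_mul c x ⟨b, by rw [mul_comm]; exact hb⟩)

/-- (CRIT), global form. -/
theorem crit [IsNoetherianRing B] [IsIntegrallyClosed B] (r : B)
    (hr : r ≠ 0) (x : F) (k : ℕ) (hx : ∃ b : B, x * ι r ^ k = ι b)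
    (H : ∀ P ∈ (Ideal.span {r}).minimalPrimes, ∃ s ∉ P, ∃ b : B, x * ι s = ι b) :
    ∃ b : B, x = ι b := by
  rw [← den_eq_top_iff]
  by_contra hne
  obtain ⟨𝔪, h𝔪, hle⟩ := Ideal.exists_le_maximal _ hne
  have := h𝔪.isPrime
  obtain ⟨s, hs, b, hb⟩ := crit_loc 𝔪 r hr x k hx fun P hP _ => H P hP
  exact hs (hle ⟨b, by rw [mul_comm]; exact hb⟩)

/-- a normal noetherian domain is the intersection of its localisations at height one primes. -/
theorem krull [IsNoetherianRing B] [IsIntegrallyClosed B] (x : F)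
    (H : ∀ p : Ideal B, p.IsPrime → p.height = 1 → ∃ s ∉ p, ∃ b : B, x * ι s = ι b) :
    ∃ b : B, x = ι b := by
  obtain ⟨a, s, hs, rfl⟩ := IsFractionRing.div_surjective (A := B) x
  have hs0 : s ≠ 0 := nonZeroDivisors.ne_zero hs
  have hs0' : ι s ≠ 0 := by simpa using hs0
  refine crit s hs0 _ 1 ⟨a, by field_simp⟩ fun P hP => H P hP.1.1 ?_
  have := hP.1.1
  refine le_antisymm (Ideal.height_le_one_of_isPrincipal_of_mem_minimalPrimes _ P hP) ?_
  exact (Ideal.one_le_height_span_singleton_of_mem_nonZeroDivisors hs).trans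
    (Ideal.height_mono hP.1.2)

omit [Field F] [Algebra B F] [IsFractionRing B F] in
/-- local principality of a prime from generic principality: if every minimal prime `P ≤ 𝔫` over
`a` satisfies `b ∈ a B_P`, then `b ∈ a B_𝔫`. -/
theorem dvd_loc [IsNoetherianRing B] [IsIntegrallyClosed B] (𝔫 : Ideal B) [𝔫.IsPrime] (a : B)
    (ha : a ≠ 0) (b : B)
    (H : ∀ P ∈ (Ideal.span {a}).minimalPrimes, P ≤ 𝔫 → ∃ s ∉ P, a ∣ s * b) :
    ∃ s ∉ 𝔫, a ∣ s * b := by
  let j := algebraMap B (FractionRing B)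
  have ha' : j a ≠ 0 := by simpa [j] using ha
  obtain ⟨s, hs, c, hc⟩ := crit_loc (F := FractionRing B) 𝔫 a ha (j b / j a) 1
    ⟨b, by simp only [pow_one]; exact div_mul_cancel₀ _ ha'⟩ (by
    intro P hP hPn
    obtain ⟨s, hs, c, hc⟩ := H P hP hPn
    refine ⟨s, hs, c, ?_⟩
    show j b / j a * j s = j c
    rw [div_mul_eq_mul_div, div_eq_iff ha', ← map_mul, ← map_mul, mul_comm b s, hc, mul_comm])
  refine ⟨s, hs, c, IsFractionRing.injective B (FractionRing B) ?_⟩
  replace hc : j b / j a * j s = j c := hc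
  rw [div_mul_eq_mul_div, div_eq_iff ha'] at hc
  show j (s * b) = j (a * c)
  rw [map_mul, map_mul, mul_comm (j s), hc, mul_comm]

omit [Field F] [Algebra B F] [IsFractionRing B F] in
/-- global form of `dvd_loc`. -/
theorem dvd_glob [IsNoetherianRing B] [IsIntegrallyClosed B] (a : B) (ha : a ≠ 0) (b : B)
    (H : ∀ P ∈ (Ideal.span {a}).minimalPrimes, ∃ s ∉ P, a ∣ s * b) : a ∣ b := by
  by_contra hne
  have hI : (Ideal.span {a}).colon {b} ≠ ⊤ := by
    intro h
    have h1 : (1 : B) ∈ (Ideal.span {a}).colon {b} := h ▸ Submodule.mem_top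
    rw [Submodule.mem_colon_singleton] at h1
    exact hne (Ideal.mem_span_singleton.1 (by simpa using h1))
  obtain ⟨𝔪, h𝔪, hle⟩ := Ideal.exists_le_maximal _ hI
  have := h𝔪.isPrime
  obtain ⟨s, hs, hsb⟩ := dvd_loc 𝔪 a ha b fun P hP _ => H P hP
  refine hs (hle ?_)
  rw [Submodule.mem_colon_singleton]
  exact Ideal.mem_span_singleton.2 (by simpa using hsb)

/-- if `P` is the only minimal prime over `a` and `a` generates `P` generically, then
`P = (a)`. -/
theorem eq_span_of_unique [IsNoetherianRing B] [IsIntegrallyClosed B] (a : B) (ha : a ≠ 0)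
    (P : Ideal B) (haP : a ∈ P) (huniq : ∀ Q ∈ (Ideal.span {a}).minimalPrimes, Q = P)
    (hgen : ∀ b ∈ P, ∃ s ∉ P, a ∣ s * b) : P = Ideal.span {a} := by
  refine le_antisymm (fun b hb => ?_) ((Ideal.span_singleton_le_iff_mem _).2 haP)
  refine Ideal.mem_span_singleton.2 (dvd_glob a ha b fun Q hQ => ?_)
  rw [huniq Q hQ]
  exact hgen b hb

end Fermat.Agent.S36.Crit
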