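import Mathlib

/-!
# S36 / [UNIT] : generators of `Γ₀(a)`, `2 ≤ a ≤ 4`

`Γ₀(a) = ⟨-1, T, L a⟩`, `L c = [[1,0],[c,1]]`, by a two step Euclidean descent.
-/

set_option autoImplicit false

namespace Fermat.Agent.S36.Gen

open Matrix Matrix.SpecialLinearGroup ModularGroup CongruenceSubgroup
open scoped MatrixGroups

/-- `[[1,0],[c,1]]`. -/
def L (c : ℤ) : SL(2, ℤ) := ⟨!![1, 0; c, 1], by simp [Matrix.det_fin_two_of]⟩

theorem coe_L (c : ℤ) : (L c).1 = !![1, 0; c, 1] := rfl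

theorem L_add (c c' : ℤ) : L (c + c') = L c * L c' := by
  apply Subtype.ext
  rw [coe_mul, coe_L, coe_L, coe_L, Matrix.mul_fin_two]
  congrm !![?_, ?_; ?_, ?_] <;> ring

theorem L_zero : L 0 = 1 := by
  apply Subtype.ext
  rw [coe_L, Matrix.SpecialLinearGroup.coe_one, Matrix.one_fin_two]

/-- `c ↦ L c` as a homomorphism. -/
def Lhom : Multiplicative ℤ →* SL(2, ℤ) where
  toFun c := L c.toAdd
  map_one' := L_zero
  map_mul' _ _ := L_add _ _

theorem L_mul_eq_zpow (c k : ℤ) : L (c * k) = L c ^ k := by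
  have h := map_zpow Lhom (Multiplicative.ofAdd c) k
  have h2 : (Multiplicative.ofAdd c) ^ k = Multiplicative.ofAdd (c * k) := by
    rw [← ofAdd_zsmul, smul_eq_mul, mul_comm]
  rw [h2] at h
  exact h

theorem exists_balanced (x m : ℤ) (hm : m ≠ 0) : ∃ n : ℤ, 2 * |x + n * m| ≤ |m| := by
  have h := Int.emod_add_mul_ediv x |m|
  have hm' : 0 < |m| := abs_pos.2 hm
  have h0 := Int.emod_nonneg x hm'.ne'
  have h1 := Int.emod_lt_of_pos x hm'
  obtain ⟨e, he⟩ : ∃ e : ℤ, |m| = e * m := by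
    rcases abs_choice m with h | h
    · exact ⟨1, by rw [h, one_mul]⟩
    · exact ⟨-1, by rw [h]; ring⟩
  by_cases hc : 2 * (x % |m|) ≤ |m|
  · refine ⟨-(x / |m|) * e, ?_⟩
    have : x + -(x / |m|) * e * m = x % |m| := by
      rw [mul_assoc, ← he]; linarith
    rw [this, abs_of_nonneg h0]
    exact hc
  · refine ⟨(-(x / |m|) - 1) * e, ?_⟩
    have : x + (-(x / |m|) - 1) * e * m = x % |m| - |m| := by
      rw [mul_assoc, ← he]; linarith
    rw [this, abs_of_nonpos (by linarith)]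
    linarith

theorem mem_Gamma0_iff (a : ℕ) (g : SL(2, ℤ)) : g ∈ Gamma0 a ↔ (a : ℤ) ∣ g 1 0 := by
  rw [Gamma0_mem, ZMod.intCast_zmod_eq_zero_iff_dvd]

/-- the generating set. -/
def gens (a : ℕ) : Set SL(2, ℤ) := {-1, T, L a}

theorem T_zpow_mem (a : ℕ) (n : ℤ) : T ^ n ∈ Subgroup.closure (gens a) :=
  Subgroup.zpow_mem _ (Subgroup.subset_closure (by simp [gens])) n

theorem L_mul_mem (a : ℕ) (n : ℤ) : L (a * n) ∈ Subgroup.closure (gens a) := by
  rw [L_mul_eq_zpow]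
  exact Subgroup.zpow_mem _ (Subgroup.subset_closure (by simp [gens])) n

theorem neg_one_mem (a : ℕ) : (-1 : SL(2, ℤ)) ∈ Subgroup.closure (gens a) :=
  Subgroup.subset_closure (by simp [gens])

theorem mul_T_zpow_apply (g : SL(2, ℤ)) (n : ℤ) :
    (g * T ^ n) 1 0 = g 1 0 ∧ (g * T ^ n) 1 1 = g 1 1 + n * g 1 0 := by
  constructor
  · rw [Matrix.SpecialLinearGroup.coe_mul, coe_T_zpow, Matrix.mul_apply, Fin.sum_univ_two]
    simp
  · rw [Matrix.SpecialLinearGroup.coe_mul, coe_T_zpow, Matrix.mul_apply, Fin.sum_univ_two]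
    simp; ring

theorem mul_L_apply (g : SL(2, ℤ)) (c : ℤ) :
    (g * L c) 1 0 = g 1 0 + c * g 1 1 ∧ (g * L c) 1 1 = g 1 1 := by
  constructor
  · rw [Matrix.SpecialLinearGroup.coe_mul, coe_L, Matrix.mul_apply, Fin.sum_univ_two]
    simp; ring
  · rw [Matrix.SpecialLinearGroup.coe_mul, coe_L, Matrix.mul_apply, Fin.sum_univ_two]
    simp

theorem mem_closure_of_c_eq_zero (a : ℕ) (g : SL(2, ℤ)) (hc : g 1 0 = 0) :
    g ∈ Subgroup.closure (gens a) := by
  have hdet := g.det_coe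
  rw [Matrix.det_fin_two, hc, mul_zero, sub_zero] at hdet
  rcases Int.eq_one_or_neg_one_of_mul_eq_one' hdet with ⟨h0, h1⟩ | ⟨h0, h1⟩
  · have : g = T ^ (g 0 1) := by
      apply Subtype.ext
      rw [coe_T_zpow]
      ext i j
      fin_cases i <;> fin_cases j <;> simp [h0, h1, hc]
    rw [this]
    exact T_zpow_mem a _
  · have : g = -1 * T ^ (-(g 0 1)) := by
      apply Subtype.ext
      rw [Matrix.SpecialLinearGroup.coe_mul, coe_T_zpow]
      ext i j
      fin_cases i <;> fin_cases j <;> simp [h0, h1, hc, Matrix.mul_apply, Fin.sum_univ_two]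
    rw [this]
    exact Subgroup.mul_mem _ (neg_one_mem a) (T_zpow_mem a _)

theorem mem_closure_aux (a : ℕ) (ha2 : 2 ≤ a) (ha4 : a ≤ 4) :
    ∀ (n : ℕ) (g : SL(2, ℤ)), g ∈ Gamma0 a → (g 1 0).natAbs = n →
      g ∈ Subgroup.closure (gens a) := by
  intro n
  induction n using Nat.strong_induction_on with
  | _ n ih =>
    intro g hg hn
    by_cases hc : g 1 0 = 0
    · exact mem_closure_of_c_eq_zero a g hc
    rw [mem_Gamma0_iff] at hg
    obtain ⟨n1, hn1⟩ := exists_balanced (g 1 1) (g 1 0) hc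
    obtain ⟨g1, hg1⟩ : ∃ g1, g1 = g * T ^ n1 := ⟨_, rfl⟩
    have h10 : g1 1 0 = g 1 0 := by rw [hg1]; exact (mul_T_zpow_apply g n1).1
    have h11 : g1 1 1 = g 1 1 + n1 * g 1 0 := by rw [hg1]; exact (mul_T_zpow_apply g n1).2
    rw [← h11, ← h10] at hn1
    have hdet := g1.det_coe
    rw [Matrix.det_fin_two] at hdet
    have haZ2 : (2 : ℤ) ≤ a := by exact_mod_cast ha2
    have haZ4 : (a : ℤ) ≤ 4 := by exact_mod_cast ha4
    have hd0 : g1 1 1 ≠ 0 := by
      intro h0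
      rw [h0, mul_zero, zero_sub] at hdet
      have h1 : g1 1 0 ∣ 1 := ⟨-(g1 0 1), by linarith⟩
      have h2 : (a : ℤ) ∣ 1 := (h10 ▸ hg).trans h1
      have := Int.le_of_dvd one_pos h2
      linarith
    have had0 : (a : ℤ) * g1 1 1 ≠ 0 := mul_ne_zero (by positivity) hd0
    obtain ⟨n2, hn2⟩ := exists_balanced (g1 1 0) ((a : ℤ) * g1 1 1) had0
    obtain ⟨g2, hg2⟩ : ∃ g2, g2 = g1 * L (a * n2) := ⟨_, rfl⟩
    have h20 : g2 1 0 = g1 1 0 + n2 * ((a : ℤ) * g1 1 1) := by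
      rw [hg2, (mul_L_apply g1 _).1]; ring
    rw [← h20, abs_mul, abs_of_nonneg (by positivity : (0 : ℤ) ≤ a)] at hn2
    have hg2mem : g2 ∈ Gamma0 a := by
      rw [mem_Gamma0_iff, h20, h10]
      exact dvd_add hg (Dvd.intro_left (n2 * g1 1 1) (by ring))
    have hlt : |g2 1 0| < |g1 1 0| := by
      by_contra hcon
      push Not at hcon
      have hd' : 0 ≤ |g1 1 1| := abs_nonneg _
      have hc' : 0 ≤ |g1 1 0| := abs_nonneg _
      -- `4 |c'| ≤ 2 a |d'| ≤ a |c| ≤ 4 |c| ≤ 4 |c'|`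
      have e1 : (a : ℤ) * (2 * |g1 1 1|) ≤ a * |g1 1 0| :=
        mul_le_mul_of_nonneg_left hn1 (by positivity)
      have e2 : (a : ℤ) * |g1 1 0| ≤ 4 * |g1 1 0| := mul_le_mul_of_nonneg_right haZ4 hc'
      have hcpos : 0 < |g1 1 0| := abs_pos.2 (h10 ▸ hc)
      have ea : (a : ℤ) = 4 := by
        by_contra hne
        have : (a : ℤ) ≤ 3 := by omega
        have e3 : (a : ℤ) * |g1 1 0| ≤ 3 * |g1 1 0| := mul_le_mul_of_nonneg_right this hc'
        nlinarith
      rw [ea] at e1 hn2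
      have e4 : 2 * |g1 1 1| = |g1 1 0| := by linarith
      -- then `d' ∣ c`, so `d' ∣ 1`
      have hdvd : g1 1 1 ∣ g1 1 0 := by
        rw [← abs_dvd_abs, ← e4]
        exact Dvd.intro_left 2 rfl
      have hd1 : g1 1 1 ∣ 1 := by
        have h7 : g1 1 1 ∣ g1 0 0 * g1 1 1 - g1 0 1 * g1 1 0 :=
          dvd_sub (Dvd.intro_left _ rfl) (Dvd.dvd.mul_left hdvd _)
        rwa [hdet] at h7
      have hd1' : |g1 1 1| = 1 := by
        have := Int.natAbs_dvd_natAbs.2 hd1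
        have h3 : (g1 1 1).natAbs = 1 := by simpa using this
        rw [Int.abs_eq_natAbs, h3]; rfl
      rw [hd1'] at e4
      have h4 : (4 : ℤ) ∣ g1 1 0 := by rw [h10, ← ea]; exact hg
      have h5 : (4 : ℤ) ∣ |g1 1 0| := (dvd_abs _ _).2 h4
      rw [← e4] at h5
      omega
    have hlt' : (g2 1 0).natAbs < n := by
      rw [← hn, ← h10]
      rw [Int.abs_eq_natAbs, Int.abs_eq_natAbs] at hlt
      exact_mod_cast hlt
    have hg2H := ih _ hlt' g2 hg2mem rfl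
    rw [hg2, hg1] at hg2H
    have h6 := (Subgroup.mul_mem_cancel_right _ (L_mul_mem a n2)).1 hg2H
    exact (Subgroup.mul_mem_cancel_right _ (T_zpow_mem a n1)).1 h6

/-- `Γ₀(a) = ⟨-1, T, [[1,0],[a,1]]⟩` for `a = 2, 3, 4`. -/
theorem gamma0_eq_closure (a : ℕ) (ha2 : 2 ≤ a) (ha4 : a ≤ 4) :
    Gamma0 a = Subgroup.closure (gens a) := by
  apply le_antisymm
  · intro g hg
    exact mem_closure_aux a ha2 ha4 _ g hg rfl
  · rw [Subgroup.closure_le]
    rintro g (rfl | rfl | rfl)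
    · rw [SetLike.mem_coe, mem_Gamma0_iff]; simp
    · rw [SetLike.mem_coe, mem_Gamma0_iff]; simp [coe_T]
    · rw [SetLike.mem_coe, mem_Gamma0_iff]; simp [coe_L]

/-- Induction principle for `Γ₀(a)`, `a = 2, 3, 4`. -/
theorem gamma0_induction (a : ℕ) (ha2 : 2 ≤ a) (ha4 : a ≤ 4) (P : SL(2, ℤ) → Prop)
    (hneg : P (-1)) (hT : P T) (hL : P (L a)) (hmul : ∀ g h, P g → P h → P (g * h))
    (hinv : ∀ g, P g → P g⁻¹) (g : SL(2, ℤ)) (hg : g ∈ Gamma0 a) : P g := by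
  rw [gamma0_eq_closure a ha2 ha4] at hg
  induction hg using Subgroup.closure_induction with
  | mem x hx =>
    rcases hx with rfl | rfl | rfl
    · exact hneg
    · exact hT
    · exact hL
  | one =>
    have := hmul _ _ hneg hneg
    simpa using this
  | mul x y _ _ hx hy => exact hmul x y hx hy
  | inv x _ hx => exact hinv x hx

end Fermat.Agent.S36.Gen
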