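import Mathlib

/-!
# S36 : Kolchin's theorem for quadratic unipotents

A multiplicatively closed set of endomorphisms `g` of a nonzero finite dimensional vector space with
`(g - 1) ^ 2 = 0` has a common nonzero fixed vector.
-/

set_option autoImplicit false

namespace Fermat.Agent.S36

namespace Kolchin

/-- polarisation: `a² = b² = 0` and `((1+a)(1+b) - 1)² = 0` imply `ab + ba = 0`. -/
theorem anticomm {A : Type*} [Ring A] (a b : A) (ha : a * a = 0) (hb : b * b = 0)
    (hab : (a + b + a * b) * (a + b + a * b) = 0) : a * b + b * a = 0 := by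
  have E : a * b + b * a + b * a * b + a * b * a + a * b * a * b = 0 := by
    have h : (a + b + a * b) * (a + b + a * b) = a * b + b * a + b * a * b + a * b * a
        + a * b * a * b + (a * a + b * b + a * a * b + a * (b * b)) := by noncomm_ring
    rw [hab, ha, hb] at h
    simpa using h.symm
  have h1 : a * b * a + a * b * a * b = 0 := by
    have h : a * (a * b + b * a + b * a * b + a * b * a + a * b * a * b)
        = a * b * a + a * b * a * b + (a * a * b + a * a * b * a + a * a * b * a * b) := by
      noncomm_ring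
    rw [E, ha] at h
    simpa using h.symm
  have h2 : a * b * a = 0 := by
    have h : (a * b * a + a * b * a * b) * (1 - b) = a * b * a - a * b * a * (b * b) := by
      noncomm_ring
    rw [h1, hb] at h
    simpa using h.symm
  have h3 : b * a * b + a * b * a * b = 0 := by
    have h : (a * b + b * a + b * a * b + a * b * a + a * b * a * b) * b
        = b * a * b + a * b * a * b + (a * (b * b) + b * a * (b * b) + a * b * a * (b * b)) := by
      noncomm_ring
    rw [E, hb] at h
    simpa using h.symm
  have h4 : b * a * b = 0 := by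
    rw [h2, zero_mul, add_zero] at h3
    exact h3
  rw [h2, h4] at E
  simpa using E

variable {E V : Type*} [Field E] [AddCommGroup V] [Module E V] [FiniteDimensional E V]

theorem aux (S : Submonoid (Module.End E V)) (h : ∀ g ∈ S, (g - 1) * (g - 1) = 0) (n : ℕ) :
    ∀ W : Submodule E V, Module.finrank E W ≤ n → W ≠ ⊥ → (∀ g ∈ S, ∀ w ∈ W, g w ∈ W) →
      ∃ v ∈ W, v ≠ 0 ∧ ∀ g ∈ S, g v = v := by
  induction n with
  | zero =>
    intro W hW hne _
    exact absurd (Submodule.finrank_eq_zero.mp (Nat.le_zero.mp hW)) hne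
  | succ n ih =>
    intro W hW hne hst
    by_cases htriv : ∀ g ∈ S, ∀ w ∈ W, g w = w
    · obtain ⟨v, hv, hv0⟩ := (Submodule.ne_bot_iff W).mp hne
      exact ⟨v, hv, hv0, fun g hg => htriv g hg v hv⟩
    · push Not at htriv
      obtain ⟨g, hg, w, hw, hgw⟩ := htriv
      -- `W' = W ∩ ker (g - 1)`
      let W' : Submodule E V := W ⊓ LinearMap.ker (g - 1)
      have hlt : W' < W := by
        refine lt_of_le_of_ne inf_le_left fun he => hgw ?_
        have : w ∈ W' := he ▸ hw
        have h2 : (g - 1) w = 0 := this.2
        rw [LinearMap.sub_apply, Module.End.one_apply, sub_eq_zero] at h2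
        exact h2
      have hne' : W' ≠ ⊥ := by
        rw [Submodule.ne_bot_iff]
        refine ⟨(g - 1) w, ⟨?_, ?_⟩, ?_⟩
        · rw [LinearMap.sub_apply, Module.End.one_apply]
          exact sub_mem (hst g hg w hw) hw
        · show (g - 1) ((g - 1) w) = 0
          rw [← Module.End.mul_apply, h g hg, LinearMap.zero_apply]
        · rw [LinearMap.sub_apply, Module.End.one_apply, sub_ne_zero]
          exact hgw
      have hst' : ∀ k ∈ S, ∀ x ∈ W', k x ∈ W' := by
        intro k hk x hx
        refine ⟨hst k hk x hx.1, ?_⟩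
        have hac := anticomm (g - 1) (k - 1) (h g hg) (h k hk) (by
          have : g - 1 + (k - 1) + (g - 1) * (k - 1) = g * k - 1 := by noncomm_ring
          rw [this]
          exact h _ (S.mul_mem hg hk))
        have hx2 : (g - 1) x = 0 := hx.2
        have h3 : ((g - 1) * (k - 1) + (k - 1) * (g - 1)) x = 0 := by rw [hac]; rfl
        rw [LinearMap.add_apply, Module.End.mul_apply, Module.End.mul_apply, hx2, map_zero,
          add_zero, LinearMap.sub_apply k, Module.End.one_apply, map_sub, hx2, sub_zero] at h3
        exact h3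
      have hfr : Module.finrank E W' ≤ n := by
        have := Submodule.finrank_lt_finrank_of_lt hlt
        omega
      obtain ⟨v, hv, hv0, hfix⟩ := ih W' hfr hne' hst'
      exact ⟨v, hv.1, hv0, hfix⟩

end Kolchin

/-- **Kolchin** for quadratic unipotents (submonoid of `End V`). -/
theorem kolchin {E V : Type*} [Field E] [AddCommGroup V] [Module E V] [FiniteDimensional E V]
    [Nontrivial V] (S : Submonoid (Module.End E V)) (h : ∀ g ∈ S, (g - 1) * (g - 1) = 0) :
    ∃ v : V, v ≠ 0 ∧ ∀ g ∈ S, g v = v := by
  obtain ⟨v, -, hv0, hfix⟩ := Kolchin.aux S h (Module.finrank E V) ⊤ (by simp)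
    (by simp) (fun _ _ _ _ => Submodule.mem_top)
  exact ⟨v, hv0, hfix⟩

/-- **Kolchin** for a monoid homomorphism restricted to a submonoid. -/
theorem kolchin_hom {E V G : Type*} [Field E] [AddCommGroup V] [Module E V]
    [FiniteDimensional E V] [Nontrivial V] [Monoid G] (ρ : G →* Module.End E V) (I : Submonoid G)
    (h : ∀ g ∈ I, (ρ g - 1) * (ρ g - 1) = 0) :
    ∃ v : V, v ≠ 0 ∧ ∀ g ∈ I, ρ g v = v := by
  obtain ⟨v, hv0, hfix⟩ := kolchin (I.map ρ) (by
    rintro _ ⟨g, hg, rfl⟩
    exact h g hg)
  exact ⟨v, hv0, fun g hg => hfix _ ⟨g, hg, rfl⟩⟩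

end Fermat.Agent.S36
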