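import Fermat.Agent.S36.AtAPI

/-!
# S36 : the norm of a local unit at a point which is alone in its fibre (ABS-NORMUNIT)

`B₁ ⊆ B` integral extension of domains, `B₁` normal, `F / F₁` the (finite) extension of fraction
fields, `ν` a maximal ideal of `B` which is the only maximal ideal over `ν₁ = ν ∩ B₁`.  Then
`N_{F/F₁}` maps `(B_ν)ˣ` to `(B₁_ν₁)ˣ ⊆ (B_ν)ˣ`.
-/

set_option autoImplicit false

namespace Fermat.Agent.S36

section NormUnit

variable (B₁ B F₁ F : Type*) [CommRing B₁] [IsDomain B₁] [IsIntegrallyClosed B₁] [CommRing B]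
  [IsDomain B] [Field F₁] [Field F] [Algebra B₁ F₁] [IsFractionRing B₁ F₁] [Algebra B F]
  [IsFractionRing B F] [Algebra B₁ B] [Algebra F₁ F] [Algebra B₁ F] [IsScalarTower B₁ B F]
  [IsScalarTower B₁ F₁ F] [Algebra.IsIntegral B₁ B]

omit [IsDomain B₁] [IsDomain B] [IsFractionRing B F] in
/-- norms of elements of `B` lie in `B₁`. -/
theorem normUnit_exists_norm (b : B) :
    ∃ n : B₁, algebraMap B₁ F₁ n = Algebra.norm F₁ (algebraMap B F b) := by
  have h1 : IsIntegral B₁ (algebraMap B F b) := (Algebra.IsIntegral.isIntegral b).algebraMap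
  exact IsIntegrallyClosed.isIntegral_iff.1 (Algebra.isIntegral_norm F₁ h1)

omit [IsDomain B₁] [IsIntegrallyClosed B₁] [IsDomain B] in
/-- an element outside `ν` divides an element of `B₁` outside `ν₁`. -/
theorem normUnit_exists_mul (ν : Ideal B) (hν : ν.IsMaximal)
    (huniq : ∀ ν' : Ideal B, ν'.IsMaximal → ν'.under B₁ = ν.under B₁ → ν' = ν)
    (b : B) (hb : b ∉ ν) :
    ∃ (c : B) (s₁ : B₁), s₁ ∉ ν.under B₁ ∧ b * c = algebraMap B₁ B s₁ := by
  have hν₁ : (ν.comap (algebraMap B₁ B)).IsMaximal :=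
    Ideal.isMaximal_comap_of_isIntegral_of_isMaximal ν
  have hν₁p : (ν.comap (algebraMap B₁ B)).IsPrime := hν₁.isPrime
  by_contra hcon
  push Not at hcon
  have hle : (Ideal.span {b}).comap (algebraMap B₁ B) ≤ ν.comap (algebraMap B₁ B) := by
    intro s₁ hs₁
    by_contra hs
    rw [Ideal.mem_comap, Ideal.mem_span_singleton'] at hs₁
    obtain ⟨c, hc⟩ := hs₁
    exact hcon c s₁ hs (by rw [mul_comm, hc])
  obtain ⟨Q, hQ, hQp, hQc⟩ := Ideal.exists_ideal_over_prime_of_isIntegral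
    (ν.comap (algebraMap B₁ B)) (Ideal.span {b}) hle
  have hQm : Q.IsMaximal := Ideal.isMaximal_of_isIntegral_of_isMaximal_comap (R := B₁) Q
    (by rw [hQc]; exact hν₁)
  have hQν : Q = ν := huniq Q hQm hQc
  exact hb (hQν ▸ hQ (Ideal.mem_span_singleton_self b))

variable [FiniteDimensional F₁ F]

omit [IsDomain B₁] [IsDomain B] [IsFractionRing B F] in
/-- the norm of an element of `B` outside `ν` is an element of `B₁` outside `ν₁`. -/
theorem normUnit_norm_not_mem (ν : Ideal B) (hν : ν.IsMaximal)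
    (huniq : ∀ ν' : Ideal B, ν'.IsMaximal → ν'.under B₁ = ν.under B₁ → ν' = ν)
    (b : B) (hb : b ∉ ν) :
    ∃ n : B₁, n ∉ ν.under B₁ ∧ algebraMap B₁ F₁ n = Algebra.norm F₁ (algebraMap B F b) := by
  have hν₁p : (ν.under B₁).IsPrime := Ideal.comap_isPrime _ _
  obtain ⟨c, s₁, hs₁, hbc⟩ := normUnit_exists_mul B₁ B ν hν huniq b hb
  obtain ⟨n, hn⟩ := normUnit_exists_norm B₁ B F₁ F b
  obtain ⟨m, hm⟩ := normUnit_exists_norm B₁ B F₁ F c
  refine ⟨n, fun hmem => ?_, hn⟩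
  have h1 : n * m = s₁ ^ Module.finrank F₁ F := by
    apply IsFractionRing.injective B₁ F₁
    rw [map_mul, map_pow, hn, hm, ← map_mul, ← map_mul, hbc, ← IsScalarTower.algebraMap_apply,
      IsScalarTower.algebraMap_apply B₁ F₁ F, Algebra.norm_algebraMap]
  have h2 : s₁ ^ Module.finrank F₁ F ∈ ν.under B₁ := h1 ▸ Ideal.mul_mem_right _ _ hmem
  exact hs₁ (hν₁p.mem_of_pow_mem _ h2)

omit [IsDomain B₁] [IsDomain B] [IsFractionRing B F] in
/-- **ABS-NORMUNIT**, precise form: the norm of a unit at `ν` is a unit at `ν₁ = ν ∩ B₁`. -/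
theorem normUnit_under (ν : Ideal B) (hν : ν.IsMaximal)
    (huniq : ∀ ν' : Ideal B, ν'.IsMaximal → ν'.under B₁ = ν.under B₁ → ν' = ν)
    (ε : F) (hε : UnitAt ν ε) : UnitAt (ν.under B₁) (Algebra.norm F₁ ε) := by
  obtain ⟨s, hs, p, hp, e⟩ := hε
  obtain ⟨n, hn, hn'⟩ := normUnit_norm_not_mem B₁ B F₁ F ν hν huniq s hs
  obtain ⟨m, hm, hm'⟩ := normUnit_norm_not_mem B₁ B F₁ F ν hν huniq p hp
  exact ⟨n, hn, m, hm, by rw [hn', hm', ← map_mul, e]⟩

omit [IsDomain B₁] [IsIntegrallyClosed B₁] [IsDomain B] [IsFractionRing B₁ F₁]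
  [IsFractionRing B F] [Algebra.IsIntegral B₁ B] [FiniteDimensional F₁ F] in
/-- units at `ν ∩ B₁` are units at `ν`. -/
theorem unitAt_of_under (ν : Ideal B) (z : F₁) (hz : UnitAt (ν.under B₁) z) :
    UnitAt ν (algebraMap F₁ F z) := by
  obtain ⟨n, hn, m, hm, e⟩ := hz
  refine ⟨algebraMap B₁ B n, hn, algebraMap B₁ B m, hm, ?_⟩
  rw [← IsScalarTower.algebraMap_apply, ← IsScalarTower.algebraMap_apply,
    IsScalarTower.algebraMap_apply B₁ F₁ F, IsScalarTower.algebraMap_apply B₁ F₁ F, ← map_mul, e]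

omit [IsDomain B₁] [IsDomain B] [IsFractionRing B F] in
/-- **ABS-NORMUNIT**: the norm of a local unit at a point which is alone in its fibre. -/
theorem normUnit (ν : Ideal B) (hν : ν.IsMaximal)
    (huniq : ∀ ν' : Ideal B, ν'.IsMaximal → ν'.under B₁ = ν.under B₁ → ν' = ν)
    (ε : F) (hε : UnitAt ν ε) : UnitAt ν (algebraMap F₁ F (Algebra.norm F₁ ε)) :=
  unitAt_of_under B₁ B F₁ F ν _ (normUnit_under B₁ B F₁ F ν hν huniq ε hε)

end NormUnit

end Fermat.Agent.S36
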