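import Fermat.Agent.S36.GeoInterface
import Fermat.Agent.S36.Base.RootL
import Fermat.Agent.S36.Base.Mu

/-!
# S36 : the field `root` (D5) of `ZData`  (helper57)

`F → E((q))`, `s ∈ F` of positive `q`-order, `A₀` local and integrally closed with fraction field `E`.
The chart `B` = integral closure of `A₀[s]` lies in `E[[q]]` (which is integrally closed in `E((q))`);
the constant coefficient `c₀ : B → E` has values integral over `c₀(A₀[s]) = A₀`, hence in `A₀`;
`𝔫_∞ = ker (B → A₀ → A₀ / 𝔪)`.  An element outside `𝔫_∞` is a power series whose constant coefficient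
is a unit of `A₀`, so an `m`-th power in `E[[q]]` as soon as the units of `A₀` are `m`-th powers.
-/

set_option autoImplicit false
set_option linter.unusedSectionVars false

noncomputable section

namespace Fermat.Agent.S36.Root

open Fermat.Agent.KL Fermat.Agent.S36 PowerSeries

/-- a ring homomorphism with values in the range of an injective one factors. -/
def liftRange {R S T : Type*} [CommRing R] [CommRing S] [CommRing T] (g : S →+* T)
    (hg : Function.Injective g) (f : R →+* T) (h : ∀ x, f x ∈ g.range) : R →+* S :=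
  ((RingEquiv.ofBijective g.rangeRestrict
    ⟨fun _ _ hab => hg (congrArg Subtype.val hab), g.rangeRestrict_surjective⟩).symm :
      g.range →+* S).comp (f.codRestrict g.range h)

theorem liftRange_spec {R S T : Type*} [CommRing R] [CommRing S] [CommRing T] (g : S →+* T)
    (hg : Function.Injective g) (f : R →+* T) (h : ∀ x, f x ∈ g.range) (x : R) :
    g (liftRange g hg f h x) = f x := by
  have h1 := (RingEquiv.ofBijective g.rangeRestrict
    ⟨fun a b hab => hg (congrArg Subtype.val hab), g.rangeRestrict_surjective⟩).apply_symm_apply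
      (f.codRestrict g.range h x)
  exact congrArg Subtype.val h1

/-- `m`-th roots of power series whose constant coefficient is a nonzero `m`-th power. -/
theorem exists_root_ps {E : Type*} [Field E] [CharZero E] (m : ℕ) (hm : m ≠ 0) (f : PowerSeries E)
    (c : E) (hc : c ≠ 0) (hf : constantCoeff f = c ^ m) : ∃ y : PowerSeries E, y ^ m = f := by
  have hcm : c ^ m ≠ 0 := pow_ne_zero m hc
  obtain ⟨y, hy⟩ := Base.RootL_ps m hm (C (c ^ m)⁻¹ * f) (by
    rw [map_mul, hf, constantCoeff_C, inv_mul_cancel₀ hcm])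
  refine ⟨C c * y, ?_⟩
  rw [mul_pow, hy, ← map_pow, ← mul_assoc, ← map_mul, mul_inv_cancel₀ hcm, map_one, one_mul]

section Core

variable {A₀ P F E : Type} [CommRing A₀] [IsLocalRing A₀] [IsIntegrallyClosed A₀]
  [Field E] [CharZero E] [Algebra A₀ E] [IsFractionRing A₀ E] [CommRing P] [Algebra A₀ P]
  [Field F] [Algebra P F]

local notation "ι" => algebraMap (PowerSeries E) (LaurentSeries E)

theorem core (φ : F →+* LaurentSeries E)
    (hP : ∀ x : P, ∃ f : PowerSeries E, (∃ a : A₀, constantCoeff f = algebraMap A₀ E a) ∧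
      φ (algebraMap P F x) = ι f)
    (hA : ∀ a : A₀, φ (algebraMap P F (algebraMap A₀ P a)) = ι (C (algebraMap A₀ E a)))
    (ϖ : A₀) (hϖ : ¬ IsUnit ϖ) (X : P)
    (hX : ∃ f : PowerSeries E, constantCoeff f = 0 ∧ φ (algebraMap P F X) = ι f)
    (m : ℕ) (hm : m ≠ 0) (hroot : ∀ c : A₀, IsUnit c → ∃ d : A₀, d ^ m = c) :
    ∃ 𝔫 : Ideal (integralClosure P F), 𝔫.IsMaximal ∧
      algebraMap P (integralClosure P F) (algebraMap A₀ P ϖ) ∈ 𝔫 ∧
      algebraMap P (integralClosure P F) X ∈ 𝔫 ∧
      ∀ ε : F, UnitAt 𝔫 ε → ∃ y : LaurentSeries E, y ^ m = φ ε := by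
  have hι : Function.Injective ι := IsFractionRing.injective _ _
  have hα : Function.Injective (algebraMap A₀ E) := IsFractionRing.injective _ _
  -- `P → E[[q]]`
  let φ0 : P →+* PowerSeries E := liftRange ι hι (φ.comp (algebraMap P F)) (fun x => by
    obtain ⟨f, -, hf⟩ := hP x
    exact ⟨f, hf.symm⟩)
  have hφ0 : ∀ x : P, ι (φ0 x) = φ (algebraMap P F x) := fun x => liftRange_spec _ _ _ _ x
  -- `B → E[[q]]`
  have hB : ∀ b : integralClosure P F, (φ.comp (algebraMap (integralClosure P F) F)) b ∈ (ι).range := by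
    intro b
    have h1 : IsIntegral P (b : F) := b.2
    have h2 : IsIntegral (PowerSeries E) (φ (b : F)) :=
      IsIntegral.map_of_comp_eq φ0 φ (by ext1 x; exact hφ0 x) h1
    obtain ⟨y, hy⟩ := IsIntegrallyClosed.isIntegral_iff.1 h2
    exact ⟨y, hy⟩
  let β : integralClosure P F →+* PowerSeries E :=
    liftRange ι hι (φ.comp (algebraMap (integralClosure P F) F)) hB
  have hβ : ∀ b : integralClosure P F, ι (β b) = φ (b : F) := fun b => liftRange_spec _ _ _ _ b
  have hβP : ∀ x : P, β (algebraMap P (integralClosure P F) x) = φ0 x := by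
    intro x
    apply hι
    rw [hβ, hφ0]
    rfl
  -- the constant coefficient
  let c0 : integralClosure P F →+* E := (constantCoeff (R := E)).comp β
  have hc0P : ∀ x : P, ((constantCoeff (R := E)).comp φ0) x ∈ (algebraMap A₀ E).range := by
    intro x
    obtain ⟨f, ⟨a, ha⟩, hf⟩ := hP x
    have : φ0 x = f := hι (by rw [hφ0, hf])
    exact ⟨a, by rw [RingHom.comp_apply, this, ha]⟩
  let γ : P →+* A₀ := liftRange (algebraMap A₀ E) hα ((constantCoeff (R := E)).comp φ0) hc0P
  have hγ : ∀ x : P, algebraMap A₀ E (γ x) = constantCoeff (φ0 x) :=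
    fun x => liftRange_spec _ _ _ _ x
  have hc0 : ∀ b : integralClosure P F, c0 b ∈ (algebraMap A₀ E).range := by
    intro b
    have h1 : IsIntegral P b := integralClosure.isIntegral b
    have h2 : IsIntegral A₀ (c0 b) :=
      IsIntegral.map_of_comp_eq γ c0 (by
        ext1 x
        rw [RingHom.comp_apply, hγ, RingHom.comp_apply, RingHom.comp_apply, hβP]) h1
    obtain ⟨y, hy⟩ := IsIntegrallyClosed.isIntegral_iff.1 h2
    exact ⟨y, hy⟩
  let c0' : integralClosure P F →+* A₀ := liftRange (algebraMap A₀ E) hα c0 hc0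
  have hc0' : ∀ b, algebraMap A₀ E (c0' b) = constantCoeff (β b) :=
    fun b => liftRange_spec _ _ _ _ b
  have hconst : ∀ a : A₀, c0' (algebraMap P (integralClosure P F) (algebraMap A₀ P a)) = a := by
    intro a
    apply hα
    rw [hc0', hβP]
    have : φ0 (algebraMap A₀ P a) = C (algebraMap A₀ E a) := hι (by rw [hφ0, hA])
    rw [this, constantCoeff_C]
  let ev : integralClosure P F →+* IsLocalRing.ResidueField A₀ := (IsLocalRing.residue A₀).comp c0'
  have hev : Function.Surjective ev := by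
    intro z
    obtain ⟨a, rfl⟩ := IsLocalRing.residue_surjective z
    exact ⟨algebraMap P (integralClosure P F) (algebraMap A₀ P a), by
      rw [RingHom.comp_apply, hconst]⟩
  -- elements outside the kernel are `m`-th powers
  have key : ∀ b : integralClosure P F, b ∉ RingHom.ker ev →
      ∃ y : LaurentSeries E, y ≠ 0 ∧ y ^ m = φ (b : F) := by
    intro b hb
    have hu : IsUnit (c0' b) := by
      by_contra hnu
      apply hb
      rw [RingHom.mem_ker, RingHom.comp_apply, IsLocalRing.residue_eq_zero_iff]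
      exact (IsLocalRing.mem_maximalIdeal _).2 hnu
    obtain ⟨d, hd⟩ := hroot _ hu
    have hd0 : algebraMap A₀ E d ≠ 0 := by
      intro h0
      have : d = 0 := hα (by rw [h0, map_zero])
      rw [this, zero_pow hm] at hd
      exact not_isUnit_zero (hd ▸ hu)
    obtain ⟨y, hy⟩ := exists_root_ps m hm (β b) (algebraMap A₀ E d) hd0 (by
      rw [← hc0', ← hd, map_pow])
    have hb0 : β b ≠ 0 := by
      intro h0
      have h1 := hc0' b
      rw [h0, map_zero, ← hd, map_pow] at h1
      exact pow_ne_zero m hd0 h1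
    refine ⟨ι y, ?_, by rw [← map_pow, hy, hβ]⟩
    intro h0
    have : y = 0 := hι (by rw [h0, map_zero])
    rw [this, zero_pow hm] at hy
    exact hb0 hy.symm
  refine ⟨RingHom.ker ev, RingHom.ker_isMaximal_of_surjective ev hev, ?_, ?_, ?_⟩
  · rw [RingHom.mem_ker, RingHom.comp_apply, hconst, IsLocalRing.residue_eq_zero_iff]
    exact (IsLocalRing.mem_maximalIdeal _).2 hϖ
  · rw [RingHom.mem_ker, RingHom.comp_apply]
    have : c0' (algebraMap P (integralClosure P F) X) = 0 := by
      apply hα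
      rw [hc0', hβP, map_zero]
      obtain ⟨f, hf0, hf⟩ := hX
      have : φ0 X = f := hι (by rw [hφ0, hf])
      rw [this, hf0]
    rw [this, map_zero]
  · rintro ε ⟨s, hs, p, hp, hsp⟩
    obtain ⟨ys, hys0, hys⟩ := key s hs
    obtain ⟨yp, -, hyp⟩ := key p hp
    refine ⟨yp / ys, ?_⟩
    have h1 : φ (s : F) * φ ε = φ (p : F) := by
      rw [← map_mul]
      exact congrArg φ hsp
    rw [div_pow, hyp, hys, ← h1]
    have hs0 : φ (s : F) ≠ 0 := by
      rw [← hys]
      exact pow_ne_zero m hys0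
    field_simp

end Core

section Abs

variable {A₀ F E : Type} [CommRing A₀] [IsLocalRing A₀] [IsIntegrallyClosed A₀]
  [Field E] [CharZero E] [Algebra A₀ E] [IsFractionRing A₀ E] [Field F] [Algebra A₀ F]

local notation "ι" => algebraMap (PowerSeries E) (LaurentSeries E)

/-- **the field `root`, abstract form.** -/
theorem root_abs (φ : F →+* LaurentSeries E)
    (hA : ∀ a : A₀, φ (algebraMap A₀ F a) = ι (C (algebraMap A₀ E a)))
    (ϖ : A₀) (hϖ : ¬ IsUnit ϖ) (s : F)
    (hs : ∃ f : PowerSeries E, constantCoeff f = 0 ∧ φ s = ι f)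
    (m : ℕ) (hm : m ≠ 0) (hroot : ∀ c : A₀, IsUnit c → ∃ d : A₀, d ^ m = c) :
    ∃ 𝔫 : Ideal (Chart A₀ s), 𝔫.IsMaximal ∧ cst A₀ s ϖ ∈ 𝔫 ∧ crd A₀ s ∈ 𝔫 ∧
      ∀ ε : F, UnitAt 𝔫 ε → ∃ y : LaurentSeries E, y ^ m = φ ε := by
  refine core (P := PolyR A₀ s) φ ?_ hA ϖ hϖ (polyX A₀ s) hs m hm hroot
  rintro ⟨x, hx⟩
  change ∃ f : PowerSeries E, (∃ a : A₀, constantCoeff f = algebraMap A₀ E a) ∧ φ x = ι f
  induction hx using Algebra.adjoin_induction with
  | mem x hx =>
      obtain ⟨f, hf0, hf⟩ := hs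
      rw [Set.mem_singleton_iff] at hx
      exact ⟨f, ⟨0, by rw [hf0, map_zero]⟩, by rw [hx, hf]⟩
  | algebraMap a => exact ⟨C (algebraMap A₀ E a), ⟨a, constantCoeff_C _⟩, hA a⟩
  | add x y _ _ h1 h2 =>
      obtain ⟨f, ⟨a, ha⟩, hf⟩ := h1
      obtain ⟨g, ⟨b, hb⟩, hg⟩ := h2
      exact ⟨f + g, ⟨a + b, by rw [map_add, map_add, ha, hb]⟩, by rw [map_add, map_add, hf, hg]⟩
  | mul x y _ _ h1 h2 =>
      obtain ⟨f, ⟨a, ha⟩, hf⟩ := h1
      obtain ⟨g, ⟨b, hb⟩, hg⟩ := h2
      exact ⟨f * g, ⟨a * b, by rw [map_mul, map_mul, ha, hb]⟩, by rw [map_mul, map_mul, hf, hg]⟩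

/-- a Laurent series of positive order is a power series without constant term. -/
theorem exists_ps_of_order_pos (x : LaurentSeries E) (hx : 0 < x.order) :
    ∃ f : PowerSeries E, constantCoeff f = 0 ∧ x = ι f := by
  obtain ⟨n, hn⟩ : ∃ n : ℕ, x.order = (n : ℤ) := ⟨x.order.toNat, by omega⟩
  have hn0 : n ≠ 0 := by rintro rfl; simp at hn; omega
  refine ⟨X ^ n * x.powerSeriesPart, by simp [hn0], ?_⟩
  have h := LaurentSeries.single_order_mul_powerSeriesPart x
  rw [hn, ← HahnSeries.ofPowerSeries_X_pow, ← map_mul] at h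
  exact h.symm

theorem order_inv_pos (x : LaurentSeries E) (hx : x.order < 0) : 0 < x⁻¹.order := by
  have hx0 : x ≠ 0 := by rintro rfl; simp at hx
  have h := HahnSeries.order_mul hx0 (inv_ne_zero hx0)
  rw [mul_inv_cancel₀ hx0, HahnSeries.order_one] at h
  omega

end Abs

section Concrete

open Fermat.Agent.S36.Base Fermat.Agent.S24

/-- **the field `root` (D5) of `ZData`** for any coordinate `t` with a pole at `q = 0`. -/
theorem root_FE (r : ℕ) (A : ValuationSubring Qbar) (hr : r.Prime) (hA : A.LiesOverPrime r) (N : ℕ)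
    (m : ℕ) (hm : m ≠ 0) (hrm : ¬ r ∣ m) (t : FE A N) (ht : (t : Base.LE A).order < 0) :
    ∃ 𝔫 : Ideal (Chart (AE A) t⁻¹), 𝔫.IsMaximal ∧ cst (AE A) t⁻¹ ((r : ℕ) : AE A) ∈ 𝔫 ∧
      crd (AE A) t⁻¹ ∈ 𝔫 ∧
      ∀ ε : FE A N, UnitAt 𝔫 ε → ∃ y : Base.LE A, y ^ m = algebraMap (FE A N) (Base.LE A) ε := by
  refine root_abs (A₀ := AE A) (E := IE A) (algebraMap (FE A N) (Base.LE A)) ?_ _ ?_ t⁻¹ ?_ m hm
    (stmt_Mu r A hr hA m hm hrm).2.2
  · intro a
    rw [← IsScalarTower.algebraMap_apply (AE A) (FE A N) (Base.LE A), algebraMap_AE_LE,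
      ModularCurve.algebraMap_laurentSeries_eq_single]
    exact (HahnSeries.ofPowerSeries_C _).symm
  · intro hu
    have h1 := (Mu_inv_mem_of_isUnit hu).2
    have h2 : Mu_val A ((r : ℕ) : AE A) = (r : Qbar) := map_natCast _ r
    rw [h2] at h1
    have h3 : (r : Qbar) ∈ A.nonunits := hA
    rw [ValuationSubring.mem_nonunits_iff] at h3
    have h4 := (A.valuation_le_one_iff _).2 h1
    rw [map_inv₀] at h4
    have h5 : A.valuation (r : Qbar) ≠ 0 := by
      rw [Ne, _root_.map_eq_zero]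
      exact Nat.cast_ne_zero.2 hr.ne_zero
    have h6 : 1 ≤ A.valuation (r : Qbar) := by
      rwa [inv_le_one₀ (zero_lt_iff.2 h5)] at h4
    exact absurd h3 (not_lt.2 h6)
  · have : algebraMap (FE A N) (Base.LE A) t⁻¹ = ((t : Base.LE A))⁻¹ := map_inv₀ _ t
    rw [this]
    exact exists_ps_of_order_pos _ (order_inv_pos _ ht)

end Concrete

end Fermat.Agent.S36.Root

end
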