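import Fermat.Agent.S36.ZAbs

/-!
# S36 / ABS-TRANSPORT : transport of a `Degen` datum by automorphisms (`D₁` from `D₂`)
-/

set_option autoImplicit false

namespace Fermat.Agent.S36

section Aux

variable {F : Type*} [Field F]

theorem transport_vpos_iff (w : F ≃+* F) {o o' : F → ℤ} (h : ∀ z, o' (w z) = o z) (z : F) :
    VPos o' z ↔ VPos o (w.symm z) := by
  have hz : o' z = o (w.symm z) := by rw [← h, RingEquiv.apply_symm_apply]
  rw [VPos, VPos, hz, map_eq_zero_iff _ w.symm.injective]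

theorem transport_vunit_iff (w : F ≃+* F) {o o' : F → ℤ} (h : ∀ z, o' (w z) = o z) (z : F) :
    VUnit o' z ↔ VUnit o (w.symm z) := by
  have hz : o' z = o (w.symm z) := by rw [← h, RingEquiv.apply_symm_apply]
  rw [VUnit, VUnit, hz, Ne, Ne, map_eq_zero_iff _ w.symm.injective]

end Aux

variable {A₀ F F₁ : Type} [CommRing A₀] [Field F] [Field F₁] [Algebra A₀ F] [Algebra A₀ F₁]
  {o₁ o₂ o₃ : F → ℤ} {r : ℕ}

theorem transport_symm_const {K : Type} [Field K] [Algebra A₀ K] (w : K ≃+* K)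
    (hw : ∀ a : A₀, w (algebraMap A₀ K a) = algebraMap A₀ K a) (a : A₀) :
    w.symm (algebraMap A₀ K a) = algebraMap A₀ K a := by
  rw [RingEquiv.symm_apply_eq, hw]

/-- Transport of a degeneracy datum by automorphisms `w` of `F` and `w₁` of `F₁`:
`π' = w ∘ π ∘ w₁⁻¹`, `N' = w₁ ∘ N ∘ w⁻¹`. -/
def Degen.transport (D : Degen A₀ F F₁ o₁ o₂ o₃ r) (w : F ≃+* F) (w₁ : F₁ ≃+* F₁)
    (hw : ∀ a : A₀, w (algebraMap A₀ F a) = algebraMap A₀ F a)
    (hw₁ : ∀ a : A₀, w₁ (algebraMap A₀ F₁ a) = algebraMap A₀ F₁ a)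
    (o₁' o₂' o₃' : F → ℤ) (h₁ : ∀ z, o₁' (w z) = o₁ z) (h₂ : ∀ z, o₂' (w z) = o₂ z)
    (h₃ : ∀ z, o₃' (w z) = o₃ z) : Degen A₀ F F₁ o₁' o₂' o₃' r where
  π := (w : F →+* F).comp (D.π.comp (w₁.symm : F₁ →+* F₁))
  N := (w₁ : F₁ →+* F₁).toMonoidWithZeroHom.comp
    (D.N.comp (w.symm : F →+* F).toMonoidWithZeroHom)
  π_const a := by
    show w (D.π (w₁.symm _)) = _
    rw [transport_symm_const w₁ hw₁, D.π_const, hw]
  N_const a := by
    show w₁ (D.N (w.symm _)) = _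
    rw [transport_symm_const w hw, D.N_const, map_pow, hw₁]
  na y y₂ hy₁ hy₂ hy := by
    rw [transport_vunit_iff w h₁] at hy₁
    rw [transport_vunit_iff w h₂] at hy₂
    rw [transport_vpos_iff w h₂] at hy
    rw [transport_vpos_iff w h₁]
    have e1 : w.symm (y - w (D.π (w₁.symm y₂))) = w.symm y - D.π (w₁.symm y₂) := by
      rw [map_sub, RingEquiv.symm_apply_apply]
    have := D.na (w.symm y) (w₁.symm y₂) hy₁ hy₂ (e1 ▸ hy)
    have e2 : w.symm (w (D.π (w₁.symm (w₁ (D.N (w.symm y))))) - y * w (D.π (w₁.symm y₂)) ^ (r - 1))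
        = D.π (D.N (w.symm y)) - w.symm y * D.π (w₁.symm y₂) ^ (r - 1) := by
      rw [map_sub, map_mul, map_pow, RingEquiv.symm_apply_apply, RingEquiv.symm_apply_apply,
        RingEquiv.symm_apply_apply]
    exact e2 ▸ this
  nb y hy := by
    rw [transport_vunit_iff w h₃] at hy
    rw [transport_vpos_iff w h₃]
    have := D.nb (w.symm y) hy
    have e2 : w.symm (w (D.π (w₁.symm (w₁ (D.N (w.symm y))))) - y ^ r)
        = D.π (D.N (w.symm y)) - w.symm y ^ r := by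
      rw [map_sub, map_pow, RingEquiv.symm_apply_apply, RingEquiv.symm_apply_apply]
    exact e2 ▸ this
  same x := by
    rw [transport_vpos_iff w h₁, transport_vpos_iff w h₂]
    have e : w.symm (w (D.π (w₁.symm x))) = D.π (w₁.symm x) := RingEquiv.symm_apply_apply _ _
    have := D.same (w₁.symm x)
    exact e ▸ this
  res₁ y hy := by
    rw [transport_vunit_iff w h₁] at hy
    obtain ⟨y', hy'⟩ := D.res₁ _ hy
    refine ⟨w₁ y', ?_⟩
    rw [transport_vpos_iff w h₁]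
    have e : w.symm (y - w (D.π (w₁.symm (w₁ y')))) = w.symm y - D.π y' := by
      rw [map_sub, RingEquiv.symm_apply_apply, RingEquiv.symm_apply_apply]
    exact e ▸ hy'
  res₂ y hy := by
    rw [transport_vunit_iff w h₂] at hy
    obtain ⟨y', hy'⟩ := D.res₂ _ hy
    refine ⟨w₁ y', ?_⟩
    rw [transport_vpos_iff w h₂]
    have e : w.symm (y - w (D.π (w₁.symm (w₁ y')))) = w.symm y - D.π y' := by
      rw [map_sub, RingEquiv.symm_apply_apply, RingEquiv.symm_apply_apply]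
    exact e ▸ hy'
  v₁ z hz := by
    have hz' : w.symm z ≠ 0 := by rwa [Ne, map_eq_zero_iff _ w.symm.injective]
    have := D.v₁ _ hz'
    show o₁' (w (D.π (w₁.symm (w₁ (D.N (w.symm z)))))) = _
    rw [h₁, RingEquiv.symm_apply_apply, this, ← h₁, ← h₂, RingEquiv.apply_symm_apply]
  v₃ z hz := by
    have hz' : w.symm z ≠ 0 := by rwa [Ne, map_eq_zero_iff _ w.symm.injective]
    have := D.v₃ _ hz'
    show o₃' (w (D.π (w₁.symm (w₁ (D.N (w.symm z)))))) = _
    rw [h₃, RingEquiv.symm_apply_apply, this, ← h₃, RingEquiv.apply_symm_apply]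

section API

variable (D : Degen A₀ F F₁ o₁ o₂ o₃ r) (w : F ≃+* F) (w₁ : F₁ ≃+* F₁)
    (hw : ∀ a : A₀, w (algebraMap A₀ F a) = algebraMap A₀ F a)
    (hw₁ : ∀ a : A₀, w₁ (algebraMap A₀ F₁ a) = algebraMap A₀ F₁ a)
    (o₁' o₂' o₃' : F → ℤ) (h₁ : ∀ z, o₁' (w z) = o₁ z) (h₂ : ∀ z, o₂' (w z) = o₂ z)
    (h₃ : ∀ z, o₃' (w z) = o₃ z)

@[simp] theorem Degen.transport_π (x : F₁) :
    (D.transport w w₁ hw hw₁ o₁' o₂' o₃' h₁ h₂ h₃).π x = w (D.π (w₁.symm x)) := rfl

@[simp] theorem Degen.transport_N (y : F) :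
    (D.transport w w₁ hw hw₁ o₁' o₂' o₃' h₁ h₂ h₃).N y = w₁ (D.N (w.symm y)) := rfl

/-- Transport of the local hypotheses (the two ideals may live in different rings). -/
theorem Degen.LocAt.transport {B B' : Type} [CommRing B] [Algebra B F] [CommRing B'] [Algebra B' F]
    {ν : Ideal B} {ν' : Ideal B'} (hI : ∀ z : F, IntAt ν' (w z) ↔ IntAt ν z)
    (hU : ∀ z : F, UnitAt ν' (w z) ↔ UnitAt ν z) (hD : D.LocAt ν) :
    (D.transport w w₁ hw hw₁ o₁' o₂' o₃' h₁ h₂ h₃).LocAt ν' := by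
  obtain ⟨hD1, hD2⟩ := hD
  constructor
  · intro ε hε
    rw [Degen.transport_N, Degen.transport_π, RingEquiv.symm_apply_apply, hU]
    apply hD1
    rw [← hU, RingEquiv.apply_symm_apply]
    exact hε
  · intro a ha
    have ha' : IntAt ν (w.symm a) := by
      rw [← hI, RingEquiv.apply_symm_apply]
      exact ha
    obtain ⟨a', h1, h2⟩ := hD2 _ ha'
    refine ⟨w₁ a', ?_, ?_⟩
    · rw [Degen.transport_π, RingEquiv.symm_apply_apply, hI]
      exact h1
    · rw [Degen.transport_π, RingEquiv.symm_apply_apply, transport_vpos_iff w h₂, map_sub,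
        RingEquiv.symm_apply_apply]
      exact h2

end API

end Fermat.Agent.S36

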