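import Fermat.Agent.S36.ZInterface
import Fermat.Agent.S36.AtAPI
import Fermat.Agent.S36.Approx

/-!
# S36 : step Z-2 (RED), assembly

`stmt_Z2 : Stmt_Z2nb → Stmt_Z2mid → Stmt_Z2`.
-/

set_option autoImplicit false

namespace Fermat.Agent.S36

namespace Z2

variable {B F : Type} [CommRing B] [IsDomain B] [Field F] [Algebra B F] [IsFractionRing B F]

/-- if `v ≡ x ^ m` and `z ≡ x` with `x` a unit, then `v / z ^ m ≡ 1`. -/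
lemma posAt_div_sub_one {P : Ideal B} [P.IsPrime] {v x z : F} (m : ℕ) (hx : UnitAt P x)
    (hv : PosAt P (v - x ^ m)) (hz : PosAt P (z - x)) : PosAt P (v / z ^ m - 1) := by
  have hzu : UnitAt P z := hx.of_sub_posAt hz
  have h1 : PosAt P (z ^ m - x ^ m) := PosAt.pow_sub_pow hzu.intAt hx.intAt hz m
  have h2 : PosAt P (v - z ^ m) := by
    have e : v - z ^ m = (v - x ^ m) - (z ^ m - x ^ m) := by ring
    rw [e]
    exact hv.sub h1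
  have hzm : UnitAt P (z ^ m) := hzu.pow m
  have e : v / z ^ m - 1 = (v - z ^ m) * (z ^ m)⁻¹ := by
    have := hzm.ne_zero
    field_simp
  rw [e]
  exact h2.mul_intAt hzm.inv.intAt

omit [IsDomain B] [IsFractionRing B F] in
/-- if `u ≡ ρ ^ m` then `u ^ k ≡ (ρ ^ k) ^ m`. -/
lemma posAt_pow_root {P : Ideal B} [P.IsPrime] {u ρ : F} (m k : ℕ) (hu : UnitAt P u)
    (hρ : UnitAt P ρ) (h : PosAt P (u - ρ ^ m)) : PosAt P (u ^ k - (ρ ^ k) ^ m) := by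
  have e : (ρ ^ k) ^ m = (ρ ^ m) ^ k := by rw [← pow_mul, ← pow_mul, mul_comm]
  rw [e]
  exact PosAt.pow_sub_pow hu.intAt (hρ.pow m).intAt h k

end Z2

theorem stmt_Z2 (h1 : Stmt_Z2nb) (h2 : Stmt_Z2mid) : Stmt_Z2 := by
  intro A₀ F F₁ B _ _ _ _ _ _ _ _ _ _ V C u hu hord hN₁ hN₂
  obtain ⟨g₁, hg₁⟩ := hN₁
  obtain ⟨g₂, hg₂⟩ := hN₂
  have hU : ∀ X, UnitAt (C.P X) u := fun X => ((C.cen X u).2).2 ⟨hu, hord X⟩
  obtain ⟨ρC, hρC, hC⟩ := h1 A₀ F F₁ B (V.ord 0) (V.ord 1) (V.ord 2) V.r V.m V.D₁ (C.P 2)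
    (C.prime 2) (C.cen 2) V.hm V.hrm u g₁ (hU 2) hg₁
  obtain ⟨ρA, hρA, hA⟩ := h1 A₀ F F₁ B (V.ord 2) (V.ord 1) (V.ord 0) V.r V.m V.D₂ (C.P 0)
    (C.prime 0) (C.cen 0) V.hm V.hrm u g₂ (hU 0) hg₂
  obtain ⟨ρM, hρM, hM⟩ := h2 A₀ F F₁ B (V.ord 0) (V.ord 1) (V.ord 2) V.r V.m V.D₁ (C.P 0) (C.P 1)
    (C.prime 0) (C.prime 1) (C.cen 0) (C.cen 1) V.hm (V.ord_mul 0) u ρA g₁ (hU 0) (hU 1) hg₁
    hρA hA
  -- the three roots of `u ^ (r - 1)`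
  have hroot : ∀ X : Fin 3, ∃ x : F, UnitAt (C.P X) x ∧
      PosAt (C.P X) (u ^ (V.r - 1) - x ^ V.m) := by
    have i0 := C.prime 0
    have i2 := C.prime 2
    have r0 : ∃ x : F, UnitAt (C.P 0) x ∧ PosAt (C.P 0) (u ^ (V.r - 1) - x ^ V.m) :=
      ⟨ρA ^ (V.r - 1), hρA.pow _, Z2.posAt_pow_root _ _ (hU 0) hρA hA⟩
    have r2 : ∃ x : F, UnitAt (C.P 2) x ∧ PosAt (C.P 2) (u ^ (V.r - 1) - x ^ V.m) :=
      ⟨ρC ^ (V.r - 1), hρC.pow _, Z2.posAt_pow_root _ _ (hU 2) hρC hC⟩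
    intro X
    fin_cases X
    · exact r0
    · exact ⟨ρM, hρM, hM⟩
    · exact r2
  choose x hxU hxP using hroot
  obtain ⟨z, hz0, hz⟩ := stmt_Approx B F (Fin 3) C.P C.prime C.inc x hxU
  refine ⟨z, hz0, fun X => ?_⟩
  have := C.prime X
  exact Z2.posAt_div_sub_one V.m (hxU X) (hxP X) (hz X)

end Fermat.Agent.S36
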