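import Fermat.Agent.S36.ZAbs
import Fermat.Agent.S36.LPB

/-!
# S36 : interface for the proof of `Stmt_ZAbs` (sub-lead helper93)

`VData`  = the valuation-theoretic part of `ZData` (no chart, no `L`).
`VChart` = an abstract chart `B` (domain with fraction field `F`) with the three centres `P 0, P 1, P 2`
(`A`, `mid`, `C`) of the three vertical valuations.

Steps : `Z1` (VERT), `Z2nb`, `Z2mid`, `Z2` (RED), `Z3a`, `Z3b`, `Z3` (roots of unity, triple points),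
`ZL`, `ZOne`, `ZHDiv` (one chart, local).  The assembly is in `ZMain.lean`.
-/

set_option autoImplicit false

namespace Fermat.Agent.S36

open Fermat.Agent.KL

/-- The valuation-theoretic part of `ZData`. -/
structure VData (A₀ F F₁ : Type) [CommRing A₀] [Field F] [Field F₁] [Algebra A₀ F]
    [Algebra A₀ F₁] where
  ϖ : A₀
  m : ℕ
  r : ℕ
  hp : algebraMap A₀ F ϖ ≠ 0
  hm : 0 < m
  hr : 2 ≤ r
  hrm : Nat.Coprime r m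
  ord : Fin 3 → F → ℤ
  ord_mul : ∀ (X : Fin 3) (x y : F), x ≠ 0 → y ≠ 0 → ord X (x * y) = ord X x + ord X y
  ord_ϖ : ord 0 (algebraMap A₀ F ϖ) = 1 ∧ ord 1 (algebraMap A₀ F ϖ) = (r : ℤ) - 1 ∧
    ord 2 (algebraMap A₀ F ϖ) = 1
  pM : F
  pC : F
  pM_ne : pM ≠ 0
  pC_ne : pC ≠ 0
  ord_pM : ord 0 pM = 0 ∧ ord 1 pM = 1 ∧ ord 2 pM = 0
  ord_pC : ord 0 pC = 0 ∧ ord 1 pC = 0 ∧ ord 2 pC = 1
  D₁ : Degen A₀ F F₁ (ord 0) (ord 1) (ord 2) r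
  D₂ : Degen A₀ F F₁ (ord 2) (ord 1) (ord 0) r

/-- An abstract chart with the centres of the three vertical valuations. -/
structure VChart {A₀ F F₁ : Type} [CommRing A₀] [Field F] [Field F₁] [Algebra A₀ F]
    [Algebra A₀ F₁] (V : VData A₀ F F₁) (B : Type) [CommRing B] [Algebra B F] where
  P : Fin 3 → Ideal B
  prime : ∀ X, (P X).IsPrime
  inc : ∀ X Y, P X ≤ P Y → X = Y
  cen : ∀ X, IsCen (P X) (V.ord X)
  const : ∀ a : A₀, ∃ b : B, algebraMap B F b = algebraMap A₀ F a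

/-- **Z1** (VERT): after raising to the power `r + 1` and multiplying by `ϖ ^ i * h ^ m` the three
vertical valuations vanish and both norms are `m`-th powers. -/
def Stmt_Z1 : Prop :=
  ∀ (A₀ F F₁ : Type) [CommRing A₀] [Field F] [Field F₁] [Algebra A₀ F] [Algebra A₀ F₁]
    (V : VData A₀ F F₁) (u : F), u ≠ 0 →
    (∃ (j : ℤ) (g : F₁), V.D₁.N u = algebraMap A₀ F₁ V.ϖ ^ j * g ^ V.m) →
    (∃ (j : ℤ) (g : F₁), V.D₂.N u = algebraMap A₀ F₁ V.ϖ ^ j * g ^ V.m) →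
    ∃ (i : ℤ) (h : F), h ≠ 0 ∧
      (∀ X, V.ord X (u ^ (V.r + 1) * algebraMap A₀ F V.ϖ ^ i * h ^ V.m) = 0) ∧
      (∃ g : F₁, V.D₁.N (u ^ (V.r + 1) * algebraMap A₀ F V.ϖ ^ i * h ^ V.m) = g ^ V.m) ∧
      (∃ g : F₁, V.D₂.N (u ^ (V.r + 1) * algebraMap A₀ F V.ϖ ^ i * h ^ V.m) = g ^ V.m)

/-- **Z2nb** : on the purely inseparable component `P₃`, `u` is an `m`-th power in the residue
field. -/
def Stmt_Z2nb : Prop :=
  ∀ (A₀ F F₁ B : Type) [CommRing A₀] [Field F] [Field F₁] [Algebra A₀ F] [Algebra A₀ F₁]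
    [CommRing B] [IsDomain B] [IsIntegrallyClosed B] [Algebra B F] [IsFractionRing B F]
    (o₁ o₂ o₃ : F → ℤ) (r m : ℕ) (D : Degen A₀ F F₁ o₁ o₂ o₃ r) (P₃ : Ideal B),
    P₃.IsPrime → IsCen P₃ o₃ → 0 < m → Nat.Coprime r m →
    ∀ (u : F) (g : F₁), UnitAt P₃ u → D.N u = g ^ m →
    ∃ ρ : F, UnitAt P₃ ρ ∧ PosAt P₃ (u - ρ ^ m)

/-- **Z2mid** : if `u` is an `m`-th power on `P₁` then `u ^ (r - 1)` is an `m`-th power on `P₂`. -/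
def Stmt_Z2mid : Prop :=
  ∀ (A₀ F F₁ B : Type) [CommRing A₀] [Field F] [Field F₁] [Algebra A₀ F] [Algebra A₀ F₁]
    [CommRing B] [IsDomain B] [IsIntegrallyClosed B] [Algebra B F] [IsFractionRing B F]
    (o₁ o₂ o₃ : F → ℤ) (r m : ℕ) (D : Degen A₀ F F₁ o₁ o₂ o₃ r) (P₁ P₂ : Ideal B),
    P₁.IsPrime → P₂.IsPrime → IsCen P₁ o₁ → IsCen P₂ o₂ → 0 < m →
    (∀ x y : F, x ≠ 0 → y ≠ 0 → o₁ (x * y) = o₁ x + o₁ y) →
    ∀ (u ρ : F) (g : F₁), UnitAt P₁ u → UnitAt P₂ u → D.N u = g ^ m → UnitAt P₁ ρ →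
    PosAt P₁ (u - ρ ^ m) →
    ∃ ρ₂ : F, UnitAt P₂ ρ₂ ∧ PosAt P₂ (u ^ (r - 1) - ρ₂ ^ m)

/-- **Z2** (RED). -/
def Stmt_Z2 : Prop :=
  ∀ (A₀ F F₁ B : Type) [CommRing A₀] [Field F] [Field F₁] [Algebra A₀ F] [Algebra A₀ F₁]
    [CommRing B] [IsDomain B] [IsIntegrallyClosed B] [Algebra B F] [IsFractionRing B F]
    (V : VData A₀ F F₁) (C : VChart V B) (u : F), u ≠ 0 → (∀ X, V.ord X u = 0) →
    (∃ g : F₁, V.D₁.N u = g ^ V.m) → (∃ g : F₁, V.D₂.N u = g ^ V.m) →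
    ∃ z : F, z ≠ 0 ∧ ∀ X, PosAt (C.P X) (u ^ (V.r - 1) / z ^ V.m - 1)

/-- **Z3a** : the `m`-th root of the norm is congruent to roots of unity on `P₁` and on `P₃`. -/
def Stmt_Z3a : Prop :=
  ∀ (A₀ F F₁ B : Type) [CommRing A₀] [Field F] [Field F₁] [Algebra A₀ F] [Algebra A₀ F₁]
    [CommRing B] [IsDomain B] [IsIntegrallyClosed B] [Algebra B F] [IsFractionRing B F]
    (o₁ o₂ o₃ : F → ℤ) (r m : ℕ) (D : Degen A₀ F F₁ o₁ o₂ o₃ r) (P₁ P₂ P₃ : Ideal B) (ζ : A₀),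
    P₁.IsPrime → P₂.IsPrime → P₃.IsPrime → IsCen P₁ o₁ → IsCen P₂ o₂ → IsCen P₃ o₃ → 0 < m →
    IsPrimitiveRoot ζ m → Function.Injective (algebraMap A₀ F) →
    (∀ a : A₀, ∃ b : B, algebraMap B F b = algebraMap A₀ F a) →
    ∀ (u : F) (g : F₁), PosAt P₁ (u - 1) → PosAt P₂ (u - 1) → PosAt P₃ (u - 1) → D.N u = g ^ m →
    ∃ ia ib : ℕ, PosAt P₁ (D.π g - algebraMap A₀ F (ζ ^ ia)) ∧
      PosAt P₃ (D.π g - algebraMap A₀ F (ζ ^ ib))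

/-- **Z3b** : the computation at a triple point `ν`. -/
def Stmt_Z3b : Prop :=
  ∀ (A₀ F F₁ B : Type) [CommRing A₀] [Field F] [Field F₁] [Algebra A₀ F] [Algebra A₀ F₁]
    [CommRing B] [IsDomain B] [IsIntegrallyClosed B] [Algebra B F] [IsFractionRing B F]
    (V : VData A₀ F F₁) (C : VChart V B) (ζ : A₀), ζ ^ V.m = 1 →
    ∀ (u w : F) (g₁ g₂ : F₁) (ia₁ ib₁ ia₂ ib₂ : ℕ) (ν : Ideal B),
    (∀ X, PosAt (C.P X) (u - 1)) → V.D₁.N u = g₁ ^ V.m → V.D₂.N u = g₂ ^ V.m →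
    PosAt (C.P 0) (V.D₁.π g₁ - algebraMap A₀ F (ζ ^ ia₁)) →
    PosAt (C.P 2) (V.D₁.π g₁ - algebraMap A₀ F (ζ ^ ib₁)) →
    PosAt (C.P 2) (V.D₂.π g₂ - algebraMap A₀ F (ζ ^ ia₂)) →
    PosAt (C.P 0) (V.D₂.π g₂ - algebraMap A₀ F (ζ ^ ib₂)) →
    ν.IsMaximal → (∀ X, C.P X ≤ ν) → V.D₁.LocAt ν → V.D₂.LocAt ν →
    (∀ X, NorAt (F := F) V.m ν (C.P X)) → w ≠ 0 → UnitAt ν (u / w ^ V.m) →
    ∃ a : Fin 3 → F, (∀ X, UnitAt ν (a X)) ∧ (∀ X, PosAt (C.P X) (w - a X)) ∧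
      PosAt ν (a 0 ^ (V.r ^ 2 - 1) -
        algebraMap A₀ F (ζ ^ (V.r * (ib₂ + (V.m - 1) * ia₂) + (ib₁ + (V.m - 1) * ia₁))) *
          a 1 ^ (V.r ^ 2 - 1)) ∧
      PosAt ν (a 2 ^ (V.r ^ 2 - 1) -
        algebraMap A₀ F (ζ ^ (V.r * (ib₁ + (V.m - 1) * ia₁) + (ib₂ + (V.m - 1) * ia₂))) *
          a 1 ^ (V.r ^ 2 - 1))

/-- **Z3** : after raising to the power `r ^ 2 - 1` and dividing by a global `m`-th power, `GoodAt`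
holds at all triple points. -/
def Stmt_Z3 : Prop :=
  ∀ (A₀ F F₁ B : Type) [CommRing A₀] [Field F] [Field F₁] [Algebra A₀ F] [Algebra A₀ F₁]
    [CommRing B] [IsDomain B] [IsIntegrallyClosed B] [Algebra B F] [IsFractionRing B F]
    (V : VData A₀ F F₁) (C : VChart V B) (ζ : A₀), IsPrimitiveRoot ζ V.m →
    Function.Injective (algebraMap A₀ F) →
    ∀ u : F, (∀ X, PosAt (C.P X) (u - 1)) → (∃ g : F₁, V.D₁.N u = g ^ V.m) →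
    (∃ g : F₁, V.D₂.N u = g ^ V.m) →
    ∃ s : F, s ≠ 0 ∧ (∀ X, PosAt (C.P X) (u ^ (V.r ^ 2 - 1) / s ^ V.m - 1)) ∧
      ∀ ν : Ideal B, ν.IsMaximal → (∀ X, C.P X ≤ ν) → V.D₁.LocAt ν → V.D₂.LocAt ν →
        (∀ X, NorAt (F := F) V.m ν (C.P X)) → ∀ w : F, w ≠ 0 → UnitAt ν (u / w ^ V.m) →
        ∃ w' : F, w' ≠ 0 ∧ UnitAt ν (u ^ (V.r ^ 2 - 1) / s ^ V.m / w' ^ V.m) ∧
          ∀ X, ValAt ν (C.P X) w' 1

/-- **ZL** : `LPB'` on a chart, for `u` a unit at all vertical primes. -/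
def Stmt_ZL : Prop :=
  ∀ (B F : Type) [CommRing B] [IsDomain B] [IsNoetherianRing B] [IsIntegrallyClosed B]
    [Field F] [Algebra B F] [IsFractionRing B F] (ϖ : B) (m : ℕ) (u : F) (𝔫 : Ideal B),
    ϖ ≠ 0 → 0 < m → u ≠ 0 → 𝔫.IsMaximal → RegAt 𝔫 → HDiv ϖ m u →
    (∀ P ∈ (Ideal.span {ϖ}).minimalPrimes, UnitAt P u) →
    ∃ w : F, w ≠ 0 ∧ UnitAt 𝔫 (u / w ^ m)

/-- **ZOne** : `GoodAt` at the closed points where the special fibre is locally irreducible. -/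
def Stmt_ZOne : Prop :=
  ∀ (B F : Type) [CommRing B] [IsDomain B] [IsNoetherianRing B] [IsIntegrallyClosed B]
    [Field F] [Algebra B F] [IsFractionRing B F] (ϖ : B) (m : ℕ) (u : F) (𝔫 : Ideal B),
    ϖ ≠ 0 → 0 < m → 𝔫.IsMaximal → ϖ ∈ 𝔫 → RegAt 𝔫 → HDiv ϖ m u →
    (∀ P ∈ (Ideal.span {ϖ}).minimalPrimes, PosAt P (u - 1)) → LocIrred ϖ 𝔫 →
    (∀ P ∈ (Ideal.span {ϖ}).minimalPrimes, P ≤ 𝔫 → NorAt (F := F) m 𝔫 P) →
    GoodAt ϖ m u 𝔫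

/-- **ZHDiv** : `HDiv` is stable under `u ↦ u ^ k * ϖ ^ i * h ^ m`. -/
def Stmt_ZHDiv : Prop :=
  ∀ (B F : Type) [CommRing B] [IsDomain B] [Field F] [Algebra B F] [IsFractionRing B F] (ϖ : B)
    (m : ℕ) (u h : F) (k : ℕ) (i j : ℤ), h ≠ 0 → HDiv ϖ m u →
    HDiv ϖ m (u ^ k * algebraMap B F ϖ ^ i * (h ^ m) ^ j)

end Fermat.Agent.S36
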