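import Fermat.Agent.S36.ZInterface
import Fermat.Agent.S36.AtAPI

/-!
# S36 : assembly of `Stmt_ZAbs`, abstract part (helper93)
-/

set_option autoImplicit false
set_option linter.style.haveILetI false
set_option linter.unusedSectionVars false

namespace Fermat.Agent.S36

open Fermat.Agent.KL

namespace ZM

section Cl

variable {F : Type} [Field F]

/-- `v = u ^ k * p ^ i * h ^ m`. -/
def Cl (p : F) (m k : ℕ) (u v : F) : Prop :=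
  ∃ (i : ℤ) (h : F), h ≠ 0 ∧ v = u ^ k * p ^ i * h ^ m

theorem Cl.trans {p : F} (hp : p ≠ 0) {m k k' : ℕ} {u v w : F} (h : Cl p m k u v)
    (h' : Cl p m k' v w) : Cl p m (k * k') u w := by
  obtain ⟨i, a, ha, rfl⟩ := h
  obtain ⟨i', a', ha', rfl⟩ := h'
  refine ⟨i * k' + i', a ^ k' * a', mul_ne_zero (pow_ne_zero _ ha) ha', ?_⟩
  rw [zpow_add₀ hp, zpow_mul, zpow_natCast, pow_mul]
  ring

theorem cl_div (p : F) (m k : ℕ) (u : F) {z : F} (hz : z ≠ 0) : Cl p m k u (u ^ k / z ^ m) :=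
  ⟨0, z⁻¹, inv_ne_zero hz, by rw [zpow_zero, mul_one, inv_pow, div_eq_mul_inv]⟩

theorem Cl.final {p : F} (hp : p ≠ 0) {m k : ℕ} {u v g : F} (h : Cl p m k u v) (hg : g ^ m = v) :
    ∃ (j : ℤ) (g' : F), u ^ k = p ^ j * g' ^ m := by
  obtain ⟨i, a, ha, rfl⟩ := h
  refine ⟨-i, g / a, ?_⟩
  rw [div_pow, hg, zpow_neg]
  have h1 : p ^ i ≠ 0 := zpow_ne_zero _ hp
  have h2 : a ^ m ≠ 0 := pow_ne_zero _ ha
  field_simp

end Cl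

section Cen

variable {B F : Type} [CommRing B] [IsDomain B] [Field F] [Algebra B F] [IsFractionRing B F]

theorem posAt_algebraMap_iff {P : Ideal B} [P.IsPrime] {b : B} :
    PosAt P (algebraMap B F b) ↔ b ∈ P := by
  constructor
  · rintro ⟨s, hs, p, hp, e⟩
    have h1 : s * b = p := IsFractionRing.injective B F (by rw [map_mul, e])
    exact ((inferInstance : P.IsPrime).mem_or_mem (h1 ▸ hp)).resolve_left hs
  · exact fun h => posAt_algebraMap h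

theorem IsCen.unique {P P' : Ideal B} (hP : P.IsPrime) (hP' : P'.IsPrime) {o : F → ℤ}
    (h : IsCen P o) (h' : IsCen P' o) : P = P' := by
  ext b
  rw [← posAt_algebraMap_iff (F := F), ← posAt_algebraMap_iff (F := F) (P := P'), (h _).1, (h' _).1]

end Cen

section VC

variable {A₀ F F₁ : Type} [CommRing A₀] [Field F] [Field F₁] [Algebra A₀ F] [Algebra A₀ F₁]
  (V : VData A₀ F F₁)

theorem vpos_pM (X : Fin 3) : VPos (V.ord X) V.pM ↔ X = 1 := by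
  have h := V.ord_pM
  have h0 := V.pM_ne
  unfold VPos
  fin_cases X <;> simp [h0, h.1, h.2.1, h.2.2]

theorem vpos_pC (X : Fin 3) : VPos (V.ord X) V.pC ↔ X = 2 := by
  have h := V.ord_pC
  have h0 := V.pC_ne
  unfold VPos
  fin_cases X <;> simp [h0, h.1, h.2.1, h.2.2]

theorem eq_of_vpos_iff {X Y : Fin 3} (h : ∀ z : F, VPos (V.ord X) z ↔ VPos (V.ord Y) z) :
    X = Y := by
  have h1 := h V.pM
  have h2 := h V.pC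
  rw [vpos_pM, vpos_pM] at h1
  rw [vpos_pC, vpos_pC] at h2
  revert h1 h2
  fin_cases X <;> fin_cases Y <;> simp

variable {B : Type} [CommRing B] [IsDomain B] [Algebra B F] [IsFractionRing B F]

theorem exists_vchart (ϖB : B)
    (const : ∀ a : A₀, ∃ b : B, algebraMap B F b = algebraMap A₀ F a)
    (cen : ∀ P ∈ (Ideal.span {ϖB}).minimalPrimes, ∃ X, IsCen P (V.ord X))
    (cen' : ∀ X, ∃ P ∈ (Ideal.span {ϖB}).minimalPrimes, IsCen P (V.ord X)) :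
    ∃ C : VChart V B, (∀ X, C.P X ∈ (Ideal.span {ϖB}).minimalPrimes) ∧
      ∀ P ∈ (Ideal.span {ϖB}).minimalPrimes, ∃ X, P = C.P X := by
  choose P hP hcen using cen'
  refine ⟨⟨P, fun X => (hP X).1.1, ?_, hcen, const⟩, hP, ?_⟩
  · intro X Y hXY
    have h1 : P Y ≤ P X := (hP Y).2 (hP X).1 hXY
    have h2 : P X = P Y := le_antisymm hXY h1
    apply eq_of_vpos_iff V
    intro z
    rw [← ((hcen X) z).1, ← ((hcen Y) z).1, h2]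
  · intro Q hQ
    obtain ⟨X, hX⟩ := cen Q hQ
    exact ⟨X, IsCen.unique hQ.1.1 (hP X).1.1 hX (hcen X)⟩

end VC

section Chart1

theorem hdiv_of_cl (hZH : Stmt_ZHDiv) {B F : Type} [CommRing B] [IsDomain B] [Field F] [Algebra B F]
    [IsFractionRing B F] {ϖB : B} {m k : ℕ} {u v : F} (h : Cl (algebraMap B F ϖB) m k u v)
    (hH : HDiv ϖB m u) : HDiv ϖB m v := by
  obtain ⟨i, a, ha, rfl⟩ := h
  have := hZH B F ϖB m u a k i 1 ha hH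
  rwa [zpow_one] at this

theorem chart1 (hZ1 : Stmt_Z1) (hZ2 : Stmt_Z2) (hZ3 : Stmt_Z3) (hZL : Stmt_ZL) (hZOne : Stmt_ZOne)
    (hZH : Stmt_ZHDiv)
    {A₀ F F₁ B : Type} [CommRing A₀] [Field F] [Field F₁] [Algebra A₀ F] [Algebra A₀ F₁]
    [CommRing B] [IsDomain B] [IsNoetherianRing B] [IsIntegrallyClosed B] [Algebra B F]
    [IsFractionRing B F] (V : VData A₀ F F₁) (ζ : A₀) (hζ : IsPrimitiveRoot ζ V.m)
    (hinj : Function.Injective (algebraMap A₀ F))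
    (ϖB : B) (hϖB : algebraMap B F ϖB = algebraMap A₀ F V.ϖ)
    (const : ∀ a : A₀, ∃ b : B, algebraMap B F b = algebraMap A₀ F a)
    (cen : ∀ P ∈ (Ideal.span {ϖB}).minimalPrimes, ∃ X, IsCen P (V.ord X))
    (cen' : ∀ X, ∃ P ∈ (Ideal.span {ϖB}).minimalPrimes, IsCen P (V.ord X))
    (reg : ∀ 𝔫 : Ideal B, 𝔫.IsMaximal → ϖB ∈ 𝔫 → RegAt 𝔫)
    (nor : ∀ 𝔫 : Ideal B, 𝔫.IsMaximal → ϖB ∈ 𝔫 →
      ∀ P ∈ (Ideal.span {ϖB}).minimalPrimes, P ≤ 𝔫 → NorAt (F := F) V.m 𝔫 P)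
    (tri : ∀ 𝔫 : Ideal B, 𝔫.IsMaximal → ϖB ∈ 𝔫 → LocIrred ϖB 𝔫 ∨
      ((∀ P ∈ (Ideal.span {ϖB}).minimalPrimes, P ≤ 𝔫) ∧ V.D₁.LocAt 𝔫 ∧ V.D₂.LocAt 𝔫))
    (u : F) (hu : u ≠ 0) (hH : HDiv ϖB V.m u)
    (hN₁ : ∃ (j : ℤ) (g : F₁), V.D₁.N u = algebraMap A₀ F₁ V.ϖ ^ j * g ^ V.m)
    (hN₂ : ∃ (j : ℤ) (g : F₁), V.D₂.N u = algebraMap A₀ F₁ V.ϖ ^ j * g ^ V.m) :
    ∃ v : F, Cl (algebraMap A₀ F V.ϖ) V.m ((V.r + 1) * (V.r - 1) * (V.r ^ 2 - 1)) u v ∧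
      GoodChart ϖB V.m v ∧ ∀ X, VPos (V.ord X) (v - 1) := by
  have hp := V.hp
  have hm := V.hm
  have hϖ0 : ϖB ≠ 0 := by
    rintro rfl
    rw [map_zero] at hϖB
    exact hp hϖB.symm
  obtain ⟨C, hC1, hC2⟩ := exists_vchart V ϖB const cen cen'
  obtain ⟨i, h, hh, hord, ⟨g₁, hg₁⟩, ⟨g₂, hg₂⟩⟩ := hZ1 A₀ F F₁ V u hu hN₁ hN₂
  have cl2 : Cl (algebraMap A₀ F V.ϖ) V.m (V.r + 1) u
      (u ^ (V.r + 1) * algebraMap A₀ F V.ϖ ^ i * h ^ V.m) := ⟨i, h, hh, rfl⟩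
  have hu2' : u ^ (V.r + 1) * algebraMap A₀ F V.ϖ ^ i * h ^ V.m ≠ 0 :=
    mul_ne_zero (mul_ne_zero (pow_ne_zero _ hu) (zpow_ne_zero _ hp)) (pow_ne_zero _ hh)
  generalize u ^ (V.r + 1) * algebraMap A₀ F V.ϖ ^ i * h ^ V.m = u2 at *
  obtain ⟨z, hz, hz1⟩ := hZ2 A₀ F F₁ B V C u2 hu2' hord ⟨g₁, hg₁⟩ ⟨g₂, hg₂⟩
  have cl4 : Cl (algebraMap A₀ F V.ϖ) V.m (V.r - 1) u2 (u2 ^ (V.r - 1) / z ^ V.m) :=
    cl_div _ _ _ _ hz
  have hN4₁ : V.D₁.N (u2 ^ (V.r - 1) / z ^ V.m) = (g₁ ^ (V.r - 1) / V.D₁.N z) ^ V.m := by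
    rw [map_div₀, map_pow, map_pow, hg₁, div_pow, ← pow_mul, ← pow_mul, mul_comm]
  have hN4₂ : V.D₂.N (u2 ^ (V.r - 1) / z ^ V.m) = (g₂ ^ (V.r - 1) / V.D₂.N z) ^ V.m := by
    rw [map_div₀, map_pow, map_pow, hg₂, div_pow, ← pow_mul, ← pow_mul, mul_comm]
  have hu4' : u2 ^ (V.r - 1) / z ^ V.m ≠ 0 := div_ne_zero (pow_ne_zero _ hu2') (pow_ne_zero _ hz)
  generalize u2 ^ (V.r - 1) / z ^ V.m = u4 at *
  obtain ⟨s, hs, hs1, hs2⟩ := hZ3 A₀ F F₁ B V C ζ hζ hinj u4 hz1 ⟨_, hN4₁⟩ ⟨_, hN4₂⟩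
  have cl5 : Cl (algebraMap A₀ F V.ϖ) V.m (V.r ^ 2 - 1) u4 (u4 ^ (V.r ^ 2 - 1) / s ^ V.m) :=
    cl_div _ _ _ _ hs
  generalize u4 ^ (V.r ^ 2 - 1) / s ^ V.m = u5 at *
  have hH4 : HDiv ϖB V.m u4 := hdiv_of_cl hZH (hϖB ▸ cl2.trans hp cl4) hH
  have hH5 : HDiv ϖB V.m u5 := hdiv_of_cl hZH (hϖB ▸ cl5) hH4
  have hpos5 : ∀ P ∈ (Ideal.span {ϖB}).minimalPrimes, PosAt P (u5 - 1) := by
    intro P hP
    obtain ⟨X, rfl⟩ := hC2 P hP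
    exact hs1 X
  have hunit4 : ∀ P ∈ (Ideal.span {ϖB}).minimalPrimes, UnitAt P u4 := by
    intro P hP
    obtain ⟨X, rfl⟩ := hC2 P hP
    haveI := C.prime X
    have := (hz1 X).one_add_unitAt
    rwa [add_sub_cancel] at this
  refine ⟨u5, (cl2.trans hp cl4).trans hp cl5, ⟨hpos5, ?_⟩, fun X => ((C.cen X) _).1.1 (hs1 X)⟩
  intro 𝔫 h𝔫 hmem
  rcases tri 𝔫 h𝔫 hmem with hirr | ⟨hall, hL1, hL2⟩
  · exact hZOne B F ϖB V.m u5 𝔫 hϖ0 hm h𝔫 hmem (reg 𝔫 h𝔫 hmem) hH5 hpos5 hirr (nor 𝔫 h𝔫 hmem)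
  · obtain ⟨w, hw, hw1⟩ := hZL B F ϖB V.m u4 𝔫 hϖ0 hm hu4' h𝔫 (reg 𝔫 h𝔫 hmem) hH4 hunit4
    obtain ⟨w', hw', hw1', hw2'⟩ := hs2 𝔫 h𝔫 (fun X => hall _ (hC1 X)) hL1 hL2
      (fun X => nor 𝔫 h𝔫 hmem _ (hC1 X) (hall _ (hC1 X))) w hw hw1
    refine ⟨w', hw', hw1', fun P hP _ => ?_⟩
    obtain ⟨X, rfl⟩ := hC2 P hP
    exact hw2' X

end Chart1

end ZM

end Fermat.Agent.S36
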