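import Fermat.Agent.S36.ZMainA
import Fermat.Agent.KL.PolyRing
import Fermat.Agent.KL.PolyRing4

/-!
# S36 : assembly of `Stmt_ZAbs`, concrete charts (helper93)
-/

set_option autoImplicit false
set_option linter.style.haveILetI false

namespace Fermat.Agent.S36

open Fermat.Agent.KL

namespace ZM

theorem Cl.ne_zero {F : Type} [Field F] {p : F} (hp : p ≠ 0) {m k : ℕ} {u v : F}
    (h : Cl p m k u v) (hu : u ≠ 0) : v ≠ 0 := by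
  obtain ⟨i, a, ha, rfl⟩ := h
  exact mul_ne_zero (mul_ne_zero (pow_ne_zero _ hu) (zpow_ne_zero _ hp)) (pow_ne_zero _ ha)

/-- The valuation-theoretic part of a `ZData`. -/
def toV {A₀ F F₁ L : Type} [CommRing A₀] [IsDomain A₀] [IsDiscreteValuationRing A₀]
    [Field F] [CharZero F] [Algebra A₀ F] [FaithfulSMul A₀ F] [Field F₁] [Algebra A₀ F₁]
    [Field L] [Algebra F L] [Algebra A₀ L] [IsScalarTower A₀ F L] (Z : ZData A₀ F F₁ L) :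
    VData A₀ F F₁ where
  ϖ := Z.ϖ
  m := Z.m
  r := Z.r
  hp := by
    intro h
    exact Z.hϖ.ne_zero (FaithfulSMul.algebraMap_injective A₀ F (by rw [h, map_zero]))
  hm := by
    rcases Nat.eq_zero_or_pos Z.m with h | h
    · have := Z.hm
      rw [h, Nat.cast_zero] at this
      exact (not_isUnit_zero this).elim
    · exact h
  hr := Z.hr
  hrm := Z.hrm
  ord := Z.ord
  ord_mul := Z.ord_mul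
  ord_ϖ := Z.ord_ϖ
  pM := Z.pM
  pC := Z.pC
  pM_ne := Z.pM_ne
  pC_ne := Z.pC_ne
  ord_pM := Z.ord_pM
  ord_pC := Z.ord_pC
  D₁ := Z.D₁
  D₂ := Z.D₂

theorem zabs_of (hZ1 : Stmt_Z1) (hZ2 : Stmt_Z2) (hZ3 : Stmt_Z3) (hZL : Stmt_ZL)
    (hZOne : Stmt_ZOne) (hZH : Stmt_ZHDiv) (hCOV : Stmt_COV') : Stmt_ZAbs := by
  intro A₀ F F₁ L _ _ _ _ _ _ _ _ _ _ _ _ _ Z u hu hH₁ hH₂ hN₁ hN₂
  have hinj : Function.Injective (algebraMap A₀ F) := FaithfulSMul.algebraMap_injective A₀ F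
  obtain ⟨hpv₁, ht₂, hfin₂'⟩ := stmt_polyRConcrete A₀ F Z.t Z.ht
  have hfin₂ := hfin₂' Z.hfin
  obtain ⟨hpv₂, -, -⟩ := stmt_polyRConcrete A₀ F Z.t⁻¹ ht₂
  obtain ⟨-, hn₁, hd₁, hic₁, hfr₁, -, -⟩ :=
    stmt_chartBasic A₀ (PolyR A₀ Z.t) F (Chart A₀ Z.t) (polyX A₀ Z.t) hpv₁ Z.hfin
  obtain ⟨-, hn₂, hd₂, hic₂, hfr₂, -, -⟩ :=
    stmt_chartBasic A₀ (PolyR A₀ Z.t⁻¹) F (Chart A₀ Z.t⁻¹) (polyX A₀ Z.t⁻¹) hpv₂ hfin₂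
  have hp : algebraMap A₀ F Z.ϖ ≠ 0 := (toV Z).hp
  have hm : 0 < Z.m := (toV Z).hm
  obtain ⟨v, hcl, hgood, hv⟩ := chart1 hZ1 hZ2 hZ3 hZL hZOne hZH (B := Chart A₀ Z.t) (toV Z) Z.ζ Z.hζ
    hinj (cst A₀ Z.t Z.ϖ) rfl (fun a => ⟨cst A₀ Z.t a, rfl⟩) Z.cen₁ Z.cen₁' Z.reg₁ Z.nor₁ Z.tri₁
    u hu hH₁ hN₁ hN₂
  have hv0 : v ≠ 0 := hcl.ne_zero hp hu
  have hϖ2 : cst A₀ Z.t⁻¹ Z.ϖ ≠ 0 := by
    intro h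
    apply hp
    have : algebraMap (Chart A₀ Z.t⁻¹) F (cst A₀ Z.t⁻¹ Z.ϖ) = algebraMap A₀ F Z.ϖ := rfl
    rw [← this, h, map_zero]
  have hH₂v : HDiv (cst A₀ Z.t⁻¹ Z.ϖ) Z.m v := hdiv_of_cl hZH (B := Chart A₀ Z.t⁻¹) hcl hH₂
  have hpos₂ : ∀ P ∈ (Ideal.span {cst A₀ Z.t⁻¹ Z.ϖ}).minimalPrimes, PosAt P (v - 1) := by
    intro P hP
    obtain ⟨X, hX⟩ := Z.cen₂ P hP
    exact (hX _).1.2 (hv X)
  have hgood₂ : ∀ 𝔫 : Ideal (Chart A₀ Z.t⁻¹), 𝔫.IsMaximal → cst A₀ Z.t⁻¹ Z.ϖ ∈ 𝔫 →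
      crd A₀ Z.t⁻¹ ∈ 𝔫 → GoodAt (cst A₀ Z.t⁻¹ Z.ϖ) Z.m v 𝔫 := by
    intro 𝔫 h𝔫 hmem hcrd
    exact hZOne (Chart A₀ Z.t⁻¹) F (cst A₀ Z.t⁻¹ Z.ϖ) Z.m v 𝔫 hϖ2 hm h𝔫 hmem (Z.reg₂ 𝔫 h𝔫 hmem hcrd)
      hH₂v hpos₂ (Z.tri₂ 𝔫 h𝔫 hmem hcrd) (Z.nor₂ 𝔫 h𝔫 hmem hcrd)
  obtain ⟨𝔫, h𝔫, hmem, hcrd, hroot⟩ := Z.root
  obtain ⟨w, hw, hw1, -⟩ := hgood₂ 𝔫 h𝔫 hmem hcrd
  obtain ⟨y₀, hy₀⟩ := hroot _ hw1
  have hy : (algebraMap F L w * y₀) ^ Z.m = algebraMap F L v := by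
    rw [mul_pow, hy₀, ← map_pow, ← map_mul, mul_div_cancel₀ _ (pow_ne_zero _ hw)]
  obtain ⟨g, hg⟩ := hCOV A₀ F L Z.ϖ Z.t Z.m Z.ζ v _ Z.hϖ Z.ht Z.hfin Z.hL Z.hm Z.hζ hv0 hy hgood
    hpos₂ hgood₂
  have hfin := hcl.final hp hg
  have e : ((toV Z).r + 1) * ((toV Z).r - 1) * ((toV Z).r ^ 2 - 1) = (Z.r ^ 2 - 1) ^ 2 := by
    have : Z.r ^ 2 - 1 = (Z.r + 1) * (Z.r - 1) := by
      have := Nat.sq_sub_sq Z.r 1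
      rwa [one_pow] at this
    change (Z.r + 1) * (Z.r - 1) * (Z.r ^ 2 - 1) = _
    rw [← this]
    exact (sq _).symm
  rw [e] at hfin
  exact hfin

end ZM

end Fermat.Agent.S36
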